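import Fermat.Agent.TW.Idele.ClassField.UnitNorm

/-!
# Auxiliary split places

For a Kummer extension `F'/F` inside `L` we choose places outside `T`, split in `F'`, which
separate the `T`-units of `F` modulo `p`-th powers and the Kummer element, one residue
characteristic at a time (Frobenius density).
-/

set_option autoImplicit false
set_option synthInstance.maxHeartbeats 200000
set_option maxHeartbeats 1000000

noncomputable section

open scoped Pointwise NumberField

namespace FLTAgent.TW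

open PreIdele

local notation "ℚ̄" => AlgebraicClosure ℚ
local notation "Γ" => (AlgebraicClosure ℚ ≃ₐ[ℚ] AlgebraicClosure ℚ)

attribute [local instance] numberField_intermediate

variable {p : ℕ} {T : Finset ℕ} {L F F' : IntermediateField ℚ (AlgebraicClosure ℚ)}

/-- The ideles of `F` which are units outside `Z`. -/
def offIdeles (Z : Place → Prop) (F : IntermediateField ℚ (AlgebraicClosure ℚ)) :
    Subgroup PreIdele where
  carrier := {φ | φ ∈ ideles F ∧ ∀ A : Place, ¬ Z A → φ.fin A ∈ A.1.unitGroup}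
  one_mem' := ⟨one_mem _, fun _ _ => one_mem _⟩
  mul_mem' := by
    rintro φ ψ ⟨h1, h2⟩ ⟨k1, k2⟩
    exact ⟨mul_mem h1 k1, fun A hA => mul_mem (h2 A hA) (k2 A hA)⟩
  inv_mem' := by
    rintro φ ⟨h1, h2⟩
    exact ⟨inv_mem h1, fun A hA => inv_mem (h2 A hA)⟩

theorem exists_div_principal_mem (hT : TPrincipal T F) {φ : PreIdele} (hφ : φ ∈ ideles F) :
    ∃ x : ℚ̄ˣ, (x : ℚ̄) ∈ F ∧ φ / principalHom x ∈ offIdeles (fun A => A.Over T) F := by
  obtain ⟨x, hxF, hx⟩ := hT φ hφ
  refine ⟨x, hxF, div_mem hφ (principalHom_mem_ideles hxF), fun A hA => ?_⟩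
  show finHom A (φ / principalHom x) ∈ _
  rw [_root_.map_div, div_eq_mul_inv]
  exact hx A hA

theorem zpow_valuation_char_injective (A : Place) :
    Function.Injective fun k : ℤ => A.1.valuation (A.char : ℚ̄) ^ k :=
  (zpow_right_strictAnti₀ (zero_lt_iff.mpr A.valuation_char_ne_zero)
    A.valuation_char_lt_one).injective

/-- An idele of `F` with the valuations of `β` outside `T`. -/
theorem exists_valuation_idele (β : ℚ̄ˣ)
    (hinv : ∀ σ ∈ F.fixingSubgroup, ∀ A : Place,
      A.1.valuation (σ (β : ℚ̄)) = A.1.valuation (β : ℚ̄))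
    (hunr : ∀ A : Place, ¬ A.Over T → ∀ σ ∈ A.1.inertiaSubgroupIn ℚ, σ (β : ℚ̄) = β) :
    ∃ φ ∈ ideles F, ∀ A : Place, ¬ A.Over T →
      A.1.valuation (φ.fin A : ℚ̄) = A.1.valuation (β : ℚ̄) := by
  classical
  have hk : ∀ A : Place, ∃ k : ℤ, ¬ A.Over T →
      A.1.valuation (β : ℚ̄) = A.1.valuation (A.char : ℚ̄) ^ k := fun A => by
    by_cases hA : A.Over T
    · exact ⟨0, fun h => absurd hA h⟩
    · obtain ⟨k, hk⟩ := EllP.exists_valuation_eq_zpow A.prime_char A.liesOver_char β.ne_zero (hunr A hA)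
      exact ⟨k, fun _ => hk⟩
  choose k hk using hk
  let φ : PreIdele :=
    { fin := fun A => if A.Over T then 1 else
        (Units.mk0 (A.char : ℚ̄) (Nat.cast_ne_zero.mpr A.prime_char.ne_zero)) ^ k A
      inf := 1 }
  have hval : ∀ A : Place, ¬ A.Over T →
      A.1.valuation (φ.fin A : ℚ̄) = A.1.valuation (β : ℚ̄) := fun A hA => by
    simp only [φ, if_neg hA, Units.val_zpow_eq_zpow_val, Units.val_mk0, map_zpow₀, hk A hA]
  obtain ⟨S, hS⟩ := exists_finset_unit β
  refine ⟨φ, ⟨fun σ hσ => PreIdele.ext (funext fun A => Units.ext ?_) rfl, fun ι => by simp [φ],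
    S, fun A hA => ?_⟩, hval⟩
  · rw [coe_fin_smul]
    by_cases hA : A.Over T
    · simp [φ, hA, hA.smul σ⁻¹]
    · have hA' : ¬ (σ⁻¹ • A).Over T := fun h => hA (Place.over_smul_iff.mp h)
      have hkey : k (σ⁻¹ • A) = k A := by
        refine zpow_valuation_char_injective A ?_
        have h1 : (σ⁻¹ • A).1.valuation (β : ℚ̄) =
            (σ⁻¹ • A).1.valuation (((σ⁻¹ • A).char : ℚ̄) ^ k (σ⁻¹ • A)) := by
          rw [map_zpow₀]; exact hk _ hA'
        have h2 := (valuation_smul_eq_iff σ (σ⁻¹ • A)).mpr h1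
        rw [smul_inv_smul, map_zpow₀, map_natCast, map_zpow₀, Place.char_smul, hinv σ hσ,
          hk A hA] at h2
        exact h2.symm
      simp [φ, hA, hA', hkey]
  · by_cases h : A.Over T
    · simp only [φ, if_pos h]; exact one_mem _
    · rw [mem_unitGroup_iff, hval A h]
      exact mem_unitGroup_iff.mp (hS A hA)

/-- Normalising a Kummer generator to a root of a `T`-unit. -/
theorem exists_unit_root [hp : Fact p.Prime] (hL : IdeleSetting T p L) (hT : TPrincipal T F)
    {β : ℚ̄ˣ} (hβL : (β : ℚ̄) ∈ L) (hβ : (β : ℚ̄) ^ p ∈ F) :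
    ∃ x : ℚ̄ˣ, (x : ℚ̄) ∈ F ∧ ∀ A : Place, ¬ A.Over T → β / x ∈ A.1.unitGroup := by
  have hinv : ∀ σ ∈ F.fixingSubgroup, ∀ A : Place,
      A.1.valuation (σ (β : ℚ̄)) = A.1.valuation (β : ℚ̄) := fun σ hσ A => by
    refine (pow_left_inj₀ zero_le zero_le hp.out.ne_zero).mp ?_
    rw [← map_pow, ← map_pow, ← map_pow, apply_of_mem hβ hσ]
  obtain ⟨φ, hφ, hval⟩ := exists_valuation_idele (T := T) (F := F) β hinv
    fun A hA σ hσ => apply_of_mem hβL (hL.unramified A hA σ hσ)
  obtain ⟨x, hxF, hx⟩ := hT φ hφ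
  refine ⟨x, hxF, fun A hA => ?_⟩
  have h := mem_unitGroup_iff.mp (hx A hA)
  rw [mem_unitGroup_iff]
  simpa [div_eq_mul_inv, hval A hA] using h

variable [FiniteDimensional ℚ F]

/-- A Frobenius element fixing `F'` and moving a given `p`-th root. -/
theorem exists_frobenius_moving [hp : Fact p.Prime] (hL : IdeleSetting T p L) (hFF' : F ≤ F')
    (hF'L : F' ≤ L) (hμ : ContainsMuP p F) {z : ℚ̄} (hz : z ^ p ∈ F) {σ : Γ}
    (hσ : σ ∈ F'.fixingSubgroup) (hσz : σ z ≠ z) (S : Finset ℕ) :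
    ∃ (A : Place) (τ : Γ), A.char ∉ S ∧ ¬ A.Over T ∧ A.1.IsFrobeniusAt τ A.char ∧
      τ ∈ F'.fixingSubgroup ∧ τ z ≠ z := by
  classical
  have := hL.finite
  have := GalCommon.normal_Qbar
  have : FiniteDimensional ℚ (IntermediateField.adjoin ℚ {z}) :=
    IntermediateField.adjoin.finiteDimensional (EllP.qbarIsAlgebraic.isAlgebraic z).isIntegral
  set K := L ⊔ IntermediateField.adjoin ℚ {z}
  set N := IntermediateField.normalClosure ℚ ↥K ℚ̄ with hN
  have : Normal ℚ N := normalClosure.normal ℚ _ ℚ̄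
  have : IsGalois ℚ N := ⟨⟩
  have hzN : z ∈ N := IntermediateField.le_normalClosure K
    (le_sup_right (a := L) (IntermediateField.mem_adjoin_simple_self ℚ z))
  have hF'N : F' ≤ N := hF'L.trans (le_sup_left.trans (IntermediateField.le_normalClosure K))
  obtain ⟨ℓ, hℓ, hℓS, -, A₀, hA₀, τ, hτ, k, hk, hres⟩ :=
    Density.exists_isFrobeniusAt_restrict_eq_pow N (AlgEquiv.restrictNormalHom N σ) (S ∪ T)
  rw [Finset.mem_union, not_or] at hℓS
  set A : Place := ⟨A₀, ℓ, hℓ, hA₀⟩
  have hchar : A.char = ℓ := A.char_eq hℓ hA₀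
  have hmem : (σ ^ k)⁻¹ * τ ∈ N.fixingSubgroup :=
    Density.inv_mul_mem_fixingSubgroup_of_restrict_eq (by rw [map_pow, hres])
  have hτF' : τ ∈ F'.fixingSubgroup := by
    simpa using mul_mem (pow_mem hσ k) (IntermediateField.fixingSubgroup_le hF'N hmem)
  refine ⟨A, τ, hchar ▸ hℓS.1, fun h => hℓS.2 (hchar ▸ A.over_iff.mp h),
    hchar.symm ▸ hτ, hτF', fun hτz => ?_⟩
  obtain ⟨ζ, hζ⟩ := exists_primitiveRoot_qbar p
  have hz0 : z ≠ 0 := fun h => hσz (by rw [h, map_zero])
  have hσF := IntermediateField.fixingSubgroup_le hFF' hσ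
  obtain ⟨i, hi, hσi⟩ := exists_zeta_pow hζ hz0 (apply_of_mem hz hσF)
  have hpow : ∀ m : ℕ, (σ ^ m : Γ) z = ζ ^ (i * m) * z := fun m => by
    induction m with
    | zero => simp
    | succ m ih =>
      rw [pow_succ', AlgEquiv.mul_apply, ih, map_mul, hσi,
        map_pow, apply_of_mem (hμ ζ hζ.pow_eq_one) hσF, mul_add, mul_one, pow_add, mul_assoc]
  have hi0 : i ≠ 0 := fun h => hσz (by rw [hσi, h, pow_zero, one_mul])
  have hdiv : ∀ m : ℕ, (σ ^ m : Γ) z = z → p ∣ m := fun m hm => by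
    rw [hpow, mul_eq_right₀ hz0] at hm
    exact ((hp.out.dvd_mul).mp (hζ.dvd_of_pow_eq_one _ hm)).resolve_left
      (Nat.not_dvd_of_pos_of_lt (Nat.pos_of_ne_zero hi0) hi)
  have h1 : p ∣ k := hdiv k (by
    have h := congrArg (σ ^ k : Γ) (apply_of_mem hzN hmem)
    rw [AlgEquiv.mul_apply, ← AlgEquiv.mul_apply (σ ^ k), mul_inv_cancel, AlgEquiv.one_apply,
      hτz] at h
    exact h.symm)
  have h2 : p ∣ orderOf (AlgEquiv.restrictNormalHom N σ) := hdiv _ (by
    refine apply_of_mem hzN (Density.mem_fixingSubgroup_of_restrict_eq_one ?_)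
    rw [map_pow, pow_orderOf_eq_one])
  exact hp.out.one_lt.ne' (Nat.eq_one_of_dvd_coprimes hk h1 h2)

/-- Auxiliary places for `F'/F`. -/
structure AuxPlaces (T : Finset ℕ) (p : ℕ) (F F' : IntermediateField ℚ (AlgebraicClosure ℚ))
    (n : ℕ) : Type where
  /-- the places -/
  A : Fin n → Place
  /-- the separating `T`-units -/
  y : Fin n → (AlgebraicClosure ℚ)ˣ
  notOver : ∀ i, ¬ (A i).Over T
  inj : Function.Injective fun i => (A i).char
  split : ∀ i, SplitAt F F' (A i)
  mem : ∀ i, y i ∈ tUnits T F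
  not_mem : ∀ i, y i ∉ decPow p F (A i)
  mem_of_lt : ∀ i j, j < i → y i ∈ decPow p F (A j)

theorem char_ne_of_notOver (hpT : p ∈ T) {A : Place} (h : ¬ A.Over T) : A.char ≠ p :=
  fun he => h (A.over_iff.mpr (he ▸ hpT))

/-- Enough auxiliary places. -/
theorem exists_auxPlaces [hp : Fact p.Prime] (hL : IdeleSetting T p L) (hT : TPrincipal T F)
    (hFF' : F ≤ F') (hF'L : F' ≤ L) (hμ : ContainsMuP p F)
    (hnormal : (F'.fixingSubgroup.subgroupOf F.fixingSubgroup).Normal)
    (hdeg : F'.fixingSubgroup.relIndex F.fixingSubgroup = p) :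
    ∀ n : ℕ, n ≤ numPlaces T F + numInf F - 1 → Nonempty (AuxPlaces T p F F' n) := by
  classical
  -- the Kummer generator
  obtain ⟨β₀, hβ₀F', hβ₀F, hβ₀⟩ := exists_kummer_generator hFF' hμ hnormal hdeg
  obtain ⟨x₀, hx₀F, hx₀⟩ := exists_unit_root hL hT (hF'L hβ₀F') hβ₀
  set β : ℚ̄ˣ := β₀ / x₀ with hβdef
  have hβF' : (β : ℚ̄) ∈ F' := by
    rw [hβdef, Units.val_div_eq_div_val]; exact div_mem hβ₀F' (hFF' hx₀F)
  have hβF : (β : ℚ̄) ∉ F := fun h => hβ₀F (by
    have := mul_mem h hx₀F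
    rwa [hβdef, Units.val_div_eq_div_val, div_mul_cancel₀ _ x₀.ne_zero] at this)
  have hβp : (β : ℚ̄) ^ p ∈ F := by
    rw [hβdef, Units.val_div_eq_div_val, div_pow]; exact div_mem hβ₀ (pow_mem hx₀F p)
  have hgen : ∀ σ ∈ F.fixingSubgroup, σ (β : ℚ̄) = β → σ ∈ F'.fixingSubgroup := fun σ h1 h2 =>
    mem_fixing_of_fixed hFF' hμ hdeg hβF' hβF hβp h1 h2
  have hαU : β ^ p ∈ tUnits T F :=
    ⟨by rw [Units.val_pow_eq_pow_val]; exact hβp, fun A hA => pow_mem (hx₀ A hA) p⟩
  set U := tUnits T F with hU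
  set Up := U.map (powMonoidHom p) with hUp
  have hUpU : Up ≤ U := by rintro _ ⟨u, hu, rfl⟩; exact pow_mem hu p
  set W := Up ⊔ Subgroup.zpowers (β ^ p) with hW
  have hWU : W ≤ U := sup_le hUpU (Subgroup.zpowers_le.mpr hαU)
  have hαW : β ^ p ∈ W := Subgroup.mem_sup_right (Subgroup.mem_zpowers _)
  have hUpW : Up.relIndex W ≤ p := by
    refine (relIndex_le_of_forall_div hαW fun u hu => ?_).1
    obtain ⟨a, ha, b, ⟨m, rfl⟩, rfl⟩ := Subgroup.mem_sup.mp hu
    refine ⟨(m % p).toNat, ?_, ?_⟩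
    · have h1 := Int.emod_lt_of_pos m (Int.natCast_pos.mpr hp.out.pos)
      have h2 := Int.emod_nonneg m (Int.natCast_ne_zero.mpr hp.out.ne_zero)
      omega
    · have h2 := Int.emod_nonneg m (Int.natCast_ne_zero.mpr hp.out.ne_zero)
      have e : (β ^ p) ^ m / (β ^ p) ^ (m % p).toNat = ((β ^ p) ^ (m / p)) ^ p := by
        rw [← zpow_natCast _ (m % p).toNat, Int.toNat_of_nonneg h2, div_eq_mul_inv, ← zpow_sub,
          ← zpow_natCast ((β ^ p) ^ (m / p)) p, ← zpow_mul]
        congr 1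
        have := Int.emod_def m p
        rw [this]; ring
      rw [mul_div_assoc]
      refine mul_mem ha ?_
      rw [e]
      exact ⟨(β ^ p) ^ (m / p), zpow_mem hαU _, rfl⟩
  intro n
  induction n with
  | zero => exact fun _ => ⟨⟨fun i => i.elim0, fun i => i.elim0, fun i => i.elim0,
      fun i => i.elim0, fun i => i.elim0, fun i => i.elim0, fun i => i.elim0, fun i => i.elim0⟩⟩
  | succ n ih =>
    intro hn
    obtain ⟨D⟩ := ih (by omega)
    set K : Subgroup ℚ̄ˣ := ⨅ j, decPow p F (D.A j) with hK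
    have hKU : K.relIndex U ≤ p ^ n ∧ K.relIndex U ≠ 0 := by
      have h := fun j => relIndex_decPow_tUnits hμ (D.notOver j) (char_ne_of_notOver hL.mem (D.notOver j))
      refine ⟨(Subgroup.relIndex_iInf_le _).trans ?_, Subgroup.relIndex_iInf_ne_zero fun j => (h j).2⟩
      calc ∏ j, (decPow p F (D.A j)).relIndex U ≤ ∏ _j : Fin n, p :=
            Finset.prod_le_prod' fun j _ => (h j).1
        _ = _ := by simp
    obtain ⟨x, hxU, hxK, hxW⟩ : ∃ x, x ∈ U ∧ x ∈ K ∧ x ∉ W := by
      by_contra hc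
      push Not at hc
      have h0 : (K ⊓ U).relIndex U ≠ 0 := by rw [Subgroup.inf_relIndex_right]; exact hKU.2
      have h1 := Subgroup.relIndex_le_of_le_left (H := K ⊓ U) (K := W) (L := U)
        (fun u hu => hc u hu.2 hu.1) h0
      rw [Subgroup.inf_relIndex_right] at h1
      have h2 := Subgroup.relIndex_mul_relIndex Up W U le_sup_left hWU
      rw [relIndex_tUnits_pow hL (hFF'.trans hF'L) hμ] at h2
      have h3 : p ^ (numPlaces T F + numInf F) ≤ p * p ^ n :=
        h2 ▸ Nat.mul_le_mul hUpW (h1.trans hKU.1)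
      rw [← pow_succ'] at h3
      have := (Nat.pow_le_pow_iff_right hp.out.one_lt).mp h3
      omega
    obtain ⟨z, hz⟩ := IsAlgClosed.exists_pow_nat_eq (x : ℚ̄) hp.out.pos
    have hz0 : z ≠ 0 := fun h => x.ne_zero (by rw [← hz, h, zero_pow hp.out.ne_zero])
    have hzF : z ^ p ∈ F := hz.symm ▸ hxU.1
    obtain ⟨σ, hσ, hσz⟩ : ∃ σ ∈ F'.fixingSubgroup, σ z ≠ z := by
      by_contra hc
      push Not at hc
      obtain ⟨ζ, hζ⟩ := exists_primitiveRoot_qbar p
      obtain ⟨σ₀, hσ₀, hσ₀'⟩ := exists_moving hβF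
      obtain ⟨a, ha, hσa⟩ := exists_zeta_pow hζ β.ne_zero (apply_of_mem hβp hσ₀)
      obtain ⟨b, -, hσb⟩ := exists_zeta_pow hζ hz0 (apply_of_mem hzF hσ₀)
      have ha0 : a ≠ 0 := fun h => hσ₀' (by rw [hσa, h, pow_zero, one_mul])
      obtain ⟨r, -, hr⟩ := Nat.exists_mul_mod_eq_one_of_coprime
        ((hp.out.coprime_iff_not_dvd.mpr (Nat.not_dvd_of_pos_of_lt (Nat.pos_of_ne_zero ha0) ha)).symm)
        hp.out.one_lt
      set j := r * b with hj
      have hζj : (ζ ^ a) ^ j = ζ ^ b := by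
        rw [hj, pow_mul, ← pow_mul ζ a r, ← pow_mod_orderOf ζ (a * r), ← hζ.eq_orderOf, hr, pow_one]
      set w : ℚ̄ˣ := Units.mk0 z hz0 / β ^ j with hw
      have hwF : (w : ℚ̄) ∈ F := mem_of_forall_fixed fun τ hτ => by
        obtain ⟨-, hrep, -⟩ := exists_pow_mem hnormal hdeg hσ₀
          (fun h => hσ₀' (apply_of_mem hβF' h))
        obtain ⟨i, -, hi⟩ := hrep τ hτ
        have hσ₀w : σ₀ (w : ℚ̄) = w := by
          simp only [hw, Units.val_div_eq_div_val, Units.val_mk0, Units.val_pow_eq_pow_val,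
            map_div₀, map_pow, hσa, hσb, mul_pow, hζj]
          rw [mul_div_mul_left _ _ (pow_ne_zero _ (hζ.ne_zero hp.out.ne_zero))]
        have h1 : ((σ₀ ^ i)⁻¹ * τ : Γ) (w : ℚ̄) = w := by
          simp only [hw, Units.val_div_eq_div_val, Units.val_mk0, Units.val_pow_eq_pow_val,
            map_div₀, map_pow, hc _ hi, apply_of_mem hβF' hi]
        have h2 := congrArg (σ₀ ^ i : Γ) h1
        rw [← AlgEquiv.mul_apply, mul_inv_cancel_left] at h2
        rw [h2]
        exact Subgroup.pow_mem (MulAction.stabilizer Γ (w : ℚ̄)) (show σ₀ ∈ _ from hσ₀w) i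
      have hwU : w ∈ U := ⟨hwF, fun A hA => by
        refine div_mem ?_ (pow_mem (hx₀ A hA) j)
        rw [mem_unitGroup_iff, Units.val_mk0]
        refine (pow_eq_one_iff_of_nonneg zero_le hp.out.ne_zero).mp ?_
        rw [← map_pow, hz]
        exact mem_unitGroup_iff.mp (hxU.2 A hA)⟩
      refine hxW ?_
      have e : x = w ^ p * (β ^ p) ^ j := by
        refine Units.ext ?_
        simp only [hw, Units.val_mul, Units.val_pow_eq_pow_val, Units.val_div_eq_div_val, Units.val_mk0]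
        rw [div_pow, hz, ← pow_mul, ← pow_mul, mul_comm p j,
          div_mul_cancel₀ _ (pow_ne_zero _ β.ne_zero)]
      rw [e]
      exact mul_mem (Subgroup.mem_sup_left ⟨w, hwU, rfl⟩) (pow_mem hαW j)
    obtain ⟨A, τ, hAS, hAT, hτ, hτF', hτz⟩ :=
      exists_frobenius_moving hL hFF' hF'L hμ hzF hσ hσz (Finset.univ.image fun j => (D.A j).char)
    have hAp := char_ne_of_notOver hL.mem hAT
    have hτF := IntermediateField.fixingSubgroup_le hFF' hτF'
    have hτA : τ • A = A := Subtype.ext (MulAction.mem_stabilizer_iff.mp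
      (GalCommon.isFrobeniusAt_iff.mp hτ).1)
    have hsplit : SplitAt F F' A := fun σ hσ hσA => hgen σ hσ
      (fixed_of_frobenius_fixed hAp (mem_unitGroup_iff.mp (hx₀ A hAT)) hτ
        (apply_of_mem hβF' hτF') hσA (apply_of_mem hβp hσ))
    have hxnot : x ∉ decPow p F A := by
      rintro ⟨t, ht, hfix⟩
      have hq : (z / (t : ℚ̄)) ^ p = 1 := by
        rw [div_pow, hz, ← ht, Units.val_pow_eq_pow_val, div_self (pow_ne_zero _ t.ne_zero)]
      have h1 := apply_of_mem (hμ _ hq) hτF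
      rw [map_div₀, hfix τ hτF hτA, div_left_inj' t.ne_zero] at h1
      exact hτz h1
    rw [hK, Subgroup.mem_iInf] at hxK
    refine ⟨⟨Fin.snoc D.A A, Fin.snoc D.y x, ?_, ?_, ?_, ?_, ?_, ?_⟩⟩
    · refine Fin.lastCases ?_ fun i => ?_ <;> simp [D.notOver, hAT]
    · intro i j h
      induction i using Fin.lastCases with
      | last =>
        induction j using Fin.lastCases with
        | last => rfl
        | cast j =>
          simp only [Fin.snoc_last, Fin.snoc_castSucc] at h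
          exact absurd (Finset.mem_image.mpr ⟨j, Finset.mem_univ j, h.symm⟩) hAS
      | cast i =>
        induction j using Fin.lastCases with
        | last =>
          simp only [Fin.snoc_last, Fin.snoc_castSucc] at h
          exact absurd (Finset.mem_image.mpr ⟨i, Finset.mem_univ i, h⟩) hAS
        | cast j =>
          simp only [Fin.snoc_castSucc] at h
          rw [D.inj h]
    · refine Fin.lastCases ?_ fun i => ?_
      · simpa using hsplit
      · simpa using D.split i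
    · refine Fin.lastCases ?_ fun i => ?_
      · simpa using hxU
      · simpa using D.mem i
    · refine Fin.lastCases ?_ fun i => ?_
      · simpa using hxnot
      · simpa using D.not_mem i
    · intro i j hji
      induction j using Fin.lastCases with
      | last => exact absurd hji (not_lt.mpr (Fin.le_last i))
      | cast j =>
        induction i using Fin.lastCases with
        | last => simpa using hxK j
        | cast i => simpa using D.mem_of_lt i j (by simpa using hji)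

/-- `T`-units reach every unit class at the auxiliary places. -/
theorem AuxPlaces.exists_mul_mem [hp : Fact p.Prime] {n : ℕ} (D : AuxPlaces T p F F' n)
    (hμ : ContainsMuP p F) (hpT : p ∈ T) {φ : PreIdele} (hφ : φ ∈ ideles F)
    (hu : ∀ i, φ.fin (D.A i) ∈ (D.A i).1.unitGroup) :
    ∃ y ∈ tUnits T F, ∀ i, φ.fin (D.A i) * y ∈ decPow p F (D.A i) := by
  suffices h : ∀ m ≤ n, ∃ y ∈ tUnits T F, ∀ i : Fin n, (i : ℕ) < m →
      φ.fin (D.A i) * y ∈ decPow p F (D.A i) from
    let ⟨y, hy, h'⟩ := h n le_rfl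
    ⟨y, hy, fun i => h' i i.2⟩
  intro m
  induction m with
  | zero => exact fun _ => ⟨1, one_mem _, fun i h => absurd h (Nat.not_lt_zero _)⟩
  | succ m ih =>
    intro hm
    obtain ⟨y, hy, hyi⟩ := ih (by omega)
    set k : Fin n := ⟨m, by omega⟩
    have hk := D.notOver k
    obtain ⟨e, -, he⟩ := exists_pow_div_mem_decPow hμ (char_ne_of_notOver hpT hk)
      (u := φ.fin (D.A k) * y) (mul_mem (hu k) (hy.2 _ hk)) ((D.mem k).2 _ hk)
      (fun σ hσ hσA => by rw [Units.val_mul, map_mul, fin_fixed hφ _ hσ hσA, apply_of_mem hy.1 hσ])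
      (fun σ hσ _ => apply_of_mem (D.mem k).1 hσ) (D.not_mem k)
    refine ⟨y / D.y k ^ e, div_mem hy (pow_mem (D.mem k) e), fun i hi => ?_⟩
    rw [← mul_div_assoc]
    rcases Nat.lt_succ_iff_lt_or_eq.mp hi with h | h
    · exact div_mem (hyi i h) (pow_mem (D.mem_of_lt k i h) e)
    · have : i = k := Fin.ext h
      exact this ▸ he

end FLTAgent.TW
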