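import Fermat.Agent.TW.Idele.Basic
import Fermat.Agent.LocP.Place

/-!
# Norms of the ideles of single places, norm subgroups

The norm as a homomorphism `normHomIdele` with image `normSubgroup` of the ideles, the membership
properties of `placeIdele`, generation of finite-level decomposition groups by Frobenius and
inertia, and `normIdele_placeIdele`: at a place unramified in the upper field the norm is
`placeIdele ^ d`, `d` the relative residue degree.
-/

set_option autoImplicit false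
set_option maxHeartbeats 1000000

noncomputable section

open scoped Pointwise

namespace FLTAgent.TW

open PreIdele
open scoped Classical

local notation "ℚ̄" => AlgebraicClosure ℚ
local notation "Γ" => (AlgebraicClosure ℚ ≃ₐ[ℚ] AlgebraicClosure ℚ)

variable {T : Finset ℕ} {F F' : IntermediateField ℚ (AlgebraicClosure ℚ)}

theorem coe_fin_normIdele [FiniteDimensional ℚ F'] (φ : PreIdele) (A : Place)
    [Fintype (F.fixingSubgroup ⧸ F'.fixingSubgroup.subgroupOf F.fixingSubgroup)] :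
    ((normIdele F F' φ).fin A : ℚ̄) =
      ∏ c : F.fixingSubgroup ⧸ F'.fixingSubgroup.subgroupOf F.fixingSubgroup,
        ((Quotient.out c : F.fixingSubgroup) : Γ)
          (φ.fin (((Quotient.out c : F.fixingSubgroup) : Γ)⁻¹ • A) : ℚ̄) := by
  show (finHom A (normIdele F F' φ) : ℚ̄) = _
  unfold normIdele
  rw [finprod_eq_prod_of_fintype, map_prod, Units.coe_prod]
  rfl

theorem inf_normIdele [FiniteDimensional ℚ F'] (φ : PreIdele) (ι : Emb)
    [Fintype (F.fixingSubgroup ⧸ F'.fixingSubgroup.subgroupOf F.fixingSubgroup)] :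
    (normIdele F F' φ).inf ι =
      ∏ c : F.fixingSubgroup ⧸ F'.fixingSubgroup.subgroupOf F.fixingSubgroup,
        φ.inf (ι.comp ((((Quotient.out c : F.fixingSubgroup) : Γ)) : ℚ̄ →+* ℚ̄)) := by
  show infHom ι (normIdele F F' φ) = _
  unfold normIdele
  rw [finprod_eq_prod_of_fintype, map_prod]
  rfl

theorem normIdele_one' [FiniteDimensional ℚ F'] : normIdele F F' 1 = 1 :=
  haveI := finite_fixing_quotient F.fixingSubgroup F'
  cosetProd_one

/-- The norm as a homomorphism on all pre-ideles. -/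
def normHomIdele (F F' : IntermediateField ℚ (AlgebraicClosure ℚ)) [FiniteDimensional ℚ F'] :
    PreIdele →* PreIdele where
  toFun := normIdele F F'
  map_one' := normIdele_one'
  map_mul' := normIdele_mul'

@[simp] theorem normHomIdele_apply [FiniteDimensional ℚ F'] (φ : PreIdele) :
    normHomIdele F F' φ = normIdele F F' φ := rfl

theorem normSubgroup_eq_map [FiniteDimensional ℚ F'] :
    normSubgroup F F' = (ideles F').map (normHomIdele F F') := by
  rw [normSubgroup, ← Subgroup.closure_eq ((ideles F').map (normHomIdele F F'))]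
  rfl

theorem normIdele_mem_normSubgroup {φ : PreIdele} (hφ : φ ∈ ideles F') :
    normIdele F F' φ ∈ normSubgroup F F' :=
  Subgroup.subset_closure ⟨φ, hφ, rfl⟩

theorem normSubgroup_le_ideles [FiniteDimensional ℚ F'] : normSubgroup F F' ≤ ideles F := by
  rw [normSubgroup, Subgroup.closure_le]
  rintro _ ⟨φ, hφ, rfl⟩
  exact normIdele_mem' hφ

/-! ### The idele of a place -/

theorem placeIdele_fin_self (q : ℕ) (hq : q ≠ 0) (A : Place) :
    ((placeIdele F q hq A).fin A : ℚ̄) = q := by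
  show ((if _ then _ else _ : ℚ̄ˣ) : ℚ̄) = _
  rw [if_pos ⟨1, one_mem _, one_smul _ _⟩]
  rfl

theorem placeIdele_fin_of_not (q : ℕ) (hq : q ≠ 0) {A B : Place}
    (h : ¬ ∃ σ ∈ F.fixingSubgroup, σ • A = B) : (placeIdele F q hq A).fin B = 1 := by
  show (if _ then _ else _) = _
  rw [if_neg h]

theorem placeIdele_fin_cases (q : ℕ) (hq : q ≠ 0) (A B : Place) :
    ((placeIdele F q hq A).fin B : ℚ̄) = q ∨ (placeIdele F q hq A).fin B = 1 := by
  by_cases h : ∃ σ ∈ F.fixingSubgroup, σ • A = B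
  · left
    show ((if _ then _ else _ : ℚ̄ˣ) : ℚ̄) = _
    rw [if_pos h]
    rfl
  · exact Or.inr (placeIdele_fin_of_not q hq h)

theorem placeIdele_mem_ideles {q : ℕ} (hq : q.Prime) {A : Place} (hA : A.1.LiesOverPrime q) :
    placeIdele F q hq.ne_zero A ∈ ideles F := by
  refine ⟨fun σ hσ => PreIdele.ext (funext fun B => Units.ext ?_) rfl,
    fun ι => by simp [placeIdele], {q}, fun B hB => ?_⟩
  · rw [coe_fin_smul]
    by_cases h : ∃ τ ∈ F.fixingSubgroup, τ • A = B
    · obtain ⟨τ, hτ, rfl⟩ := h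
      have h' : ∃ ρ ∈ F.fixingSubgroup, ρ • A = σ⁻¹ • τ • A :=
        ⟨σ⁻¹ * τ, mul_mem (inv_mem hσ) hτ, mul_smul _ _ _⟩
      show σ ((if _ then _ else _ : ℚ̄ˣ) : ℚ̄) = ((if _ then _ else _ : ℚ̄ˣ) : ℚ̄)
      rw [if_pos h', if_pos ⟨τ, hτ, rfl⟩, Units.val_mk0, map_natCast]
    · have h' : ¬ ∃ ρ ∈ F.fixingSubgroup, ρ • A = σ⁻¹ • B := by
        rintro ⟨ρ, hρ, hρA⟩
        exact h ⟨σ * ρ, mul_mem hσ hρ, by rw [mul_smul, hρA, smul_inv_smul]⟩
      rw [placeIdele_fin_of_not q _ h, placeIdele_fin_of_not q _ h', Units.val_one, map_one]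
  · rw [placeIdele_fin_of_not q _ ?_]
    · exact one_mem _
    · rintro ⟨σ, -, rfl⟩
      exact hB ⟨q, Finset.mem_singleton_self q, hq, GalCommon.liesOverPrime_smul hA⟩

theorem placeIdele_mem_awayIdeles {q : ℕ} (hq : q.Prime) (hqT : q ∉ T) {A : Place}
    (hA : A.1.LiesOverPrime q) : placeIdele F q hq.ne_zero A ∈ awayIdeles T F := by
  refine ⟨placeIdele_mem_ideles hq hA, fun B hB => placeIdele_fin_of_not q _ ?_, rfl⟩
  rintro ⟨σ, -, rfl⟩
  rw [Place.over_smul_iff, Place.over_iff, A.char_eq hq hA] at hB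
  exact hqT hB

/-- The decomposition group is generated by Frobenius and inertia at finite level. -/
theorem exists_pow_of_smul_eq {q : ℕ} (hq : q.Prime) {A : Place} (hA : A.1.LiesOverPrime q)
    {σ : Γ} (hσ : A.1.IsFrobeniusAt σ q) (K : IntermediateField ℚ ℚ̄) [FiniteDimensional ℚ K]
    (hI : ∀ ι ∈ A.1.inertiaSubgroupIn ℚ, ι ∈ K.fixingSubgroup) {h : Γ} (hh : h • A = A) :
    ∃ i : ℕ, (σ ^ i)⁻¹ * h ∈ K.fixingSubgroup := by
  have : Fact q.Prime := ⟨hq⟩
  have hD : h ∈ A.1.decompositionSubgroup ℚ :=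
    MulAction.mem_stabilizer_iff.mpr (congrArg Subtype.val hh)
  obtain ⟨i, ι, hι, hx⟩ := LocP.exists_eq_frob_pow_mul hA hσ hD K
  refine ⟨i, (IntermediateField.mem_fixingSubgroup_iff _ _).mpr fun x hxK => ?_⟩
  rw [AlgEquiv.mul_apply, hx x hxK, AlgEquiv.mul_apply,
    (IntermediateField.mem_fixingSubgroup_iff _ _).mp (hI ι hι) x hxK, ← AlgEquiv.mul_apply,
    inv_mul_cancel, AlgEquiv.one_apply]

theorem smul_eq_self_of_frobenius {q : ℕ} {A : Place} {σ : Γ} (hσ : A.1.IsFrobeniusAt σ q) (n : ℕ) :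
    σ ^ n • A = A :=
  Subtype.ext (MulAction.mem_stabilizer_iff.mp (pow_mem hσ.mem_decompositionSubgroup n))

/-- A positive power of any automorphism fixes a number field. -/
theorem exists_pow_mem_fixing (K : IntermediateField ℚ ℚ̄) [FiniteDimensional ℚ K] (σ : Γ) :
    ∃ n : ℕ, 0 < n ∧ σ ^ n ∈ K.fixingSubgroup := by
  have : Finite (Γ ⧸ K.fixingSubgroup) :=
    K.fixingSubgroup.quotient_finite_of_isOpen K.fixingSubgroup_isOpen
  have : K.fixingSubgroup.FiniteIndex := Subgroup.finiteIndex_of_finite_quotient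
  obtain ⟨n, hn, -, h⟩ := Subgroup.exists_pow_mem_of_index_ne_zero
    (H := K.fixingSubgroup) Subgroup.FiniteIndex.index_ne_zero σ
  exact ⟨n, hn, h⟩

/-- The least positive exponent with `σ ^ n` fixing `K`. -/
theorem exists_least_pow_mem_fixing (K : IntermediateField ℚ ℚ̄) [FiniteDimensional ℚ K] (σ : Γ) :
    ∃ n : ℕ, 0 < n ∧ σ ^ n ∈ K.fixingSubgroup ∧
      ∀ g : ℕ, 0 < g → g < n → σ ^ g ∉ K.fixingSubgroup := by
  classical
  have h := exists_pow_mem_fixing K σ
  exact ⟨Nat.find h, (Nat.find_spec h).1, (Nat.find_spec h).2,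
    fun g hg hlt hmem => Nat.find_min h hlt ⟨hg, hmem⟩⟩

theorem dvd_of_pow_mem {G : Type*} [Group G] {H : Subgroup G} {σ : G} {f i : ℕ} (hf : 0 < f)
    (hσf : σ ^ f ∈ H) (hmin : ∀ g : ℕ, 0 < g → g < f → σ ^ g ∉ H) (hi : σ ^ i ∈ H) : f ∣ i := by
  rcases Nat.eq_zero_or_pos (i % f) with h | h
  · exact Nat.dvd_of_mod_eq_zero h
  · refine absurd ?_ (hmin _ h (Nat.mod_lt _ hf))
    have e : σ ^ i = (σ ^ f) ^ (i / f) * σ ^ (i % f) := by
      rw [← pow_mul, ← pow_add, Nat.div_add_mod]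
    exact (H.mul_mem_cancel_left (pow_mem hσf _)).mp (e ▸ hi)

/-- The norm of the idele of a place at which the upper field is unramified: `placeIdele ^ d`,
where `d` is the relative residue degree. -/
theorem normIdele_placeIdele [FiniteDimensional ℚ F'] (hFF' : F ≤ F') {q : ℕ} (hq : q.Prime)
    {A : Place} (hA : A.1.LiesOverPrime q) {σ : Γ} (hσ : A.1.IsFrobeniusAt σ q)
    (hI : ∀ ι ∈ A.1.inertiaSubgroupIn ℚ, ι ∈ F'.fixingSubgroup) {f d : ℕ} (hf : 0 < f)
    (hσf : σ ^ f ∈ F.fixingSubgroup) (hfmin : ∀ g : ℕ, 0 < g → g < f → σ ^ g ∉ F.fixingSubgroup)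
    (hd : 0 < d) (hσd : (σ ^ f) ^ d ∈ F'.fixingSubgroup)
    (hdmin : ∀ g : ℕ, 0 < g → g < d → (σ ^ f) ^ g ∉ F'.fixingSubgroup) :
    normIdele F F' (placeIdele F' q hq.ne_zero A) = placeIdele F q hq.ne_zero A ^ d := by
  classical
  have := finite_fixing_quotient F.fixingSubgroup F'
  have := Fintype.ofFinite (F.fixingSubgroup ⧸ F'.fixingSubgroup.subgroupOf F.fixingSubgroup)
  set H := F.fixingSubgroup with hH
  set H' := F'.fixingSubgroup with hH'
  have hle : H' ≤ H := IntermediateField.fixingSubgroup_le hFF'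
  have hN : normIdele F F' (placeIdele F' q hq.ne_zero A) ∈ ideles F :=
    normIdele_mem' (placeIdele_mem_ideles hq hA)
  have hR : placeIdele F q hq.ne_zero A ^ d ∈ ideles F := pow_mem (placeIdele_mem_ideles hq hA) _
  refine PreIdele.ext (funext fun B => Units.ext ?_) (funext fun ι => ?_)
  swap
  · rw [inf_normIdele]
    show _ = infHom ι (placeIdele F q hq.ne_zero A ^ d)
    rw [map_pow]
    exact (Finset.prod_eq_one fun c _ => rfl).trans (one_pow d).symm
  by_cases hB : ∃ γ ∈ H, γ • A = B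
  · obtain ⟨γ, hγ, rfl⟩ := hB
    rw [coe_smul_fin hN hγ, coe_smul_fin hR hγ]
    congr 1
    rw [coe_fin_normIdele]
    have hR1 : ((placeIdele F q hq.ne_zero A ^ d).fin A : ℚ̄) = (q : ℚ̄) ^ d := by
      show (finHom A (_ ^ d) : ℚ̄) = _
      rw [map_pow, Units.val_pow_eq_pow_val]
      show ((placeIdele F q hq.ne_zero A).fin A : ℚ̄) ^ d = _
      rw [placeIdele_fin_self]
    rw [hR1]
    let C : Finset (H ⧸ H'.subgroupOf H) := Finset.univ.filter fun c =>
      ∃ τ ∈ H', τ • A = ((Quotient.out c : H) : Γ)⁻¹ • A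
    have hmemC : ∀ c, c ∈ C ↔ ∃ τ ∈ H', τ • A = ((Quotient.out c : H) : Γ)⁻¹ • A := fun c => by
      simp [C]
    have hval : ∀ c : H ⧸ H'.subgroupOf H, ((Quotient.out c : H) : Γ)
        ((placeIdele F' q hq.ne_zero A).fin (((Quotient.out c : H) : Γ)⁻¹ • A) : ℚ̄) =
        if c ∈ C then (q : ℚ̄) else 1 := fun c => by
      by_cases hc : ∃ τ ∈ H', τ • A = ((Quotient.out c : H) : Γ)⁻¹ • A
      · rw [if_pos ((hmemC c).mpr hc)]
        show _ = _
        simp only [placeIdele]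
        rw [if_pos hc, Units.val_mk0, map_natCast]
      · rw [if_neg fun h => hc ((hmemC c).mp h), placeIdele_fin_of_not _ _ hc,
          Units.val_one, map_one]
    rw [Finset.prod_congr rfl fun c _ => hval c, Finset.prod_ite_mem, Finset.univ_inter,
      Finset.prod_const]
    congr 1
    let e : ℕ → H ⧸ H'.subgroupOf H := fun j => QuotientGroup.mk ⟨(σ ^ f) ^ j, pow_mem hσf j⟩
    have hCmem : ∀ j, e j ∈ C := fun j => by
      refine (hmemC _).mpr ?_
      have hmem : (((Quotient.out (e j))⁻¹ * ⟨(σ ^ f) ^ j, pow_mem hσf j⟩ : H) : Γ) ∈ H' :=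
        mem_of_mk_eq (QuotientGroup.out_eq' _)
      refine ⟨_, hmem, ?_⟩
      rw [Subgroup.coe_mul, InvMemClass.coe_inv, mul_smul]
      show _ • ((σ ^ f) ^ j • A) = _
      rw [← pow_mul, smul_eq_self_of_frobenius hσ]
    refine (Finset.card_eq_of_bijective (fun j _ => e j) ?_ (fun j _ => hCmem j) ?_)
    · intro c hc
      obtain ⟨τ, hτ, hτA⟩ := (hmemC c).mp hc
      set g := ((Quotient.out c : H) : Γ)
      have hgτA : (g * τ) • A = A := by rw [mul_smul, hτA, smul_inv_smul]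
      obtain ⟨i, hi⟩ := exists_pow_of_smul_eq hq hA hσ F' hI hgτA
      have hiH : σ ^ i ∈ H := by
        have h1 : g * τ ∈ H := mul_mem (Quotient.out c).2 (hle hτ)
        have h2 := mul_mem h1 (inv_mem (hle hi))
        rwa [show g * τ * ((σ ^ i)⁻¹ * (g * τ))⁻¹ = σ ^ i by group] at h2
      obtain ⟨j, rfl⟩ := dvd_of_pow_mem hf hσf hfmin hiH
      refine ⟨j % d, Nat.mod_lt _ hd, ?_⟩
      rw [← QuotientGroup.out_eq' c]
      refine QuotientGroup.eq.mpr ?_
      rw [Subgroup.mem_subgroupOf, Subgroup.coe_mul, InvMemClass.coe_inv]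
      show ((σ ^ f) ^ (j % d))⁻¹ * g ∈ H'
      have h3 := mul_mem hi (inv_mem hτ)
      have e1 : (σ ^ (f * j))⁻¹ * (g * τ) * τ⁻¹ = (σ ^ (f * j))⁻¹ * g := by group
      rw [e1, pow_mul, ← Nat.mod_add_div j d, pow_add, mul_inv_rev, mul_assoc,
        pow_mul (σ ^ f)] at h3
      exact (H'.mul_mem_cancel_left (inv_mem (pow_mem hσd _))).mp h3
    · intro i j hi hj hij
      have h1 : ((((⟨(σ ^ f) ^ i, pow_mem hσf i⟩ : H))⁻¹ * ⟨(σ ^ f) ^ j, pow_mem hσf j⟩ : H) : Γ)
          ∈ H' := mem_of_mk_eq hij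
      have key : ∀ a b : ℕ, a ≤ b → b < d → ((σ ^ f) ^ a)⁻¹ * (σ ^ f) ^ b ∈ H' → a = b := by
        intro a b hab hb h
        by_contra hne
        refine hdmin (b - a) (by omega) (by omega) ?_
        obtain ⟨k, rfl⟩ := Nat.exists_eq_add_of_le hab
        rw [pow_add, inv_mul_cancel_left] at h
        rwa [Nat.add_sub_cancel_left]
      rcases le_total i j with h | h
      · exact key i j h hj (by simpa using h1)
      · refine (key j i h hi ?_).symm
        simpa using inv_mem h1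
  · rw [coe_fin_normIdele]
    show _ = (finHom B (placeIdele F q hq.ne_zero A ^ d) : ℚ̄)
    rw [map_pow]
    show _ = (((placeIdele F q hq.ne_zero A).fin B ^ d : ℚ̄ˣ) : ℚ̄)
    rw [placeIdele_fin_of_not q _ hB, one_pow, Units.val_one]
    refine Finset.prod_eq_one fun c _ => ?_
    rw [placeIdele_fin_of_not q _ ?_, Units.val_one, map_one]
    rintro ⟨τ, hτ, hτA⟩
    exact hB ⟨((Quotient.out c : H) : Γ) * τ, mul_mem (Quotient.out c).2 (hle hτ),
      by rw [mul_smul, hτA, smul_inv_smul]⟩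

end FLTAgent.TW
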