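import Fermat.Agent.TW.Idele.Basic

/-!
# Approximation with signs at the real embeddings

`exists_near_signs` finds elements of `F` with prescribed signs, and `exists_signed_approx`
approximates an idele at finitely many primes by an element of `F` of the same sign at every
real embedding.
-/

set_option autoImplicit false
set_option maxHeartbeats 1000000
set_option synthInstance.maxHeartbeats 200000

noncomputable section

open IsDedekindDomain
open scoped Pointwise NumberField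

namespace FLTAgent.TW

open PreIdele

local notation "ℚ̄" => AlgebraicClosure ℚ
local notation "Γ" => (AlgebraicClosure ℚ ≃ₐ[ℚ] AlgebraicClosure ℚ)

attribute [local instance] numberField_intermediate

variable {F : IntermediateField ℚ (AlgebraicClosure ℚ)}

/-- The Galois group is transitive on the embeddings. -/
theorem exists_emb_comp_eq (ι ι' : Emb) : ∃ σ : Γ, ι.comp (σ : ℚ̄ →+* ℚ̄) = ι' := by
  have := GalCommon.normal_Qbar
  let : Algebra ℚ̄ ℂ := ι.toAlgebra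
  have : IsScalarTower ℚ ℚ̄ ℂ := IsScalarTower.of_algebraMap_eq' (RingHom.ext_rat _ _)
  let g : ℚ̄ →ₐ[ℚ] ℂ := ι'.toRatAlgHom
  refine ⟨g.restrictNormal' ℚ̄, RingHom.ext fun x => ?_⟩
  exact AlgHom.restrictNormal_commutes g ℚ̄ x

theorem eq_of_emb_comp_eq {ι ι' : Emb} {σ : Γ} (h : ι.comp (σ : ℚ̄ →+* ℚ̄) = ι')
    (hF : ∀ x ∈ F, ι x = ι' x) : σ ∈ F.fixingSubgroup :=
  (IntermediateField.mem_fixingSubgroup_iff _ _).mpr fun x hx => ι.injective <| by
    rw [hF x hx, ← h]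
    rfl

/-- Embeddings with the same restriction give the same component. -/
theorem inf_eq_of_eqOn {φ : PreIdele} (hφ : φ ∈ ideles F) {ι ι' : Emb}
    (hF : ∀ x ∈ F, ι x = ι' x) : φ.inf ι' = φ.inf ι := by
  obtain ⟨σ, hσ⟩ := exists_emb_comp_eq ι ι'
  rw [← hσ]
  exact inf_fixed hφ ι (eq_of_emb_comp_eq hσ hF)

/-- The embedding is real on `F`. -/
def Emb.IsRealOn (ι : Emb) (F : IntermediateField ℚ ℚ̄) : Prop :=
  ∀ x ∈ F, starRingEnd ℂ (ι x) = ι x

/-- At a real embedding the component of an idele is real. -/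
theorem conj_inf_of_isRealOn {φ : PreIdele} (hφ : φ ∈ ideles F) {ι : Emb} (h : ι.IsRealOn F) :
    starRingEnd ℂ (φ.inf ι : ℂ) = φ.inf ι := by
  have h1 := inf_eq_of_eqOn hφ (ι := ι) (ι' := ι.conj) fun x hx => (h x hx).symm
  rw [hφ.2.1 ι] at h1
  exact congrArg Units.val h1

theorem re_mul_of_conj_eq {a b : ℂ} (ha : starRingEnd ℂ a = a) : (a * b).re = a.re * b.re := by
  have : a.im = 0 := Complex.conj_eq_iff_im.mp ha
  simp [Complex.mul_re, this]

theorem re_ne_zero_of_conj_eq {a : ℂ} (ha : starRingEnd ℂ a = a) (h0 : a ≠ 0) : a.re ≠ 0 := by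
  intro h
  exact h0 (Complex.ext h (Complex.conj_eq_iff_im.mp ha))

variable [FiniteDimensional ℚ F]

/-- An element of `F` near prescribed signs at the real embeddings. -/
theorem exists_near_signs (P : Emb → Prop)
    (hP : ∀ ι ι' : Emb, ι.IsRealOn F → (∀ x ∈ F, ι x = ι' x) → (P ι ↔ P ι')) :
    ∃ z : F, ∀ ι : Emb, ι.IsRealOn F →
      (P ι → 1 < (ι (z : ℚ̄)).re) ∧ (¬ P ι → (ι (z : ℚ̄)).re < -1) := by
  classical
  let mk : Emb → NumberField.InfinitePlace F := fun ι =>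
    NumberField.InfinitePlace.mk (ι.comp (algebraMap F ℚ̄))
  let tgt : (v : NumberField.InfinitePlace F) → WithAbs v.1 := fun v =>
    WithAbs.toAbs v.1 (if ∃ ι : Emb, ι.IsRealOn F ∧ mk ι = v ∧ P ι then (2 : F) else -2)
  obtain ⟨z, hz⟩ := Metric.denseRange_iff.mp
    (NumberField.InfinitePlace.denseRange_algebraMap_pi F) tgt 1 one_pos
  refine ⟨z, fun ι hι => ?_⟩
  have h1 : dist (tgt (mk ι))
      (algebraMap F ((v : NumberField.InfinitePlace F) → WithAbs v.1) z (mk ι)) < 1 :=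
    lt_of_le_of_lt (dist_le_pi_dist _ _ (mk ι)) hz
  rw [Pi.algebraMap_apply, WithAbs.algebraMap_right_apply, Algebra.algebraMap_self,
    RingHom.id_apply] at h1
  have hiff : (∃ ι' : Emb, ι'.IsRealOn F ∧ mk ι' = mk ι ∧ P ι') ↔ P ι := by
    refine ⟨?_, fun h => ⟨ι, hι, rfl, h⟩⟩
    rintro ⟨ι', hι', he, hP'⟩
    refine (hP ι ι' hι fun x hx => ?_).mpr hP'
    rcases NumberField.InfinitePlace.mk_eq_iff.mp he with h | h
    · exact (RingHom.congr_fun h ⟨x, hx⟩).symm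
    · have h2 := RingHom.congr_fun h ⟨x, hx⟩
      simp only [NumberField.ComplexEmbedding.conjugate_coe_eq] at h2
      rw [← (hι' x hx)]
      exact h2.symm
  rw [dist_eq_norm, WithAbs.norm_eq_apply_ofAbs] at h1
  rw [WithAbs.ofAbs_sub] at h1
  change (mk ι).1 ((if ∃ ι' : Emb, ι'.IsRealOn F ∧ mk ι' = mk ι ∧ P ι' then (2 : F) else -2) - z) < 1 at h1
  rw [if_congr hiff rfl rfl] at h1
  have key : ∀ c : F, (mk ι).1 c = ‖ι (c : ℚ̄)‖ := fun c =>
    NumberField.InfinitePlace.apply _ c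
  rw [key, AddSubgroupClass.coe_sub, map_sub] at h1
  constructor
  · intro h
    rw [if_pos h] at h1
    have h2 := (Complex.abs_re_le_norm _).trans_lt h1
    have e : ((2 : F) : ℚ̄) = 2 := map_ofNat F.val 2
    rw [Complex.sub_re, e, map_ofNat, abs_lt] at h2
    simp only [Complex.re_ofNat] at h2
    linarith [h2.2]
  · intro h
    rw [if_neg h] at h1
    have h2 := (Complex.abs_re_le_norm _).trans_lt h1
    have e : ((-2 : F) : ℚ̄) = -2 := (map_neg F.val 2).trans (congrArg Neg.neg (map_ofNat F.val 2))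
    rw [Complex.sub_re, e, map_neg, map_ofNat, abs_lt] at h2
    simp only [Complex.neg_re, Complex.re_ofNat] at h2
    linarith [h2.1]

/-- Approximation of an idele at finitely many primes and in sign at the real embeddings. -/
theorem exists_signed_approx {φ : PreIdele} (hφ : φ ∈ ideles F)
    (W : Finset (HeightOneSpectrum (𝓞 F))) (n : ℕ) : ∃ x : F, x ≠ 0 ∧
      (∀ A : Place, primeOf F A ∈ W →
        A.1.valuation ((x : ℚ̄) / φ.fin A - 1) ≤ A.1.valuation (A.char : ℚ̄) ^ n) ∧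
      ∀ ι : Emb, ι.IsRealOn F → 0 < ((φ.inf ι : ℂ) / ι (x : ℚ̄)).re := by
  classical
  obtain ⟨x₀, hx₀, hW⟩ := exists_idele_approx hφ W (n + 1)
  have hx₀' : (x₀ : ℚ̄) ≠ 0 := by simpa using hx₀
  obtain ⟨z, hz⟩ := exists_near_signs (F := F) (fun ι => 0 < ((φ.inf ι : ℂ) / ι (x₀ : ℚ̄)).re)
    (fun ι ι' _ he => by rw [inf_eq_of_eqOn hφ he, he _ x₀.2])
  -- a multiplier that makes the correction small at `W`
  let D : ℕ := ∏ P ∈ W, (placeAbove F P).char
  have hD : 1 ≤ D := Finset.prod_pos fun P _ => (placeAbove F P).prime_char.pos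
  obtain ⟨k, hk⟩ : ∃ k : ℕ, ∀ A : Place, primeOf F A ∈ W →
      A.1.valuation ((D : ℚ̄) ^ k * (z : ℚ̄)) ≤ A.1.valuation (A.char : ℚ̄) ^ (n + 1) := by
    have hDA : ∀ A : Place, primeOf F A ∈ W → A.1.valuation (D : ℚ̄) ≤ A.1.valuation (A.char : ℚ̄) := by
      intro A hA
      obtain ⟨c, hc⟩ : A.char ∣ D := by
        rw [← char_placeAbove (F := F) (A := A) rfl]
        exact Finset.dvd_prod_of_mem (fun P => (placeAbove F P).char) hA
      rw [hc, Nat.cast_mul, map_mul]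
      exact mul_le_of_le_one_right zero_le ((A.1.valuation_le_one_iff _).mpr (natCast_mem A.1 c))
    rcases eq_or_ne z 0 with rfl | hz0
    · exact ⟨0, fun A _ => by simp⟩
    obtain ⟨k, hk⟩ := exists_pow_le_of_ne_zero W (fun _ => z⁻¹) (fun _ _ => inv_ne_zero hz0)
    refine ⟨k + (n + 1), fun A hA => ?_⟩
    have h1 := hk A hA
    rw [IntermediateField.coe_inv, map_inv₀] at h1
    have hz' : A.1.valuation (z : ℚ̄) ≠ 0 := by simpa using hz0
    rw [← mul_one (A.1.valuation (z : ℚ̄))⁻¹, le_inv_mul_iff₀' (zero_lt_iff.mpr hz')] at h1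
    rw [map_mul, map_pow]
    calc A.1.valuation (D : ℚ̄) ^ (k + (n + 1)) * A.1.valuation (z : ℚ̄)
        ≤ A.1.valuation (A.char : ℚ̄) ^ (k + (n + 1)) * A.1.valuation (z : ℚ̄) := by
          exact mul_le_mul_left (pow_le_pow_left₀ zero_le (hDA A hA) _) _
      _ = A.1.valuation (A.char : ℚ̄) ^ (n + 1) *
          (A.1.valuation (A.char : ℚ̄) ^ k * A.1.valuation (z : ℚ̄)) := by rw [pow_add]; ac_rfl
      _ ≤ _ := mul_le_of_le_one_right zero_le h1
  set y : F := 1 + (D : F) ^ k * z with hy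
  have hycoe : (y : ℚ̄) = 1 + (D : ℚ̄) ^ k * (z : ℚ̄) := by
    rw [hy]; push_cast; rfl
  have hre : ∀ ι : Emb, (ι (y : ℚ̄)).re = 1 + (D : ℝ) ^ k * (ι (z : ℚ̄)).re := fun ι => by
    rw [hycoe, map_add, map_one, map_mul, map_pow, map_natCast, ← Complex.ofReal_natCast,
      ← Complex.ofReal_pow, Complex.add_re, Complex.one_re, Complex.re_ofReal_mul]
  have hval : ∀ A : Place, primeOf F A ∈ W →
      A.1.valuation ((x₀ : ℚ̄) * y / φ.fin A - 1) ≤ A.1.valuation (A.char : ℚ̄) ^ (n + 1) := by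
    intro A hA
    have h1 := hW A hA
    have h2 := hk A hA
    rw [hycoe, show (x₀ : ℚ̄) * (1 + (D : ℚ̄) ^ k * z) / φ.fin A - 1 =
      ((x₀ : ℚ̄) / φ.fin A - 1) * (1 + (D : ℚ̄) ^ k * z) + (D : ℚ̄) ^ k * z by ring]
    refine (A.1.valuation.map_add _ _).trans (max_le ?_ h2)
    rw [map_mul]
    refine mul_le_of_le_of_le_one h1 ((A.1.valuation.map_add _ _).trans (max_le (by simp) ?_))
    exact h2.trans (pow_le_one₀ zero_le A.valuation_char_lt_one.le)
  rcases eq_or_ne y 0 with hy0 | hy0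
  · -- then `W` is empty and there are no real embeddings
    have hW0 : ∀ A : Place, primeOf F A ∉ W := fun A hA => by
      have := hval A hA
      rw [hy0, ZeroMemClass.coe_zero, mul_zero, zero_div, zero_sub, Valuation.map_neg, map_one] at this
      exact absurd this (not_le.mpr (pow_lt_one₀ zero_le A.valuation_char_lt_one (by omega)))
    refine ⟨x₀, hx₀, fun A hA => absurd hA (hW0 A), fun ι hι => ?_⟩
    exfalso
    have h1 := hre ι
    rw [hy0, ZeroMemClass.coe_zero, map_zero, Complex.zero_re] at h1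
    have hDk : (1 : ℝ) ≤ (D : ℝ) ^ k := one_le_pow₀ (by exact_mod_cast hD)
    by_cases h : 0 < ((φ.inf ι : ℂ) / ι (x₀ : ℚ̄)).re
    · nlinarith [(hz ι hι).1 h]
    · nlinarith [(hz ι hι).2 h]
  refine ⟨x₀ * y, mul_ne_zero hx₀ hy0, fun A hA => (by
    simpa using (hval A hA).trans
      (pow_le_pow_of_le_one zero_le A.valuation_char_lt_one.le n.le_succ)), fun ι hι => ?_⟩
  have hDk : (1 : ℝ) ≤ (D : ℝ) ^ k := one_le_pow₀ (by exact_mod_cast hD)
  have hyreal : starRingEnd ℂ (ι (y : ℚ̄)) = ι (y : ℚ̄) := hι _ y.2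
  have hqreal : starRingEnd ℂ ((φ.inf ι : ℂ) / ι (x₀ : ℚ̄)) = (φ.inf ι : ℂ) / ι (x₀ : ℚ̄) := by
    rw [map_div₀, conj_inf_of_isRealOn hφ hι, hι _ x₀.2]
  have hq0 : (φ.inf ι : ℂ) / ι (x₀ : ℚ̄) ≠ 0 :=
    div_ne_zero (Units.ne_zero _) ((map_ne_zero ι).mpr hx₀')
  have e : (φ.inf ι : ℂ) / ι ((x₀ * y : F) : ℚ̄) =
      (φ.inf ι : ℂ) / ι (x₀ : ℚ̄) * (ι (y : ℚ̄))⁻¹ := by
    rw [IntermediateField.coe_mul, map_mul, div_mul_eq_div_div, div_eq_mul_inv (_ / _)]
  rw [e, re_mul_of_conj_eq hqreal]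
  have hy_inv : ((ι (y : ℚ̄))⁻¹).re = (ι (y : ℚ̄)).re⁻¹ := by
    have him : (ι (y : ℚ̄)).im = 0 := Complex.conj_eq_iff_im.mp hyreal
    rw [show ι (y : ℚ̄) = ((ι (y : ℚ̄)).re : ℂ) from Complex.ext rfl (by simp [him])]
    rw [← Complex.ofReal_inv, Complex.ofReal_re, Complex.ofReal_re]
  rw [hy_inv]
  by_cases h : 0 < ((φ.inf ι : ℂ) / ι (x₀ : ℚ̄)).re
  · exact mul_pos h (inv_pos.mpr (by rw [hre]; nlinarith [(hz ι hι).1 h]))
  · have h' : ((φ.inf ι : ℂ) / ι (x₀ : ℚ̄)).re < 0 :=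
      lt_of_le_of_ne (not_lt.mp h) (re_ne_zero_of_conj_eq hqreal hq0)
    exact mul_pos_of_neg_of_neg h' (inv_lt_zero.mpr (by rw [hre]; nlinarith [(hz ι hι).2 h]))

end FLTAgent.TW
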