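import Fermat.Agent.TW.Idele.Arith
import Fermat.Agent.TW.Idele.Local
import Fermat.Agent.TW.Idele.ClassField.PlaceNorm

/-!
# Restrictions of ideles, roots, and norms at split places

An idele of `F` supported at places and embeddings which split in `F'` is a norm from `F'`: lift
it at one chosen place of `F'` over each place of `F`.
-/

set_option autoImplicit false
set_option synthInstance.maxHeartbeats 200000

noncomputable section

open IsDedekindDomain
open scoped Pointwise NumberField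

namespace FLTAgent.TW

open PreIdele

local notation "ℚ̄" => AlgebraicClosure ℚ
local notation "Γ" => (AlgebraicClosure ℚ ≃ₐ[ℚ] AlgebraicClosure ℚ)

attribute [local instance] numberField_intermediate

/-- Precomposition of an embedding with an automorphism. -/
def Emb.twist (ι : Emb) (σ : Γ) : Emb := ι.comp (σ : ℚ̄ →+* ℚ̄)

theorem Emb.twist_one (ι : Emb) : ι.twist 1 = ι := rfl

theorem Emb.twist_mul (ι : Emb) (σ τ : Γ) : (ι.twist σ).twist τ = ι.twist (σ * τ) := rfl

theorem Emb.conj_twist (ι : Emb) (σ : Γ) : ι.conj.twist σ = (ι.twist σ).conj := rfl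

@[simp] theorem Emb.conj_conj (ι : Emb) : ι.conj.conj = ι :=
  RingHom.ext fun x => by simp [Emb.conj]

theorem Emb.twist_injective (ι : Emb) {σ τ : Γ} (h : ι.twist σ = ι.twist τ) : σ = τ :=
  AlgEquiv.ext fun x => ι.injective (RingHom.congr_fun h x)

theorem inf_smul_twist (σ : Γ) (φ : PreIdele) (ι : Emb) : (σ • φ).inf ι = φ.inf (ι.twist σ) := rfl

section Restr

open Classical in
/-- The components at the places satisfying `Z` and the embeddings satisfying `W`. -/
def restrIdele (Z : Place → Prop) (W : Emb → Prop) (φ : PreIdele) : PreIdele where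
  fin A := if Z A then φ.fin A else 1
  inf ι := if W ι then φ.inf ι else 1

variable {Z : Place → Prop} {W : Emb → Prop} {φ : PreIdele}
  {F : IntermediateField ℚ (AlgebraicClosure ℚ)}

theorem restr_fin_of_pos {A : Place} (h : Z A) : (restrIdele Z W φ).fin A = φ.fin A := by
  classical exact if_pos h

theorem restr_fin_of_neg {A : Place} (h : ¬ Z A) : (restrIdele Z W φ).fin A = 1 := by
  classical exact if_neg h

theorem restr_inf_of_pos {ι : Emb} (h : W ι) : (restrIdele Z W φ).inf ι = φ.inf ι := by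
  classical exact if_pos h

theorem restr_inf_of_neg {ι : Emb} (h : ¬ W ι) : (restrIdele Z W φ).inf ι = 1 := by
  classical exact if_neg h

theorem restr_mul_restr_not (Z : Place → Prop) (W : Emb → Prop) (φ : PreIdele) :
    restrIdele Z W φ * restrIdele (fun A => ¬ Z A) (fun ι => ¬ W ι) φ = φ := by
  refine PreIdele.ext (funext fun A => ?_) (funext fun ι => ?_)
  · by_cases h : Z A
    · rw [fin_mul, restr_fin_of_pos h, restr_fin_of_neg (not_not_intro h), mul_one]
    · rw [fin_mul, restr_fin_of_neg h, restr_fin_of_pos (Z := fun A => ¬ Z A) h, one_mul]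
  · by_cases h : W ι
    · rw [inf_mul, restr_inf_of_pos h, restr_inf_of_neg (not_not_intro h), mul_one]
    · rw [inf_mul, restr_inf_of_neg h, restr_inf_of_pos (W := fun ι => ¬ W ι) h, one_mul]

theorem restr_mem_ideles (hφ : φ ∈ ideles F)
    (hZ : ∀ σ ∈ F.fixingSubgroup, ∀ A, Z (σ • A) ↔ Z A)
    (hW : ∀ σ ∈ F.fixingSubgroup, ∀ ι : Emb, W (ι.twist σ) ↔ W ι)
    (hW' : ∀ ι : Emb, W ι.conj ↔ W ι) : restrIdele Z W φ ∈ ideles F := by
  obtain ⟨h1, h2, S, h3⟩ := hφ
  refine ⟨fun σ hσ => PreIdele.ext (funext fun A => Units.ext ?_) (funext fun ι => ?_),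
    fun ι => ?_, S, fun A hA => ?_⟩
  · rw [coe_fin_smul]
    have hiff := hZ σ⁻¹ (inv_mem hσ) A
    by_cases h : Z A
    · rw [restr_fin_of_pos h, restr_fin_of_pos (hiff.mpr h), ← coe_fin_smul, h1 σ hσ]
    · rw [restr_fin_of_neg h, restr_fin_of_neg (mt hiff.mp h), Units.val_one, map_one]
  · rw [inf_smul_twist]
    by_cases h : W ι
    · rw [restr_inf_of_pos h, restr_inf_of_pos ((hW σ hσ ι).mpr h), ← inf_smul_twist, h1 σ hσ]
    · rw [restr_inf_of_neg h, restr_inf_of_neg (mt (hW σ hσ ι).mp h)]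
  · by_cases h : W ι
    · rw [restr_inf_of_pos h, restr_inf_of_pos ((hW' ι).mpr h), h2 ι]
    · rw [restr_inf_of_neg h, restr_inf_of_neg (mt (hW' ι).mp h), map_one]
  · by_cases h : Z A
    · rw [restr_fin_of_pos h]; exact h3 A hA
    · rw [restr_fin_of_neg h]; exact one_mem _

end Restr

variable {p : ℕ} {T : Finset ℕ} {F F' : IntermediateField ℚ (AlgebraicClosure ℚ)}

theorem fin_ne_one_of_smul {φ : PreIdele} (hφ : φ ∈ ideles F) {σ : Γ}
    (hσ : σ ∈ F.fixingSubgroup) {A : Place} (h : φ.fin (σ • A) ≠ 1) : φ.fin A ≠ 1 := fun h1 =>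
  h (Units.ext (by rw [coe_smul_fin hφ hσ, h1, Units.val_one, map_one]))

theorem inf_twist {φ : PreIdele} (hφ : φ ∈ ideles F) {σ : Γ} (hσ : σ ∈ F.fixingSubgroup)
    (ι : Emb) : φ.inf (ι.twist σ) = φ.inf ι :=
  inf_fixed hφ ι hσ

theorem smul_mem_decPow {σ : Γ} (hσ : σ ∈ F.fixingSubgroup) {A : Place} {x : ℚ̄ˣ}
    (hx : x ∈ decPow p F A) : Units.map (σ : ℚ̄ →* ℚ̄) x ∈ decPow p F (σ • A) := by
  obtain ⟨t, rfl, ht⟩ := hx
  refine ⟨Units.map (σ : ℚ̄ →* ℚ̄) t, (map_pow _ _ _).symm, fun τ hτ hτA => ?_⟩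
  have h := ht (σ⁻¹ * τ * σ) (mul_mem (mul_mem (inv_mem hσ) hτ) hσ) (by
    rw [mul_smul, mul_smul, hτA, inv_smul_smul])
  have h' := congrArg σ h
  simp only [AlgEquiv.mul_apply] at h'
  rw [← AlgEquiv.mul_apply σ σ⁻¹, mul_inv_cancel, AlgEquiv.one_apply] at h'
  exact h'

section Rep

variable (F)

/-- The embeddings with the same restriction to `F`, up to conjugation. -/
def embClass (ι : Emb) : Set Emb :=
  {ι' | ∃ σ ∈ F.fixingSubgroup, ι' = ι.twist σ ∨ ι' = (ι.twist σ).conj}

/-- A chosen embedding in each class. -/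
def embRep (ι : Emb) : Emb := Classical.epsilon fun ι' => ι' ∈ embClass F ι

theorem embRep_mem (ι : Emb) : embRep F ι ∈ embClass F ι :=
  Classical.epsilon_spec (p := fun ι' => ι' ∈ embClass F ι)
    ⟨ι, 1, one_mem _, Or.inl (Emb.twist_one ι).symm⟩

theorem embClass_conj (ι : Emb) : embClass F ι.conj = embClass F ι := by
  ext ι'
  simp only [embClass, Set.mem_ofPred_eq, Emb.conj_twist, Emb.conj_conj]
  exact _root_.exists_congr fun σ => and_congr_right fun _ => or_comm

variable {F}

theorem embClass_twist {σ : Γ} (hσ : σ ∈ F.fixingSubgroup) (ι : Emb) :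
    embClass F (ι.twist σ) = embClass F ι := by
  ext ι'
  simp only [embClass, Set.mem_ofPred_eq, Emb.twist_mul]
  constructor
  · rintro ⟨τ, hτ, h⟩
    exact ⟨σ * τ, mul_mem hσ hτ, h⟩
  · rintro ⟨τ, hτ, h⟩
    exact ⟨σ⁻¹ * τ, mul_mem (inv_mem hσ) hτ, by rwa [mul_inv_cancel_left]⟩

theorem embRep_twist {σ : Γ} (hσ : σ ∈ F.fixingSubgroup) (ι : Emb) :
    embRep F (ι.twist σ) = embRep F ι := by
  simp only [embRep, embClass_twist hσ]

theorem embRep_conj (ι : Emb) : embRep F ι.conj = embRep F ι := by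
  simp only [embRep, embClass_conj]

theorem exists_twist_embRep (ι : Emb) : ∃ σ ∈ F.fixingSubgroup,
    ι = (embRep F ι).twist σ ∨ ι = ((embRep F ι).twist σ).conj := by
  obtain ⟨σ, hσ, h | h⟩ := embRep_mem F ι
  · exact ⟨σ⁻¹, inv_mem hσ, Or.inl (by rw [h, Emb.twist_mul, mul_inv_cancel, Emb.twist_one])⟩
  · refine ⟨σ⁻¹, inv_mem hσ, Or.inr ?_⟩
    rw [h, Emb.conj_twist, Emb.twist_mul, mul_inv_cancel, Emb.twist_one, Emb.conj_conj]

variable [FiniteDimensional ℚ F]

/-- A chosen place over each prime of `F`. -/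
abbrev placeRep (F : IntermediateField ℚ (AlgebraicClosure ℚ)) [FiniteDimensional ℚ F]
    (A : Place) : Place :=
  placeAbove F (primeOf F A)

theorem placeRep_smul {σ : Γ} (hσ : σ ∈ F.fixingSubgroup) (A : Place) :
    placeRep F (σ • A) = placeRep F A := by
  simp only [placeRep, primeOf_smul hσ]

theorem exists_smul_placeRep (A : Place) : ∃ σ ∈ F.fixingSubgroup, σ • placeRep F A = A :=
  exists_smul_eq_of_primeOf_eq (primeOf_placeAbove _)

/-- Ideles which are locally `p`-th powers are `p`-th powers at the finite places. -/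
theorem exists_pow_eq [Fact p.Prime] {φ : PreIdele} (hφ : φ ∈ ideles F)
    (h : ∀ A, φ.fin A ∈ decPow p F A) :
    ∃ ψ ∈ ideles F, ψ.inf = 1 ∧ ∀ A, ψ.fin A ^ p = φ.fin A := by
  choose t ht htfix using fun A => h (placeRep F A)
  choose s hs hsA using fun A => exists_smul_placeRep (F := F) A
  -- roots depending only on the chosen place
  classical
  let R : Place → ℚ̄ˣ := fun P =>
    if hP : ∃ A, placeRep F A = P then t hP.choose else 1
  have hR : ∀ A, R (placeRep F A) ^ p = φ.fin (placeRep F A) ∧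
      ∀ σ ∈ F.fixingSubgroup, σ • placeRep F A = placeRep F A →
        σ (R (placeRep F A) : ℚ̄) = R (placeRep F A) := by
    intro A
    have hP : ∃ A', placeRep F A' = placeRep F A := ⟨A, rfl⟩
    simp only [R, dif_pos hP]
    have e := hP.choose_spec
    exact ⟨by rw [ht, e], fun σ hσ hσA => htfix _ σ hσ (by rw [e]; exact hσA)⟩
  refine ⟨⟨fun A => Units.map (s A : ℚ̄ →* ℚ̄) (R (placeRep F A)), 1⟩, ?_, rfl, fun A => ?_⟩
  · obtain ⟨S, hS⟩ := hφ.2.2
    refine ⟨fun σ hσ => PreIdele.ext (funext fun A => Units.ext ?_) (funext fun ι => rfl),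
      fun ι => by simp, S, fun A hA => ?_⟩
    · rw [coe_fin_smul]
      show σ (s (σ⁻¹ • A) (R (placeRep F (σ⁻¹ • A)) : ℚ̄)) = s A (R (placeRep F A) : ℚ̄)
      rw [placeRep_smul (inv_mem hσ), ← AlgEquiv.mul_apply]
      have h1 := (hR A).2 ((s A)⁻¹ * (σ * s (σ⁻¹ • A)))
        (mul_mem (inv_mem (hs A)) (mul_mem hσ (hs _))) (by
          have h2 := hsA (σ⁻¹ • A)
          rw [placeRep_smul (inv_mem hσ)] at h2
          rw [mul_smul, mul_smul, h2, smul_inv_smul, inv_smul_eq_iff, hsA])
      have h2 := congrArg (s A) h1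
      rwa [← AlgEquiv.mul_apply, mul_inv_cancel_left] at h2
    · rw [mem_unitGroup_iff]
      have h1 : A.1.valuation (φ.fin A : ℚ̄) = 1 := mem_unitGroup_iff.mp (hS A hA)
      have h2 : ((Units.map (s A : ℚ̄ →* ℚ̄) (R (placeRep F A))) ^ p : ℚ̄ˣ) = φ.fin A := by
        rw [← map_pow, (hR A).1]
        refine Units.ext ?_
        conv_rhs => rw [← hsA A, coe_smul_fin hφ (hs A)]
        rfl
      rw [← h2, Units.val_pow_eq_pow_val, map_pow] at h1
      exact (pow_eq_one_iff_of_nonneg zero_le (Fact.out : p.Prime).ne_zero).mp h1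
  · show Units.map (s A : ℚ̄ →* ℚ̄) (R (placeRep F A)) ^ p = φ.fin A
    rw [← map_pow, (hR A).1]
    refine Units.ext ?_
    conv_rhs => rw [← hsA A, coe_smul_fin hφ (hs A)]
    rfl

/-- The place is split in `F'/F`. -/
def SplitAt (F F' : IntermediateField ℚ (AlgebraicClosure ℚ)) (A : Place) : Prop :=
  ∀ σ ∈ F.fixingSubgroup, σ • A = A → σ ∈ F'.fixingSubgroup

/-- The embedding is split in `F'/F`. -/
def SplitInf (F F' : IntermediateField ℚ (AlgebraicClosure ℚ)) (ι : Emb) : Prop :=
  ∀ σ ∈ F.fixingSubgroup, ι.twist σ = ι.conj → σ ∈ F'.fixingSubgroup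

/-- An idele supported at split places and embeddings is a norm. -/
theorem mem_normSubgroup_of_split [FiniteDimensional ℚ F'] (hFF' : F ≤ F') {φ : PreIdele}
    (hφ : φ ∈ ideles F) (hfin : ∀ A, φ.fin A ≠ 1 → SplitAt F F' A)
    (hinf : ∀ ι, φ.inf ι ≠ 1 → SplitInf F F' ι) : φ ∈ normSubgroup F F' := by
  classical
  have hle : F'.fixingSubgroup ≤ F.fixingSubgroup := IntermediateField.fixingSubgroup_le hFF'
  let Z : Place → Prop := fun A => ∃ σ ∈ F'.fixingSubgroup, σ • placeRep F A = A
  let W : Emb → Prop := fun ι => ∃ σ ∈ F'.fixingSubgroup,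
    ι = (embRep F ι).twist σ ∨ ι = ((embRep F ι).twist σ).conj
  have hψ : restrIdele Z W φ ∈ ideles F' := by
    refine restr_mem_ideles (ideles_le_of_le hFF' hφ) (fun σ hσ A => ?_) (fun σ hσ ι => ?_)
      fun ι => ?_
    · simp only [Z, placeRep_smul (hle hσ)]
      constructor
      · rintro ⟨τ, hτ, h⟩
        exact ⟨σ⁻¹ * τ, mul_mem (inv_mem hσ) hτ, by rw [mul_smul, h, inv_smul_smul]⟩
      · rintro ⟨τ, hτ, h⟩
        exact ⟨σ * τ, mul_mem hσ hτ, by rw [mul_smul, h]⟩
    · simp only [W, embRep_twist (hle hσ)]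
      constructor
      · rintro ⟨τ, hτ, h⟩
        refine ⟨τ * σ⁻¹, mul_mem hτ (inv_mem hσ), h.imp (fun h => ?_) fun h => ?_⟩ <;>
          simpa [Emb.conj_twist, Emb.twist_mul, Emb.twist_one] using congrArg (Emb.twist · σ⁻¹) h
      · rintro ⟨τ, hτ, h⟩
        refine ⟨τ * σ, mul_mem hτ hσ, h.imp (fun h => ?_) fun h => ?_⟩ <;>
          simpa [Emb.conj_twist, Emb.twist_mul] using congrArg (Emb.twist · σ) h
    · simp only [W, embRep_conj]
      constructor
      · rintro ⟨τ, hτ, h⟩
        refine ⟨τ, hτ, h.symm.imp (fun h => ?_) fun h => ?_⟩ <;>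
          simpa using congrArg Emb.conj h
      · rintro ⟨τ, hτ, h⟩
        refine ⟨τ, hτ, h.symm.imp (fun h => ?_) fun h => ?_⟩ <;>
          simpa using congrArg Emb.conj h
  suffices h : normIdele F F' (restrIdele Z W φ) = φ from h ▸ normIdele_mem_normSubgroup hψ
  have := finite_fixing_quotient F.fixingSubgroup F'
  have := Fintype.ofFinite (F.fixingSubgroup ⧸ F'.fixingSubgroup.subgroupOf F.fixingSubgroup)
  -- only one coset sees each chosen place
  have huniq : ∀ σ₀ ∈ F.fixingSubgroup,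
      ∀ c : F.fixingSubgroup ⧸ F'.fixingSubgroup.subgroupOf F.fixingSubgroup,
        σ₀ * ((Quotient.out c : F.fixingSubgroup) : Γ) ∈ F'.fixingSubgroup ↔
          ∃ h : σ₀⁻¹ ∈ F.fixingSubgroup, c = QuotientGroup.mk ⟨σ₀⁻¹, h⟩ := by
    intro σ₀ hσ₀ c
    constructor
    · intro h
      refine ⟨inv_mem hσ₀, ?_⟩
      conv_lhs => rw [← QuotientGroup.out_eq' c]
      rw [QuotientGroup.eq, Subgroup.mem_subgroupOf]
      simpa [mul_inv_rev] using inv_mem h
    · rintro ⟨h, rfl⟩
      have h1 := mem_of_mk_eq (QuotientGroup.out_eq'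
        (QuotientGroup.mk ⟨σ₀⁻¹, h⟩ : F.fixingSubgroup ⧸ F'.fixingSubgroup.subgroupOf F.fixingSubgroup))
      simpa using inv_mem h1
  refine PreIdele.ext (funext fun A => ?_) (funext fun ι => ?_)
  · show finHom A (normIdele F F' (restrIdele Z W φ)) = φ.fin A
    unfold normIdele
    rw [finprod_eq_prod_of_fintype, map_prod]
    by_cases h1 : φ.fin A = 1
    · rw [h1]
      refine Finset.prod_eq_one fun c _ => Units.ext ?_
      show (((Quotient.out c : F.fixingSubgroup) : Γ) • restrIdele Z W φ).fin A = (1 : ℚ̄)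
      set σ := ((Quotient.out c : F.fixingSubgroup) : Γ) with hσdef
      rw [coe_fin_smul]
      by_cases h2 : Z (σ⁻¹ • A)
      · rw [restr_fin_of_pos h2, ← coe_fin_smul, hφ.1 σ (Quotient.out c).2, h1, Units.val_one]
      · rw [restr_fin_of_neg h2, Units.val_one, map_one]
    · obtain ⟨σ₀, hσ₀, hσ₀A⟩ := exists_smul_placeRep (F := F) A
      have hne : φ.fin (placeRep F A) ≠ 1 := fin_ne_one_of_smul hφ hσ₀ (hσ₀A.symm ▸ h1)
      have hkey : ∀ σ ∈ F.fixingSubgroup,
          Z (σ⁻¹ • A) ↔ σ₀⁻¹ * σ ∈ F'.fixingSubgroup := by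
        intro σ hσ
        simp only [Z, placeRep_smul (inv_mem hσ)]
        constructor
        · rintro ⟨τ, hτ, h⟩
          have h3 : σ₀⁻¹ * σ * τ ∈ F'.fixingSubgroup := hfin _ hne _
            (mul_mem (mul_mem (inv_mem hσ₀) hσ) (hle hτ)) (by
              rw [mul_smul, mul_smul, h, smul_inv_smul, inv_smul_eq_iff, hσ₀A])
          simpa using mul_mem h3 (inv_mem hτ)
        · intro h
          exact ⟨(σ₀⁻¹ * σ)⁻¹, inv_mem h, by rw [mul_inv_rev, inv_inv, mul_smul, hσ₀A]⟩
      rw [Finset.prod_eq_single (QuotientGroup.mk ⟨σ₀, hσ₀⟩)]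
      · set c : F.fixingSubgroup ⧸ F'.fixingSubgroup.subgroupOf F.fixingSubgroup :=
          QuotientGroup.mk ⟨σ₀, hσ₀⟩ with hc
        set σ := ((Quotient.out c : F.fixingSubgroup) : Γ) with hσdef
        refine Units.ext ?_
        show ((σ • restrIdele Z W φ).fin A : ℚ̄) = φ.fin A
        have h2 : Z (σ⁻¹ • A) := (hkey σ (Quotient.out c).2).mpr (by
          have := (huniq σ₀⁻¹ (inv_mem hσ₀) c).mpr ⟨by simpa using hσ₀, by simp [hc]⟩
          simpa using this)
        rw [coe_fin_smul, restr_fin_of_pos h2, ← coe_fin_smul, hφ.1 σ (Quotient.out c).2]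
      · intro c _ hc
        refine Units.ext ?_
        set σ := ((Quotient.out c : F.fixingSubgroup) : Γ) with hσdef
        show ((σ • restrIdele Z W φ).fin A : ℚ̄) = (1 : ℚ̄)
        have h2 : ¬ Z (σ⁻¹ • A) := fun h => hc (by
          obtain ⟨h3, rfl⟩ := (huniq σ₀⁻¹ (inv_mem hσ₀) c).mp
            ((hkey σ (Quotient.out c).2).mp h)
          simp)
        rw [coe_fin_smul, restr_fin_of_neg h2, Units.val_one, map_one]
      · exact fun h => absurd (Finset.mem_univ _) h
  · show infHom ι (normIdele F F' (restrIdele Z W φ)) = φ.inf ι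
    unfold normIdele
    rw [finprod_eq_prod_of_fintype, map_prod]
    by_cases h1 : φ.inf ι = 1
    · rw [h1]
      refine Finset.prod_eq_one fun c _ => ?_
      set σ := ((Quotient.out c : F.fixingSubgroup) : Γ) with hσdef
      show (restrIdele Z W φ).inf (ι.twist σ) = 1
      by_cases h2 : W (ι.twist σ)
      · rw [restr_inf_of_pos h2, inf_twist hφ (Quotient.out c).2, h1]
      · rw [restr_inf_of_neg h2]
    · obtain ⟨σ₀, hσ₀, hσ₀ι⟩ := exists_twist_embRep (F := F) ι
      set R := embRep F ι with hR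
      have hne : φ.inf R ≠ 1 := fun h => h1 (by
        rcases hσ₀ι with h' | h' <;> rw [h'] <;> simp [hφ.2.1, inf_twist hφ hσ₀, h])
      have hsplit : ∀ τ ∈ F.fixingSubgroup, R.twist τ = R ∨ R.twist τ = R.conj →
          τ ∈ F'.fixingSubgroup := fun τ hτ h => by
        rcases h with h | h
        · exact (R.twist_injective (h.trans (Emb.twist_one R).symm)) ▸ one_mem _
        · exact hinf R hne τ hτ h
      have hkey : ∀ σ ∈ F.fixingSubgroup, W (ι.twist σ) ↔ σ₀ * σ ∈ F'.fixingSubgroup := by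
        intro σ hσ
        simp only [W, embRep_twist hσ, ← hR]
        constructor
        · rintro ⟨τ, hτ, h⟩
          have h3 : σ₀ * σ * τ⁻¹ ∈ F'.fixingSubgroup := by
            refine hsplit _ (mul_mem (mul_mem hσ₀ hσ) (inv_mem (hle hτ))) ?_
            rcases hσ₀ι with h' | h' <;> rcases h with h | h <;> rw [h'] at h <;>
              have h'' := congrArg (Emb.twist · τ⁻¹) h <;>
              simp only [Emb.conj_twist, Emb.twist_mul, mul_inv_cancel, Emb.twist_one] at h''
            · exact Or.inl h''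
            · exact Or.inr h''
            · exact Or.inr (by simpa using congrArg Emb.conj h'')
            · exact Or.inl (by simpa using congrArg Emb.conj h'')
          simpa using mul_mem h3 hτ
        · intro h
          exact ⟨σ₀ * σ, h, hσ₀ι.imp (fun h' => by rw [h', Emb.twist_mul])
            fun h' => by rw [h', Emb.conj_twist, Emb.twist_mul]⟩
      rw [Finset.prod_eq_single (QuotientGroup.mk ⟨σ₀⁻¹, inv_mem hσ₀⟩)]
      · set c : F.fixingSubgroup ⧸ F'.fixingSubgroup.subgroupOf F.fixingSubgroup :=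
          QuotientGroup.mk ⟨σ₀⁻¹, inv_mem hσ₀⟩ with hc
        set σ := ((Quotient.out c : F.fixingSubgroup) : Γ) with hσdef
        show (restrIdele Z W φ).inf (ι.twist σ) = φ.inf ι
        rw [restr_inf_of_pos ((hkey σ (Quotient.out c).2).mpr
          ((huniq σ₀ hσ₀ c).mpr ⟨inv_mem hσ₀, rfl⟩)), inf_twist hφ (Quotient.out c).2]
      · intro c _ hc
        set σ := ((Quotient.out c : F.fixingSubgroup) : Γ) with hσdef
        show (restrIdele Z W φ).inf (ι.twist σ) = 1
        exact restr_inf_of_neg fun h => hc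
          ((huniq σ₀ hσ₀ c).mp ((hkey σ (Quotient.out c).2).mp h)).2
      · exact fun h => absurd (Finset.mem_univ _) h

/-- Reduction to ideles supported at one prime. -/
theorem mem_of_forall_prime {H : Subgroup PreIdele} (W : Finset (HeightOneSpectrum (𝓞 F)))
    {φ : PreIdele} (hφ : φ ∈ ideles F) (hinf : φ.inf = 1)
    (hsupp : ∀ A, φ.fin A ≠ 1 → primeOf F A ∈ W)
    (h : ∀ P ∈ W, restrIdele (fun A => primeOf F A = P) (fun _ => False) φ ∈ H) : φ ∈ H := by
  classical
  induction W using Finset.induction_on generalizing φ with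
  | empty =>
    have : φ = 1 := PreIdele.ext (funext fun A => not_not.mp fun h1 => by simpa using hsupp A h1) hinf
    exact this ▸ one_mem H
  | insert P W hP ih =>
    rw [← restr_mul_restr_not (fun A => primeOf F A = P) (fun _ => False) φ]
    refine mul_mem (h P (Finset.mem_insert_self _ _)) (ih (restr_mem_ideles hφ
      (fun σ hσ A => by simp [primeOf_smul hσ]) (fun _ _ _ => Iff.rfl) fun _ => Iff.rfl)
      (funext fun ι => by rw [restr_inf_of_pos (W := fun _ => ¬False) not_false, hinf]) ?_ ?_)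
    · intro A hA
      by_cases h1 : primeOf F A = P
      · exact absurd (restr_fin_of_neg (not_not_intro h1)) hA
      · rw [restr_fin_of_pos (Z := fun A => ¬ primeOf F A = P) h1] at hA
        exact (Finset.mem_insert.mp (hsupp A hA)).resolve_left h1
    · intro Q hQ
      have e : restrIdele (fun A => primeOf F A = Q) (fun _ => False)
          (restrIdele (fun A => ¬ primeOf F A = P) (fun _ => ¬False) φ) =
          restrIdele (fun A => primeOf F A = Q) (fun _ => False) φ := by
        refine PreIdele.ext (funext fun A => ?_) (funext fun ι => ?_)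
        · by_cases h1 : primeOf F A = Q
          · rw [restr_fin_of_pos (Z := fun A => primeOf F A = Q) h1,
              restr_fin_of_pos (Z := fun A => primeOf F A = Q) h1,
              restr_fin_of_pos (Z := fun A => ¬ primeOf F A = P)
                (fun h2 : primeOf F A = P => hP (by rw [← h2, h1]; exact hQ))]
          · rw [restr_fin_of_neg (Z := fun A => primeOf F A = Q) h1,
              restr_fin_of_neg (Z := fun A => primeOf F A = Q) h1]
        · rw [restr_inf_of_neg (W := fun _ => False) not_false,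
            restr_inf_of_neg (W := fun _ => False) not_false]
      rw [e]
      exact h Q (Finset.mem_insert_of_mem hQ)

end Rep

end FLTAgent.TW
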