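import Fermat.Agent.TW.Idele.ClassField.IdeleAux

/-!
# Kummer extensions of degree `p`, and enlarging the field of an idele setting
-/

set_option autoImplicit false
set_option synthInstance.maxHeartbeats 200000

noncomputable section

open scoped Pointwise

namespace FLTAgent.TW

local notation "ℚ̄" => AlgebraicClosure ℚ
local notation "Γ" => (AlgebraicClosure ℚ ≃ₐ[ℚ] AlgebraicClosure ℚ)

variable {p : ℕ} {T T' : Finset ℕ} {L F F' : IntermediateField ℚ (AlgebraicClosure ℚ)}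

/-- The field `F(β)`. -/
def kummerField (F : IntermediateField ℚ (AlgebraicClosure ℚ)) (β : ℚ̄) :
    IntermediateField ℚ (AlgebraicClosure ℚ) :=
  F ⊔ IntermediateField.adjoin ℚ {β}

theorem le_kummerField (β : ℚ̄) : F ≤ kummerField F β := le_sup_left

theorem mem_kummerField (β : ℚ̄) : β ∈ kummerField F β :=
  le_sup_right (a := F) (IntermediateField.mem_adjoin_simple_self ℚ β)

theorem kummerField_le {β : ℚ̄} (hFL : F ≤ L) (hβ : β ∈ L) : kummerField F β ≤ L :=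
  sup_le hFL (IntermediateField.adjoin_simple_le_iff.mpr hβ)

theorem finite_kummerField [FiniteDimensional ℚ F] (β : ℚ̄) :
    FiniteDimensional ℚ (kummerField F β) := by
  have : FiniteDimensional ℚ (IntermediateField.adjoin ℚ {β}) :=
    IntermediateField.adjoin.finiteDimensional (EllP.qbarIsAlgebraic.isAlgebraic β).isIntegral
  exact IntermediateField.finiteDimensional_sup _ _

theorem mem_fix_kummerField {β : ℚ̄} {σ : Γ} :
    σ ∈ (kummerField F β).fixingSubgroup ↔ σ ∈ F.fixingSubgroup ∧ σ β = β := by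
  refine ⟨fun h => ⟨IntermediateField.fixingSubgroup_le (le_kummerField β) h,
    (IntermediateField.mem_fixingSubgroup_iff _ _).mp h _ (mem_kummerField β)⟩, fun ⟨h1, h2⟩ => ?_⟩
  rw [IntermediateField.mem_fixingSubgroup_iff]
  intro x hx
  have hle : kummerField F β ≤ IntermediateField.fixedField (Subgroup.zpowers σ) := by
    refine sup_le (fun b hb => ?_) (IntermediateField.adjoin_simple_le_iff.mpr ?_)
    · rintro ⟨g, hg⟩
      exact (IntermediateField.mem_fixingSubgroup_iff _ _).mp (Subgroup.zpowers_le.mpr h1 hg) b hb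
    · rintro ⟨g, hg⟩
      exact Subgroup.zpowers_le.mpr (show σ ∈ MulAction.stabilizer Γ β from h2) hg
  exact hle hx ⟨σ, Subgroup.mem_zpowers σ⟩

theorem apply_of_mem {x : ℚ̄} (hx : x ∈ F) {σ : Γ} (hσ : σ ∈ F.fixingSubgroup) : σ x = x :=
  (IntermediateField.mem_fixingSubgroup_iff _ _).mp hσ _ hx

theorem exists_zeta_pow [Fact p.Prime] {ζ : ℚ̄} (hζ : IsPrimitiveRoot ζ p) {β : ℚ̄} (hβ : β ≠ 0)
    {σ : Γ} (h : σ (β ^ p) = β ^ p) : ∃ i < p, σ β = ζ ^ i * β := by
  obtain ⟨i, hi, hi'⟩ := hζ.eq_pow_of_pow_eq_one (ξ := σ β / β) (by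
    rw [div_pow, ← map_pow, h, div_self (pow_ne_zero _ hβ)])
  exact ⟨i, hi, (div_eq_iff hβ).mp hi'.symm⟩

theorem exists_moving {β : ℚ̄} (hβ : β ∉ F) : ∃ σ ∈ F.fixingSubgroup, σ β ≠ β := by
  by_contra h
  push Not at h
  exact hβ (mem_of_forall_fixed h)

/-- `F(β)/F` is normal of degree `p`. -/
theorem kummerField_normal [Fact p.Prime] (hμ : ContainsMuP p F) {β : ℚ̄} (hβ : β ^ p ∈ F)
    (hβF : β ∉ F) :
    ((kummerField F β).fixingSubgroup.subgroupOf F.fixingSubgroup).Normal ∧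
      (kummerField F β).fixingSubgroup.relIndex F.fixingSubgroup = p := by
  have hp := (Fact.out : p.Prime)
  have hβ0 : β ≠ 0 := fun h => hβF (h ▸ F.zero_mem)
  set b : ℚ̄ˣ := Units.mk0 β hβ0
  have hpow : ∀ σ : F.fixingSubgroup, ((σ : Γ) β / β) ^ p = 1 := fun σ => by
    rw [div_pow, ← map_pow, apply_of_mem hβ σ.2, div_self (pow_ne_zero _ hβ0)]
  let χ : F.fixingSubgroup →* ℚ̄ˣ :=
    { toFun := fun σ => Units.map ((σ : Γ) : ℚ̄ →* ℚ̄) b / b
      map_one' := Units.ext (by simp [div_self hβ0, b])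
      map_mul' := fun σ τ => Units.ext (by
        have h1 := apply_of_mem (hμ _ (hpow τ)) σ.2
        rw [map_div₀] at h1
        have h2 : (σ : Γ) β ≠ 0 := by simpa using hβ0
        simp only [b, Units.coe_map, Units.val_div_eq_div_val, Units.val_mk0, Units.val_mul,
          MonoidHom.coe_coe, Subgroup.coe_mul, AlgEquiv.mul_apply]
        rw [← h1, div_mul_div_comm, mul_comm, mul_div_mul_right _ _ h2]) }
  have hker : χ.ker = (kummerField F β).fixingSubgroup.subgroupOf F.fixingSubgroup := by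
    ext σ
    rw [MonoidHom.mem_ker, Subgroup.mem_subgroupOf, mem_fix_kummerField]
    exact ⟨fun h => ⟨σ.2, by simpa [χ, div_eq_one, Units.ext_iff, b] using h⟩,
      fun h => by simpa [χ, div_eq_one, Units.ext_iff, b] using h.2⟩
  refine ⟨hker ▸ χ.normal_ker, ?_⟩
  rw [Subgroup.relIndex, ← hker, Subgroup.index_ker]
  have hle : χ.range ≤ rootsOfUnity p ℚ̄ := by
    rintro _ ⟨σ, rfl⟩
    rw [mem_rootsOfUnity']
    simpa [χ, b] using hpow σ
  have hne : χ.range ≠ ⊥ := fun h => by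
    obtain ⟨σ, hσ, hσβ⟩ := exists_moving hβF
    refine hσβ ?_
    have h1 : χ ⟨σ, hσ⟩ = 1 := by
      have : χ ⟨σ, hσ⟩ ∈ χ.range := ⟨_, rfl⟩
      rwa [h, Subgroup.mem_bot] at this
    simpa [χ, div_eq_one, Units.ext_iff, b] using h1
  obtain ⟨ζ, hζ⟩ := exists_primitiveRoot_qbar p
  have hcard : Nat.card (rootsOfUnity p ℚ̄) = p := hζ.card_rootsOfUnity
  have hdvd := Subgroup.card_dvd_of_le hle
  rw [hcard] at hdvd
  refine ((Nat.dvd_prime hp).mp hdvd).resolve_left fun h => hne ?_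
  exact Subgroup.eq_bot_of_card_eq _ h

/-- Coset representatives of a cyclic layer of prime degree. -/
theorem exists_pow_mem [Fact p.Prime]
    (hnormal : (F'.fixingSubgroup.subgroupOf F.fixingSubgroup).Normal)
    (hdeg : F'.fixingSubgroup.relIndex F.fixingSubgroup = p) {σ₀ : Γ}
    (hσ₀ : σ₀ ∈ F.fixingSubgroup) (hσ₀' : σ₀ ∉ F'.fixingSubgroup) :
    σ₀ ^ p ∈ F'.fixingSubgroup ∧
      (∀ τ ∈ F.fixingSubgroup, ∃ i < p, (σ₀ ^ i)⁻¹ * τ ∈ F'.fixingSubgroup) ∧
      ∀ i < p, ∀ j < p, (σ₀ ^ i)⁻¹ * σ₀ ^ j ∈ F'.fixingSubgroup → i = j := by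
  have hp := (Fact.out : p.Prime)
  set N := F'.fixingSubgroup.subgroupOf F.fixingSubgroup with hN
  have := hnormal
  have hcard : Nat.card (F.fixingSubgroup ⧸ N) = p := hdeg
  have : Finite (F.fixingSubgroup ⧸ N) := Nat.finite_of_card_ne_zero (hcard ▸ hp.ne_zero)
  set g : F.fixingSubgroup ⧸ N := QuotientGroup.mk ⟨σ₀, hσ₀⟩ with hg
  have hg1 : g ≠ 1 := fun h => hσ₀' ((QuotientGroup.eq_one_iff (N := N) _).mp h)
  have hord : orderOf g = p := by
    refine ((Nat.dvd_prime hp).mp ?_).resolve_left (orderOf_eq_one_iff.not.mpr hg1)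
    rw [← hcard]
    exact orderOf_dvd_natCard g
  have hmk : ∀ (i : ℕ) (τ : F.fixingSubgroup),
      g ^ i = QuotientGroup.mk τ ↔ (σ₀ ^ i)⁻¹ * τ ∈ F'.fixingSubgroup := fun i τ => by
    rw [hg, ← QuotientGroup.mk_pow, QuotientGroup.eq, hN, Subgroup.mem_subgroupOf]
    simp
  refine ⟨?_, fun τ hτ => ?_, fun i hi j hj h => ?_⟩
  · have h := pow_orderOf_eq_one g
    rw [hord, hg, ← QuotientGroup.mk_pow, QuotientGroup.eq_one_iff, hN,
      Subgroup.mem_subgroupOf] at h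
    simpa using h
  · have hmem : (QuotientGroup.mk ⟨τ, hτ⟩ : F.fixingSubgroup ⧸ N) ∈ Subgroup.zpowers g := by
      rw [zpowers_eq_top_of_prime_card hcard hg1]; exact Subgroup.mem_top _
    obtain ⟨i, hi⟩ := mem_powers_iff_mem_zpowers.mpr hmem
    have hi' : g ^ i = QuotientGroup.mk ⟨τ, hτ⟩ := hi
    refine ⟨i % p, Nat.mod_lt _ hp.pos, (hmk _ ⟨τ, hτ⟩).mp ?_⟩
    rw [← hord, pow_mod_orderOf, hi']
  · have h' := (hmk i ⟨σ₀ ^ j, pow_mem hσ₀ j⟩).mpr h
    rw [show (⟨σ₀ ^ j, pow_mem hσ₀ j⟩ : F.fixingSubgroup) = ⟨σ₀, hσ₀⟩ ^ j from rfl,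
      QuotientGroup.mk_pow, ← hg] at h'
    exact pow_injOn_Iio_orderOf (by simpa [hord] using hi) (by simpa [hord] using hj) h'

theorem apply_mem_of_normal (hFF' : F ≤ F')
    (hnormal : (F'.fixingSubgroup.subgroupOf F.fixingSubgroup).Normal) {σ : Γ}
    (hσ : σ ∈ F.fixingSubgroup) {z : ℚ̄} (hz : z ∈ F') : σ z ∈ F' :=
  mem_of_forall_fixed fun τ hτ => by
    have h := hnormal.conj_mem ⟨τ, IntermediateField.fixingSubgroup_le hFF' hτ⟩
      (Subgroup.mem_subgroupOf.mpr hτ) ⟨σ⁻¹, inv_mem hσ⟩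
    rw [Subgroup.mem_subgroupOf] at h
    have h1 := congrArg σ (apply_of_mem hz h)
    simpa [← AlgEquiv.mul_apply, mul_assoc] using h1

/-- A cyclic extension of degree `p` of `F ∋ ζ_p` is a Kummer extension. -/
theorem exists_kummer_generator [Fact p.Prime] (hFF' : F ≤ F') (hμ : ContainsMuP p F)
    (hnormal : (F'.fixingSubgroup.subgroupOf F.fixingSubgroup).Normal)
    (hdeg : F'.fixingSubgroup.relIndex F.fixingSubgroup = p) :
    ∃ β : ℚ̄ˣ, (β : ℚ̄) ∈ F' ∧ (β : ℚ̄) ∉ F ∧ (β : ℚ̄) ^ p ∈ F := by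
  have hp := (Fact.out : p.Prime)
  obtain ⟨ζ, hζ⟩ := exists_primitiveRoot_qbar p
  have hζF : ζ ∈ F := hμ ζ hζ.pow_eq_one
  obtain ⟨σ₀, hσ₀, hσ₀'⟩ : ∃ σ₀ ∈ F.fixingSubgroup, σ₀ ∉ F'.fixingSubgroup := by
    by_contra h
    push Not at h
    rw [Subgroup.relIndex_eq_one.mpr h] at hdeg
    exact hp.ne_one hdeg.symm
  obtain ⟨hσp, hrep, hinj⟩ := exists_pow_mem hnormal hdeg hσ₀ hσ₀'
  have hpowF' : ∀ (i : ℕ) {z : ℚ̄}, z ∈ F' → (σ₀ ^ i : Γ) z ∈ F' := fun i _ hz =>
    apply_mem_of_normal hFF' hnormal (pow_mem hσ₀ i) hz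
  let emb : Fin p → (F' →* ℚ̄) := fun i =>
    ((σ₀ ^ (i : ℕ) : Γ) : ℚ̄ →* ℚ̄).comp (F'.val : F' →* ℚ̄)
  have hembinj : Function.Injective emb := fun i j h => by
    refine Fin.ext (hinj i i.2 j j.2 ?_)
    rw [IntermediateField.mem_fixingSubgroup_iff]
    intro z hz
    have h1 : (σ₀ ^ (i : ℕ) : Γ) z = (σ₀ ^ (j : ℕ) : Γ) z := DFunLike.congr_fun h ⟨z, hz⟩
    rw [AlgEquiv.mul_apply, ← h1, ← AlgEquiv.mul_apply, inv_mul_cancel, AlgEquiv.one_apply]
  obtain ⟨θ, hθ⟩ : ∃ θ : F', (∑ i : Fin p, ζ⁻¹ ^ (i : ℕ) * (σ₀ ^ (i : ℕ) : Γ) θ) ≠ 0 := by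
    by_contra h
    push Not at h
    have hli := (linearIndependent_monoidHom F' ℚ̄).comp emb hembinj
    have := Fintype.linearIndependent_iff.mp hli (fun i => ζ⁻¹ ^ (i : ℕ))
      (funext fun θ => by simpa [emb, Finset.sum_apply] using h θ) ⟨0, hp.pos⟩
    simp at this
  set y := ∑ i : Fin p, ζ⁻¹ ^ (i : ℕ) * (σ₀ ^ (i : ℕ) : Γ) (θ : ℚ̄) with hy
  have hyF' : y ∈ F' := sum_mem fun i _ => mul_mem (pow_mem (inv_mem (hFF' hζF)) _) (hpowF' _ θ.2)
  have hσy : σ₀ y = ζ * y := by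
    let f : ℕ → ℚ̄ := fun i => ζ⁻¹ ^ i * (σ₀ ^ i : Γ) θ
    have e1 : σ₀ y = ζ * ∑ i ∈ Finset.range p, f (i + 1) := by
      rw [hy, map_sum, Finset.mul_sum, ← Fin.sum_univ_eq_sum_range (fun i => ζ * f (i + 1))]
      refine Finset.sum_congr rfl fun i _ => ?_
      rw [map_mul, map_pow, map_inv₀, apply_of_mem hζF hσ₀, ← AlgEquiv.mul_apply, ← pow_succ']
      simp only [f, pow_succ' ζ⁻¹]
      rw [← mul_assoc, ← mul_assoc, mul_inv_cancel₀ (hζ.ne_zero hp.ne_zero), one_mul]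
    have e2 : ∑ i ∈ Finset.range p, f (i + 1) = ∑ i ∈ Finset.range p, f i := by
      have hfp : f p = f 0 := by
        simp only [f, inv_pow, hζ.pow_eq_one, inv_one, pow_zero, one_mul]
        exact apply_of_mem θ.2 hσp
      have h1 := Finset.sum_range_succ' f p
      rw [Finset.sum_range_succ f p, hfp] at h1
      exact (add_right_cancel h1).symm
    rw [e1, e2, hy, ← Fin.sum_univ_eq_sum_range f]
  refine ⟨Units.mk0 y hθ, hyF', fun hyF => ?_, mem_of_forall_fixed fun τ hτ => ?_⟩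
  · have h := apply_of_mem hyF hσ₀
    rw [Units.val_mk0, hσy, mul_eq_right₀ hθ] at h
    exact hζ.ne_one hp.one_lt h
  · obtain ⟨i, -, hi⟩ := hrep τ hτ
    have h1 : ((σ₀ ^ i)⁻¹ * τ : Γ) y = y := apply_of_mem hyF' hi
    have h2 : τ y = (σ₀ ^ i : Γ) y := by
      conv_rhs => rw [← h1, ← AlgEquiv.mul_apply, mul_inv_cancel_left]
    have h3 : ∀ j : ℕ, ((σ₀ ^ j : Γ) y) ^ p = y ^ p := fun j => by
      induction j with
      | zero => rw [pow_zero, AlgEquiv.one_apply]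
      | succ j ih =>
        rw [pow_succ, AlgEquiv.mul_apply, hσy, map_mul, apply_of_mem hζF (pow_mem hσ₀ j),
          mul_pow, hζ.pow_eq_one, one_mul, ih]
    rw [Units.val_mk0, map_pow, h2, h3]

/-- Fixing a Kummer generator means fixing the extension. -/
theorem mem_fixing_of_fixed [Fact p.Prime] (hFF' : F ≤ F') (hμ : ContainsMuP p F)
    (hdeg : F'.fixingSubgroup.relIndex F.fixingSubgroup = p) {β : ℚ̄} (hβ' : β ∈ F') (hβF : β ∉ F)
    (hβ : β ^ p ∈ F) {σ : Γ} (hσ : σ ∈ F.fixingSubgroup) (h : σ β = β) :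
    σ ∈ F'.fixingSubgroup := by
  have hle : kummerField F β ≤ F' := kummerField_le hFF' hβ'
  have hm := Subgroup.relIndex_mul_relIndex F'.fixingSubgroup (kummerField F β).fixingSubgroup
    F.fixingSubgroup (IntermediateField.fixingSubgroup_le hle)
    (IntermediateField.fixingSubgroup_le (le_kummerField β))
  rw [(kummerField_normal hμ hβ hβF).2, hdeg] at hm
  have h1 : F'.fixingSubgroup.relIndex (kummerField F β).fixingSubgroup = 1 :=
    (mul_eq_right₀ (Fact.out : p.Prime).ne_zero).mp hm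
  exact Subgroup.relIndex_eq_one.mp h1 (mem_fix_kummerField.mpr ⟨hσ, h⟩)

/-- An automorphism fixing `β ^ p` and congruent to `1` at a tame place fixes `β`. -/
theorem fixed_of_sub_lt_one [Fact p.Prime] {A : Place} (hA : A.char ≠ p) {β : ℚ̄}
    (hβ : A.1.valuation β = 1) {σ : Γ} (hσ : σ (β ^ p) = β ^ p)
    (h : A.1.valuation (σ β - β) < 1) : σ β = β := by
  have hp := (Fact.out : p.Prime)
  have hβ0 : β ≠ 0 := fun h0 => by simp [h0] at hβ
  have h1 : σ β / β = 1 := by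
    refine GalCommon.eq_one_of_pow_eq_one_of_sub_mem A.prime_char A.liesOver_char
      (n := p) (fun hd => hA ((Nat.prime_dvd_prime_iff_eq A.prime_char hp).mp hd)) ?_ ?_
    · rw [div_pow, ← map_pow, hσ, div_self (pow_ne_zero _ hβ0)]
    · rw [ValuationSubring.mem_nonunits_iff, div_sub_one hβ0, map_div₀, hβ, div_one]
      exact h
  rwa [div_eq_one_iff_eq hβ0] at h1

/-- Inertia fixes `p`-th roots of units at tame places. -/
theorem inertia_fixed_root [Fact p.Prime] {A : Place} (hA : A.char ≠ p) {β : ℚ̄}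
    (hβ : A.1.valuation β = 1) {σ : Γ} (hσ : σ ∈ A.1.inertiaSubgroupIn ℚ)
    (hfix : σ (β ^ p) = β ^ p) : σ β = β := by
  refine fixed_of_sub_lt_one hA hβ hfix ?_
  rw [← ValuationSubring.mem_nonunits_iff]
  exact (GalCommon.mem_inertiaSubgroupIn_iff.mp hσ).2 _
    ((A.1.valuation_le_one_iff _).mp hβ.le)

/-- At a tame place, a `p`-th root fixed by Frobenius is fixed by the decomposition group. -/
theorem fixed_of_frobenius_fixed [Fact p.Prime] {A : Place} (hA : A.char ≠ p) {β : ℚ̄}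
    (hβ : A.1.valuation β = 1) {τ : Γ} (hτ : A.1.IsFrobeniusAt τ A.char) (hτβ : τ β = β)
    {σ : Γ} (hσA : σ • A = A) (hfix : σ (β ^ p) = β ^ p) : σ β = β := by
  refine fixed_of_sub_lt_one hA hβ hfix ?_
  have hβA : β ∈ A.1 := (A.1.valuation_le_one_iff _).mp hβ.le
  have hσdec : σ ∈ A.1.decompositionSubgroup ℚ :=
    MulAction.mem_stabilizer_iff.mpr (congrArg Subtype.val hσA)
  have : CharP (IsLocalRing.ResidueField A.1) A.char :=
    GalCommon.charP_residueField A.prime_char A.liesOver_char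
  have := Fact.mk A.prime_char
  have h1 := (GalCommon.isFrobeniusAt_iff.mp hτ).2 β hβA
  rw [hτβ] at h1
  set r := IsLocalRing.residue A.1 ⟨β, hβA⟩ with hr
  have h2 : r ^ A.char = r := by
    rw [hr, ← map_pow, eq_comm, ← sub_eq_zero, ← map_sub, ← GalCommon.coe_mem_nonunits_iff_residue]
    exact h1
  have h3 := (Subfield.mem_bot_iff_pow_eq_self (IsLocalRing.ResidueField A.1) A.char).mpr h2
  rw [← ZMod.fieldRange_castHom_eq_bot A.char] at h3
  obtain ⟨j, hj⟩ := h3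
  have hj' : IsLocalRing.residue A.1 ((j.val : ℕ) : A.1) = r := by
    rw [map_natCast, ← hj, ← map_natCast (ZMod.castHom dvd_rfl (IsLocalRing.ResidueField A.1)),
      ZMod.natCast_rightInverse j]
  generalize j.val = m at hj'
  have h4 : β - (m : ℚ̄) ∈ A.1.nonunits := by
    have : IsLocalRing.residue A.1 (⟨β, hβA⟩ - ((m : ℕ) : A.1)) = 0 := by
      rw [map_sub, hj', sub_self]
    rw [← GalCommon.coe_mem_nonunits_iff_residue] at this
    simpa using this
  have h5 : σ (β - (m : ℚ̄)) ∈ A.1.nonunits := by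
    have := (GalCommon.map_mem_nonunits_iff (σ := σ) (A := A.1)).mpr h4
    rwa [MulAction.mem_stabilizer_iff.mp hσdec] at this
  rw [map_sub, map_natCast, ValuationSubring.mem_nonunits_iff] at h5
  rw [ValuationSubring.mem_nonunits_iff] at h4
  calc A.1.valuation (σ β - β)
      = A.1.valuation ((σ β - m) - (β - m)) := by rw [sub_sub_sub_cancel_right]
    _ < 1 := lt_of_le_of_lt (A.1.valuation.map_sub _ _) (max_lt h5 h4)

/-- The setting of a larger field, given that the new inertia is trivial. -/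
theorem exists_setting_extend (hL : IdeleSetting T p L) (hTT' : T ⊆ T')
    (hprime : ∀ q ∈ T', q.Prime) (K : IntermediateField ℚ (AlgebraicClosure ℚ))
    [FiniteDimensional ℚ K]
    (hK : ∀ A : Place, ¬ A.Over T' → ∀ σ ∈ A.1.inertiaSubgroupIn ℚ, σ ∈ K.fixingSubgroup) :
    ∃ L' : IntermediateField ℚ (AlgebraicClosure ℚ), L ≤ L' ∧ K ≤ L' ∧ IdeleSetting T' p L' := by
  have := hL.finite
  have := GalCommon.normal_Qbar
  set N := IntermediateField.normalClosure ℚ ↥(L ⊔ K) ℚ̄ with hN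
  refine ⟨N, le_sup_left.trans (IntermediateField.le_normalClosure _),
    le_sup_right.trans (IntermediateField.le_normalClosure _),
    ⟨inferInstance, @IsGalois.mk _ _ _ _ _ inferInstance (normalClosure.normal ℚ _ ℚ̄),
      hTT' hL.mem, hprime, fun A hA σ hσ => ?_⟩⟩
  rw [IntermediateField.mem_fixingSubgroup_iff]
  intro x hx
  have hle : N ≤ IntermediateField.fixedField (Subgroup.zpowers σ) := by
    refine le_of_eq_of_le (IntermediateField.normalClosure_def'' (L ⊔ K))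
      (iSup_le fun g => ?_)
    rintro _ ⟨z, hz, rfl⟩ ⟨h, hh⟩
    have hg : g⁻¹ * σ * g ∈ (L ⊔ K).fixingSubgroup := by
      have hA' : ¬ (g⁻¹ • A).Over T' := by rwa [Place.over_smul_iff]
      have hmem : g⁻¹ * σ * g ∈ (g⁻¹ • A).1.inertiaSubgroupIn ℚ := by
        simpa using GalCommon.mem_inertia_conj hσ g⁻¹
      rw [IntermediateField.fixingSubgroup_sup]
      exact ⟨hL.unramified _ (fun h => hA' (over_mono hTT' h)) _ hmem, hK _ hA' _ hmem⟩
    have h1 := congrArg g (apply_of_mem hz hg)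
    rw [AlgEquiv.mul_apply, AlgEquiv.mul_apply, ← AlgEquiv.mul_apply g, mul_inv_cancel,
      AlgEquiv.one_apply] at h1
    exact Subgroup.zpowers_le.mpr (show σ ∈ MulAction.stabilizer Γ (g z) from h1) hh
  exact hle hx ⟨σ, Subgroup.mem_zpowers σ⟩

end FLTAgent.TW
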