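import Fermat.Agent.TW.Idele.ClassField.Crossing

/-!
# Reciprocity for Kummer extensions of degree `p`

`exists_reciprocity`: a Kummer element unramified outside `T` gives a character of the ideles of
`F` killing `classKer T F` and the norms and taking the Frobenius value at every place outside
`T`.  A character with the kernel of the norm group exists by the index count; by `crossing` it
takes the same power of the Kummer value at all inert places, which are normalised to the first.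
-/

set_option autoImplicit false
set_option maxHeartbeats 1000000

noncomputable section

open scoped Pointwise Classical

namespace FLTAgent.TW

local notation "ℚ̄" => AlgebraicClosure ℚ
local notation "Γ" => (AlgebraicClosure ℚ ≃ₐ[ℚ] AlgebraicClosure ℚ)

variable {T : Finset ℕ} {p : ℕ} {L F : IntermediateField ℚ (AlgebraicClosure ℚ)}
  {y : (AlgebraicClosure ℚ)ˣ}

theorem exists_primitive_units (p : ℕ) [Fact p.Prime] :
    ∃ z : ℚ̄ˣ, z ^ p = 1 ∧ z ≠ 1 := by
  have : NeZero p := ⟨(Fact.out : p.Prime).ne_zero⟩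
  obtain ⟨ζ, hζ⟩ := HasEnoughRootsOfUnity.exists_primitiveRoot ℚ̄ p
  refine ⟨Units.mk0 ζ (hζ.ne_zero (NeZero.ne p)), Units.ext ?_, fun h => ?_⟩
  · rw [Units.val_pow_eq_pow_val, Units.val_mk0, hζ.pow_eq_one, Units.val_one]
  · exact hζ.ne_one (Fact.out : p.Prime).one_lt (by simpa using congrArg Units.val h)

/-- A subgroup of index `p` is the kernel of a character to `μ_p`. -/
theorem exists_hom_of_index_eq_prime {G : Type*} [CommGroup G] [Fact p.Prime] (N : Subgroup G)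
    (hN : N.index = p) :
    ∃ f : G →* ℚ̄ˣ, (∀ g, f g ^ p = 1) ∧ (∀ g, f g = 1 ↔ g ∈ N) := by
  obtain ⟨z, hz, hz1⟩ := exists_primitive_units p
  have hcard : Nat.card (G ⧸ N) = p := by rw [← Subgroup.index_eq_card, hN]
  have hcard' : Nat.card (Subgroup.zpowers z) = p := by
    rw [Nat.card_zpowers, orderOf_eq_prime hz hz1]
  let e := mulEquivOfPrimeCardEq hcard hcard'
  refine ⟨(Subgroup.zpowers z).subtype.comp (e.toMonoidHom.comp (QuotientGroup.mk' N)),
    fun g => ?_, fun g => ?_⟩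
  · obtain ⟨i, hi⟩ := (e (QuotientGroup.mk' N g)).2
    show (((e (QuotientGroup.mk' N g)) : Subgroup.zpowers z) : ℚ̄ˣ) ^ p = 1
    rw [← hi]
    show (z ^ i) ^ p = 1
    rw [← zpow_natCast, ← zpow_mul, mul_comm, zpow_mul, zpow_natCast, hz, one_zpow]
  · show (((e (QuotientGroup.mk' N g)) : Subgroup.zpowers z) : ℚ̄ˣ) = 1 ↔ _
    rw [OneMemClass.coe_eq_one, EmbeddingLike.map_eq_one_iff, QuotientGroup.mk'_apply,
      QuotientGroup.eq_one_iff]

/-- Inert places exist outside any finite set of residue characteristics. -/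
theorem exists_inertPlace [FiniteDimensional ℚ F] {g : Γ} (hg : g ∈ F.fixingSubgroup)
    (hgy : g (y : ℚ̄) ≠ y) (S : Finset ℕ) : ∃ v : InertPlace T F y, v.q ∉ S := by
  set F' := F ⊔ IntermediateField.adjoin ℚ {(y : ℚ̄)}
  have : FiniteDimensional ℚ F' := finiteDimensional_sup_adjoin F _
  obtain ⟨ℓ, hℓ, hℓS, -, B, hB, τ, hτ, k, j, hk, hj⟩ :=
    Density.exists_isFrobeniusAt_pow_coset F'.fixingSubgroup F'.fixingSubgroup_isOpen g (S ∪ T)
  rw [Finset.mem_union, not_or] at hℓS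
  obtain ⟨hkF, -⟩ := mem_fixingSubgroup_sup_adjoin_iff.mp hk
  obtain ⟨hjF, hjy⟩ := mem_fixingSubgroup_sup_adjoin_iff.mp hj
  have hτF : τ ∈ F.fixingSubgroup := by
    have := mul_mem (pow_mem hg k) hkF
    rwa [mul_inv_cancel_left] at this
  refine ⟨⟨ℓ, ⟨B, ℓ, hℓ, hB⟩, τ, 1, hℓ, hℓS.2, hB, hτ, one_pos, by rwa [pow_one],
    fun g hg hg' => absurd hg' (by omega), ?_⟩, hℓS.1⟩
  rw [pow_one]
  intro hτy
  refine hgy ?_
  have h1 : ∀ n : ℕ, (τ ^ n) (y : ℚ̄) = y := fun n => by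
    induction n with
    | zero => simp
    | succ n ih => rw [pow_succ, AlgEquiv.mul_apply, hτy, ih]
  have h2 := congrArg (τ ^ j) hjy
  rwa [← AlgEquiv.mul_apply, mul_inv_cancel_left, h1] at h2

/-- **Reciprocity** for a Kummer extension of degree dividing `p` unramified outside `T`. -/
theorem exists_reciprocity [Fact p.Prime] (hL : IdeleSetting T p L) (hFL : F ≤ L)
    (hμ : ContainsMuP p F) (hy : (y : ℚ̄) ^ p ∈ F)
    (hunr : ∀ A : Place, ¬ A.Over T → ∀ σ ∈ A.1.inertiaSubgroupIn ℚ, σ (y : ℚ̄) = y) :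
    ∃ lam : ideles F →* ℚ̄ˣ, (∀ φ, lam φ ^ p = 1) ∧
      (∀ φ : ideles F, φ.1 ∈ classKer T F → lam φ = 1) ∧
      (∀ φ : ideles F,
        φ.1 ∈ normSubgroup F (F ⊔ IntermediateField.adjoin ℚ {(y : ℚ̄)}) → lam φ = 1) ∧
      ∀ (q : ℕ) (hq : q.Prime) (A : Place), q ∉ T → A.1.LiesOverPrime q →
        ∀ σ : Γ, A.1.IsFrobeniusAt σ q → ∀ f : ℕ, 0 < f → σ ^ f ∈ F.fixingSubgroup →
          (∀ g : ℕ, 0 < g → g < f → σ ^ g ∉ F.fixingSubgroup) →
          ∀ h : placeIdele F q hq.ne_zero A ∈ ideles F,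
            (lam ⟨_, h⟩ : ℚ̄) = (σ ^ f) (y : ℚ̄) / (y : ℚ̄) := by
  have hp : p.Prime := Fact.out
  have := hL.finite
  have := finite_of_le (L := L) hFL
  by_cases htriv : ∀ g ∈ F.fixingSubgroup, g (y : ℚ̄) = y
  · refine ⟨1, fun φ => by simp, fun φ _ => rfl, fun φ _ => rfl,
      fun q hq A _ _ σ _ f _ hσf _ h => ?_⟩
    rw [htriv _ hσf, div_self y.ne_zero]
    rfl
  push Not at htriv
  obtain ⟨g, hg, hgy⟩ := htriv
  set F' := F ⊔ IntermediateField.adjoin ℚ {(y : ℚ̄)} with hF'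
  have : FiniteDimensional ℚ F' := finiteDimensional_sup_adjoin F _
  obtain ⟨hnormal, hdeg⟩ := kummer_normal_relIndex hy hμ hg hgy
  obtain ⟨L', hL', hLL', hF'L'⟩ := hL.exists_extend (Finset.Subset.refl T) hL.prime F'
    fun A hA σ hσ => inertia_mem_sup_adjoin hL hFL hunr A hA σ hσ
  have hindex := relIndex_norm_general hL' (le_sup_left : F ≤ F') hF'L' hμ hnormal hdeg
  obtain ⟨lam, hpow, hlam⟩ := exists_hom_of_index_eq_prime
    ((classKer T F ⊔ normSubgroup F F').subgroupOf (ideles F)) hindex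
  have hker : ∀ φ : ideles F, φ.1 ∈ classKer T F → lam φ = 1 := fun φ h =>
    (hlam φ).mpr (Subgroup.mem_subgroupOf.mpr (Subgroup.mem_sup_left h))
  have hnorm : ∀ φ : ideles F, φ.1 ∈ normSubgroup F F' → lam φ = 1 := fun φ h =>
    (hlam φ).mpr (Subgroup.mem_subgroupOf.mpr (Subgroup.mem_sup_right h))
  -- one exponent for all inert places
  obtain ⟨v₀, -⟩ := exists_inertPlace (T := T) hg hgy ∅
  have hne : ∀ v : InertPlace T F y, kum hy hμ v.frob ≠ 1 := fun v h =>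
    v.hne ((kum_eq_one_iff hy hμ _).mp h)
  obtain ⟨κ, hκp, hκ⟩ := mem_zpowers_of_pow_eq_one (kum_pow hy hμ v₀.frob) (hpow v₀.idele) (hne v₀)
  have hstep : ∀ v w : InertPlace T F y, v.q ≠ w.q → lam v.idele = kum hy hμ v.frob ^ κ →
      lam w.idele = kum hy hμ w.frob ^ κ := by
    intro v w hvw hv
    obtain ⟨κ', h1, h2⟩ := crossing hL hFL hμ hy hunr lam hpow hker hnorm v w hvw
    rw [h2]
    have h3 : kum hy hμ v.frob ^ κ' = kum hy hμ v.frob ^ κ := h1.symm.trans hv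
    rw [pow_eq_pow_iff_modEq, orderOf_eq_prime (kum_pow hy hμ _) (hne v)] at h3
    rw [pow_eq_pow_iff_modEq, orderOf_eq_prime (kum_pow hy hμ _) (hne w)]
    exact h3
  have hall : ∀ v : InertPlace T F y, lam v.idele = kum hy hμ v.frob ^ κ := fun v => by
    by_cases h : v₀.q = v.q
    · obtain ⟨w, hw⟩ := exists_inertPlace (T := T) hg hgy {v₀.q}
      rw [Finset.mem_singleton] at hw
      exact hstep w v (fun e => hw (e.trans h.symm)) (hstep v₀ w (Ne.symm hw) hκ)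
    · exact hstep v₀ v h hκ
  -- split places
  have hsplit : ∀ (q : ℕ) (hq : q.Prime) (A : Place), q ∉ T → A.1.LiesOverPrime q →
      ∀ σ : Γ, A.1.IsFrobeniusAt σ q → ∀ f : ℕ, 0 < f → σ ^ f ∈ F.fixingSubgroup →
        (∀ g : ℕ, 0 < g → g < f → σ ^ g ∉ F.fixingSubgroup) → (σ ^ f) (y : ℚ̄) = y →
        ∀ h : placeIdele F q hq.ne_zero A ∈ ideles F, lam ⟨_, h⟩ = 1 := by
    intro q hq A hqT hA σ hσ f hf hσf hmin hfix h
    refine hnorm _ ?_
    have hAT : ¬ A.Over T := by rwa [A.over_iff, A.char_eq hq hA]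
    have hN := normIdele_placeIdele (F := F) (F' := F') le_sup_left hq hA hσ
      (fun ι hι => inertia_mem_sup_adjoin hL hFL hunr A hAT ι hι) hf hσf hmin (d := 1) one_pos
      (by rw [pow_one]; exact mem_fixingSubgroup_sup_adjoin_iff.mpr ⟨hσf, hfix⟩)
      (fun g hg hg' => absurd hg' (by omega))
    rw [pow_one] at hN
    show placeIdele F q hq.ne_zero A ∈ normSubgroup F F'
    rw [← hN]
    exact normIdele_mem_normSubgroup (placeIdele_mem_ideles hq hA)
  have hκ0 : κ ≠ 0 := by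
    rintro rfl
    have h1 : ∀ φ, lam φ = 1 := eq_one_of_places hL hFL hμ lam hpow hker fun q hq A hqT hA h => by
      obtain ⟨σ, hσ⟩ := GalCommon.exists_isFrobeniusAt hq hA
      obtain ⟨f, hf, hσf, hmin⟩ := exists_least_pow_mem_fixing F σ
      by_cases hfix : (σ ^ f) (y : ℚ̄) = y
      · exact hsplit q hq A hqT hA σ hσ f hf hσf hmin hfix h
      · exact (hall ⟨q, A, σ, f, hq, hqT, hA, hσ, hf, hσf, hmin, hfix⟩).trans (pow_zero _)
    have h2 : (classKer T F ⊔ normSubgroup F F').relIndex (ideles F) = 1 :=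
      Subgroup.index_eq_one.mpr (eq_top_iff.mpr fun φ _ => (hlam φ).mp (h1 φ))
    exact hp.ne_one (hindex.symm.trans h2)
  obtain ⟨j, hj⟩ : ∃ j, κ * j ≡ 1 [MOD p] := by
    have hcop : Nat.Coprime κ p :=
      ((Nat.Prime.coprime_iff_not_dvd hp).mpr
        (Nat.not_dvd_of_pos_of_lt (Nat.pos_of_ne_zero hκ0) hκp)).symm
    obtain ⟨j, -, hj⟩ := Nat.exists_mul_mod_eq_one_of_coprime hcop hp.one_lt
    exact ⟨j, by rw [Nat.ModEq, hj, Nat.mod_eq_of_lt hp.one_lt]⟩
  refine ⟨(powMonoidHom j).comp lam, fun φ => ?_, fun φ h => ?_, fun φ h => ?_,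
    fun q hq A hqT hA σ hσ f hf hσf hmin h => ?_⟩
  · show (lam φ ^ j) ^ p = 1
    rw [← pow_mul, mul_comm, pow_mul, hpow, one_pow]
  · show lam φ ^ j = 1
    rw [hker φ h, one_pow]
  · show lam φ ^ j = 1
    rw [hnorm φ h, one_pow]
  show ((lam ⟨_, h⟩ ^ j : ℚ̄ˣ) : ℚ̄) = _
  by_cases hfix : (σ ^ f) (y : ℚ̄) = y
  · rw [hsplit q hq A hqT hA σ hσ f hf hσf hmin hfix h, one_pow, hfix, div_self y.ne_zero,
      Units.val_one]
  · have hv := hall ⟨q, A, σ, f, hq, hqT, hA, hσ, hf, hσf, hmin, hfix⟩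
    change lam ⟨_, h⟩ = _ at hv
    rw [hv, ← pow_mul, ← coe_kum hy hμ ⟨σ ^ f, hσf⟩]
    refine congrArg Units.val ?_
    conv_rhs => rw [← pow_one (kum hy hμ ⟨σ ^ f, hσf⟩)]
    exact pow_eq_pow_iff_modEq.mpr (hj.of_dvd (orderOf_dvd_of_pow_eq_one (kum_pow hy hμ _)))

end FLTAgent.TW
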