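import Fermat.Agent.TW.Idele.ClassField.NormIndex

/-!
# Vanishing of `H¹` of the idele classes for `p`-extensions

In degree `p` the index is `p` and the Herbrand quotient is `p`, so the classes killed by the norm
are of the form `σ b / b`.  A `p`-group extension is handled by inflation and restriction.
-/

set_option autoImplicit false
set_option synthInstance.maxHeartbeats 200000
set_option maxHeartbeats 1000000

noncomputable section

open scoped Pointwise NumberField

namespace FLTAgent.TW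

open PreIdele

local notation "ℚ̄" => AlgebraicClosure ℚ
local notation "Γ" => (AlgebraicClosure ℚ ≃ₐ[ℚ] AlgebraicClosure ℚ)

variable {T : Finset ℕ} {p : ℕ} {L F F' : IntermediateField ℚ (AlgebraicClosure ℚ)}

theorem smul_mem_ideles_rel (hFF' : F ≤ F')
    (hnormal : (F'.fixingSubgroup.subgroupOf F.fixingSubgroup).Normal) {σ : Γ}
    (hσ : σ ∈ F.fixingSubgroup) {φ : PreIdele} (hφ : φ ∈ ideles F') : σ • φ ∈ ideles F' := by
  obtain ⟨h1, h2, S, h3⟩ := hφ
  refine ⟨fun τ hτ => ?_, fun ι => ?_, S, fun A hA => ?_⟩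
  · have h := hnormal.conj_mem ⟨τ, IntermediateField.fixingSubgroup_le hFF' hτ⟩
      (Subgroup.mem_subgroupOf.mpr hτ) ⟨σ⁻¹, inv_mem hσ⟩
    rw [Subgroup.mem_subgroupOf] at h
    simp only [Subgroup.coe_mul, InvMemClass.coe_inv, inv_inv] at h
    conv_rhs => rw [← h1 _ h, ← mul_smul, mul_assoc, mul_inv_cancel_left, mul_smul]
  · rw [inf_smul_twist, inf_smul_twist, Emb.conj_twist, h2]
  · show Units.map _ _ ∈ _
    conv => arg 1; rw [← smul_inv_smul σ A, Place.coe_smul]
    exact unitGroup_smul.mpr (h3 _ (by rwa [Place.over_smul_iff]))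

theorem smul_mem_classKer_rel (hFF' : F ≤ F')
    (hnormal : (F'.fixingSubgroup.subgroupOf F.fixingSubgroup).Normal) {σ : Γ}
    (hσ : σ ∈ F.fixingSubgroup) {φ : PreIdele} (hφ : φ ∈ classKer T F') :
    σ • φ ∈ classKer T F' := by
  obtain ⟨_, ⟨x, hx, rfl⟩, u, hu, rfl⟩ := Subgroup.mem_sup.mp hφ
  rw [smul_mul', smul_principalHom]
  refine Subgroup.mul_mem_sup ⟨_, apply_mem_of_normal hFF' hnormal hσ hx, rfl⟩
    ⟨⟨smul_mem_ideles_rel hFF' hnormal hσ hu.1.1, fun A hA => ?_, funext fun ι => ?_⟩, fun A => ?_⟩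
  · exact Units.ext (by rw [coe_fin_smul, hu.1.2.1 _ (hA.smul _)]; simp)
  · rw [inf_smul_twist, hu.1.2.2]; rfl
  · show Units.map _ _ ∈ _
    conv => arg 1; rw [← smul_inv_smul σ A, Place.coe_smul]
    exact unitGroup_smul.mpr (hu.2 _)

/-- Twisting a cochain by a coboundary does not change its coboundary. -/
theorem twist_coboundary (a : Γ → PreIdele) (b : PreIdele) (σ τ : Γ) :
    a (σ * τ) / ((σ * τ) • b / b) / (a σ / (σ • b / b) * σ • (a τ / (τ • b / b))) =
      a (σ * τ) / (a σ * σ • a τ) := by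
  simp only [smul_div', mul_smul]
  apply Additive.ofMul.injective
  simp only [ofMul_mul, ofMul_div]
  abel

/-- `H¹ = 0` in degree `p`. -/
theorem cohomology_one_prime [hp : Fact p.Prime] (hL : IdeleSetting T p L) (hT : TPrincipal T F)
    (hFF' : F ≤ F') (hF'L : F' ≤ L) (hμ : ContainsMuP p F)
    (hnormal : (F'.fixingSubgroup.subgroupOf F.fixingSubgroup).Normal)
    (hdeg : F'.fixingSubgroup.relIndex F.fixingSubgroup = p) (a : Γ → PreIdele)
    (ha : ∀ σ ∈ F.fixingSubgroup, a σ ∈ ideles F')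
    (hcoc : ∀ σ ∈ F.fixingSubgroup, ∀ τ ∈ F.fixingSubgroup,
      a (σ * τ) / (a σ * σ • a τ) ∈ classKer T F')
    (h1 : ∀ σ ∈ F'.fixingSubgroup, a σ ∈ classKer T F') :
    ∃ b ∈ ideles F', ∀ σ ∈ F.fixingSubgroup, a σ / (σ • b / b) ∈ classKer T F' := by
  have := hL.finite
  have := finite_of_le (L := L) hF'L
  set C := classKer T F' with hC
  have hle : F'.fixingSubgroup ≤ F.fixingSubgroup := IntermediateField.fixingSubgroup_le hFF'
  obtain ⟨σ₀, hσ₀, hσ₀'⟩ : ∃ σ₀ ∈ F.fixingSubgroup, σ₀ ∉ F'.fixingSubgroup := by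
    by_contra h
    push Not at h
    rw [Subgroup.relIndex_eq_one.mpr h] at hdeg
    exact hp.out.ne_one hdeg.symm
  obtain ⟨hσp, hrep, hinj⟩ := exists_pow_mem hnormal hdeg hσ₀ hσ₀'
  have hsmul : ∀ σ ∈ F.fixingSubgroup, ∀ φ ∈ C, σ • φ ∈ C := fun σ hσ φ hφ =>
    smul_mem_classKer_rel hFF' hnormal hσ hφ
  have hprodC : ∀ m : ℕ, (∏ i ∈ Finset.range m, (σ₀ ^ i) • a σ₀) / a (σ₀ ^ m) ∈ C := by
    intro m
    induction m with
    | zero => simpa using inv_mem (h1 1 (one_mem _))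
    | succ m ih =>
      have h := hcoc _ (pow_mem hσ₀ m) _ hσ₀
      rw [← pow_succ] at h
      have h2 := div_mem ih h
      rw [Finset.prod_range_succ]
      set P := ∏ i ∈ Finset.range m, (σ₀ ^ i) • a σ₀
      convert h2 using 1
      apply Additive.ofMul.injective
      simp only [ofMul_mul, ofMul_div]
      abel
  -- the norm of `a σ₀`
  have := finite_fixing_quotient F.fixingSubgroup F'
  have := Fintype.ofFinite (F.fixingSubgroup ⧸ F'.fixingSubgroup.subgroupOf F.fixingSubgroup)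
  have hnorm : normIdele F F' (a σ₀) = ∏ i ∈ Finset.range p, (σ₀ ^ i) • a σ₀ := by
    unfold normIdele
    rw [finprod_eq_prod_of_fintype, ← Fin.prod_univ_eq_prod_range (fun i => (σ₀ ^ i) • a σ₀) p]
    let e : Fin p → F.fixingSubgroup ⧸ F'.fixingSubgroup.subgroupOf F.fixingSubgroup := fun i =>
      QuotientGroup.mk ⟨σ₀ ^ (i : ℕ), pow_mem hσ₀ _⟩
    have he : Function.Bijective e := by
      refine ⟨fun i j h => Fin.ext (hinj i i.2 j j.2 (mem_of_mk_eq h)), fun c => ?_⟩
      obtain ⟨i, hi, hi'⟩ := hrep _ (Quotient.out c).2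
      refine ⟨⟨i, hi⟩, ?_⟩
      conv_rhs => rw [← QuotientGroup.out_eq' c]
      exact QuotientGroup.eq.mpr (Subgroup.mem_subgroupOf.mpr hi')
    exact (Fintype.prod_bijective e he _ _ fun i =>
      (out_smul (fun k hk => (ha σ₀ hσ₀).1 k hk) ⟨σ₀ ^ (i : ℕ), pow_mem hσ₀ _⟩).symm).symm
  have hN : normIdele F F' (a σ₀) ∈ C := by
    rw [hnorm]
    have := mul_mem (hprodC p) (h1 _ hσp)
    rwa [div_mul_cancel] at this
  -- index `p` and Herbrand quotient `p`
  obtain ⟨-, hh⟩ := herbrand_quotient hL hFF' hF'L hμ σ₀ hσ₀ hσ₀' hnormal hdeg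
  rw [relIndex_norm_of_tPrincipal hL hT hFF' hF'L hμ hnormal hdeg] at hh
  have hone := (mul_eq_left₀ hp.out.ne_zero).mp hh.symm
  have hmem := Subgroup.relIndex_eq_one.mp hone
    (Subgroup.subset_closure (show a σ₀ ∈ _ from ⟨ha σ₀ hσ₀, hN⟩))
  obtain ⟨c, hc, d, hd, hcd⟩ := Subgroup.mem_sup.mp hmem
  let D : PreIdele →* PreIdele :=
    { toFun := fun b => σ₀ • b / b
      map_one' := by simp
      map_mul' := fun x y => by rw [smul_mul', mul_div_mul_comm] }
  obtain ⟨b, hb, rfl⟩ : ∃ b ∈ ideles F', σ₀ • b / b = d := by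
    have h : d ∈ (ideles F').map D := by
      refine ((Subgroup.closure_le _).mpr ?_) hd
      rintro _ ⟨x, hx, rfl⟩
      exact ⟨x, hx, rfl⟩
    obtain ⟨b, hb, h'⟩ := h
    exact ⟨b, hb, h'⟩
  refine ⟨b, hb, ?_⟩
  set a' : Γ → PreIdele := fun σ => a σ / (σ • b / b) with ha'
  have hcoc' : ∀ σ ∈ F.fixingSubgroup, ∀ τ ∈ F.fixingSubgroup,
      a' (σ * τ) / (a' σ * σ • a' τ) ∈ C := fun σ hσ τ hτ => by
    simp only [ha', twist_coboundary]
    exact hcoc σ hσ τ hτ
  have hF' : ∀ σ ∈ F'.fixingSubgroup, a' σ ∈ C := fun σ hσ => by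
    simp only [ha', hb.1 σ hσ, div_self', div_one]
    exact h1 σ hσ
  have hmul : ∀ σ ∈ F.fixingSubgroup, ∀ τ ∈ F.fixingSubgroup, a' σ ∈ C → a' τ ∈ C →
      a' (σ * τ) ∈ C := fun σ hσ τ hτ h h' => by
    have := mul_mem (hcoc' σ hσ τ hτ) (mul_mem h (hsmul σ hσ _ h'))
    rwa [div_mul_cancel] at this
  have hgen : a' σ₀ ∈ C := by
    simp only [ha', ← hcd, mul_div_cancel_right]
    exact hc
  have hpow : ∀ i : ℕ, a' (σ₀ ^ i) ∈ C := fun i => by
    induction i with
    | zero => simpa using hF' 1 (one_mem _)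
    | succ i ih => rw [pow_succ]; exact hmul _ (pow_mem hσ₀ i) _ hσ₀ ih hgen
  intro σ hσ
  obtain ⟨i, -, hi⟩ := hrep σ hσ
  have := hmul _ (pow_mem hσ₀ i) _ (hle hi) (hpow i) (hF' _ hi)
  rwa [mul_inv_cancel_left] at this

/-- An open subgroup is the fixing subgroup of its fixed field. -/
theorem fixing_fixedField_of_le [FiniteDimensional ℚ L] {H : Subgroup Γ}
    (hLH : L.fixingSubgroup ≤ H) :
    (IntermediateField.fixedField H).fixingSubgroup = H := by
  have := GalCommon.isGalois_Qbar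
  exact InfiniteGalois.fixingSubgroup_fixedField (⟨H, Subgroup.isClosed_of_isOpen _
    (Subgroup.isOpen_mono hLH L.fixingSubgroup_isOpen)⟩ : ClosedSubgroup Γ)

theorem normal_fixingSubgroup [Normal ℚ L] : L.fixingSubgroup.Normal :=
  ⟨fun σ hσ g => (IntermediateField.mem_fixingSubgroup_iff _ _).mpr fun x hx => by
    rw [AlgEquiv.mul_apply, AlgEquiv.mul_apply, apply_of_mem (mem_of_normal g⁻¹ hx) hσ,
      ← AlgEquiv.mul_apply, mul_inv_cancel, AlgEquiv.one_apply]⟩

/-- A layer of degree `p` at the bottom of a `p`-extension. -/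
theorem exists_layer [hp : Fact p.Prime] (hL : IdeleSetting T p L) (hFL : F ≤ L) {k : ℕ}
    (hdeg : L.fixingSubgroup.relIndex F.fixingSubgroup = p ^ (k + 1)) :
    ∃ F₁ : IntermediateField ℚ (AlgebraicClosure ℚ), F ≤ F₁ ∧ F₁ ≤ L ∧
      (F₁.fixingSubgroup.subgroupOf F.fixingSubgroup).Normal ∧
      F₁.fixingSubgroup.relIndex F.fixingSubgroup = p ∧
      L.fixingSubgroup.relIndex F₁.fixingSubgroup = p ^ k := by
  have := hL.finite
  have := hL.isGalois
  have := GalCommon.isGalois_Qbar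
  have : Normal ℚ L := IsGalois.to_normal
  have : L.fixingSubgroup.Normal := normal_fixingSubgroup
  set N := L.fixingSubgroup.subgroupOf F.fixingSubgroup with hN
  have : N.Normal := inferInstance
  have hcard : Nat.card (F.fixingSubgroup ⧸ N) = p ^ (k + 1) := hdeg
  have : Finite (F.fixingSubgroup ⧸ N) :=
    Nat.finite_of_card_ne_zero (hcard ▸ pow_ne_zero _ hp.out.ne_zero)
  obtain ⟨K, hK⟩ := Sylow.exists_subgroup_card_pow_prime p (G := F.fixingSubgroup ⧸ N) (n := k)
    (hcard ▸ pow_dvd_pow p k.le_succ)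
  have hKi : K.index = p := by
    have h := Subgroup.card_mul_index K
    rw [hK, hcard, pow_succ] at h
    exact mul_left_cancel₀ (pow_ne_zero _ hp.out.ne_zero) h
  have : K.Normal := Subgroup.normal_of_index_eq_minFac_card (by
    rw [hKi, hcard, Nat.pow_minFac (Nat.succ_ne_zero k), hp.out.minFac_eq])
  set K' := K.comap (QuotientGroup.mk' N) with hK'
  set H := K'.map F.fixingSubgroup.subtype with hH
  have hLH : L.fixingSubgroup ≤ H := fun x hx =>
    ⟨⟨x, IntermediateField.fixingSubgroup_le hFL hx⟩, by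
      show (QuotientGroup.mk' N) _ ∈ K
      rw [QuotientGroup.mk'_apply, (QuotientGroup.eq_one_iff _).mpr (Subgroup.mem_subgroupOf.mpr hx)]
      exact one_mem _, rfl⟩
  have hfix := fixing_fixedField_of_le hLH
  have hHF : H ≤ F.fixingSubgroup := by rintro _ ⟨x, -, rfl⟩; exact x.2
  have hsub : H.subgroupOf F.fixingSubgroup = K' :=
    Subgroup.comap_map_eq_self_of_injective F.fixingSubgroup.subtype_injective _
  refine ⟨IntermediateField.fixedField H, fun x hx σ => apply_of_mem hx (hHF σ.2), ?_, ?_, ?_, ?_⟩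
  · intro x hx
    rw [← InfiniteGalois.fixedField_fixingSubgroup L]
    exact fun σ => hx ⟨σ.1, hLH σ.2⟩
  · rw [hfix, hsub]; infer_instance
  · rw [hfix, Subgroup.relIndex, hsub, hK',
      Subgroup.index_comap_of_surjective _ (QuotientGroup.mk'_surjective N), hKi]
  · have h := Subgroup.relIndex_mul_relIndex _ _ _ hLH hHF
    rw [hdeg, Subgroup.relIndex.eq_def H, hsub, hK',
      Subgroup.index_comap_of_surjective _ (QuotientGroup.mk'_surjective N), hKi, pow_succ] at h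
    rw [hfix]
    exact mul_right_cancel₀ hp.out.ne_zero h

/-- `H¹(Gal(L/F), C_T(L)) = 0` for `p`-extensions. -/
theorem cohomology_one' [hp : Fact p.Prime] (hL : IdeleSetting T p L)
    (hT : ∀ E ≤ L, TPrincipal T E) (k : ℕ) :
    ∀ F : IntermediateField ℚ (AlgebraicClosure ℚ), F ≤ L → ContainsMuP p F →
    L.fixingSubgroup.relIndex F.fixingSubgroup = p ^ k → ∀ a : Γ → PreIdele,
    (∀ σ ∈ F.fixingSubgroup, a σ ∈ ideles L) →
    (∀ σ ∈ F.fixingSubgroup, ∀ τ ∈ F.fixingSubgroup,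
      a (σ * τ) / (a σ * σ • a τ) ∈ classKer T L) →
    (∀ σ ∈ L.fixingSubgroup, a σ ∈ classKer T L) →
    ∃ b ∈ ideles L, ∀ σ ∈ F.fixingSubgroup, a σ / (σ • b / b) ∈ classKer T L := by
  have := hL.finite
  have := hL.isGalois
  have : Normal ℚ L := IsGalois.to_normal
  induction k with
  | zero =>
    intro F _ _ hdeg a _ _ hL1
    rw [pow_zero, Subgroup.relIndex_eq_one] at hdeg
    exact ⟨1, one_mem _, fun σ hσ => by simpa using hL1 σ (hdeg hσ)⟩
  | succ k ih =>
    intro F hFL hμ hdeg a ha hcoc hL1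
    obtain ⟨F₁, hFF₁, hF₁L, hnormal, hdeg₁, hdegk⟩ := exists_layer hL hFL hdeg
    have hle := IntermediateField.fixingSubgroup_le hFF₁
    obtain ⟨b₁, hb₁, hb₁'⟩ := ih F₁ hF₁L (fun ζ h => hFF₁ (hμ ζ h)) hdegk a
      (fun σ hσ => ha σ (hle hσ)) (fun σ hσ τ hτ => hcoc σ (hle hσ) τ (hle hτ)) hL1
    set a' : Γ → PreIdele := fun σ => a σ / (σ • b₁ / b₁) with ha'
    have hmem : ∀ σ ∈ F.fixingSubgroup, a' σ ∈ ideles L := fun σ hσ =>
      div_mem (ha σ hσ) (div_mem (smul_mem_ideles σ hb₁) hb₁)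
    have hcoc' : ∀ σ ∈ F.fixingSubgroup, ∀ τ ∈ F.fixingSubgroup,
        a' (σ * τ) / (a' σ * σ • a' τ) ∈ classKer T L := fun σ hσ τ hτ => by
      simp only [ha', twist_coboundary]
      exact hcoc σ hσ τ hτ
    -- invariance of the classes
    have hinv : ∀ σ ∈ F.fixingSubgroup, ∀ τ ∈ F₁.fixingSubgroup,
        τ • a' σ / a' σ ∈ classKer T L := by
      intro σ hσ τ hτ
      have hτ' : σ⁻¹ * τ * σ ∈ F₁.fixingSubgroup := by
        have h := hnormal.conj_mem ⟨τ, hle hτ⟩ (Subgroup.mem_subgroupOf.mpr hτ)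
          ⟨σ⁻¹, inv_mem hσ⟩
        simpa [Subgroup.mem_subgroupOf] using h
      have h1 := hcoc' τ (hle hτ) σ hσ
      have h2 := hcoc' σ hσ _ (hle hτ')
      rw [show σ * (σ⁻¹ * τ * σ) = τ * σ by rw [← mul_assoc, ← mul_assoc, mul_inv_cancel, one_mul]]
        at h2
      have h3 := hb₁' τ hτ
      have h4 := smul_mem_classKer (T := T) σ (hb₁' _ hτ')
      have h5 := mul_mem (div_mem h2 h1) (div_mem h4 h3)
      convert h5 using 1
      simp only [ha', smul_div']
      apply Additive.ofMul.injective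
      simp only [ofMul_mul, ofMul_div]
      abel
    have hnormL : (L.fixingSubgroup.subgroupOf F₁.fixingSubgroup).Normal := by
      have : L.fixingSubgroup.Normal := normal_fixingSubgroup
      infer_instance
    have hψ : ∀ σ : Γ, ∃ ψ : PreIdele, σ ∈ F.fixingSubgroup →
        ψ ∈ ideles F₁ ∧ a' σ / ψ ∈ classKer T L := fun σ => by
      by_cases hσ : σ ∈ F.fixingSubgroup
      · obtain ⟨ψ, h1, h2⟩ := exists_fixed' hL hF₁L le_rfl hnormL (hmem σ hσ) (hinv σ hσ)
        exact ⟨ψ, fun _ => ⟨h1, h2⟩⟩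
      · exact ⟨1, fun h => absurd h hσ⟩
    choose ψ hψ using hψ
    obtain ⟨b₂, hb₂, hb₂'⟩ := cohomology_one_prime hL (hT F hFL) hFF₁ hF₁L hμ hnormal hdeg₁ ψ
      (fun σ hσ => (hψ σ hσ).1) (fun σ hσ τ hτ => by
        refine classKer_inter' (div_mem (hψ _ (mul_mem hσ hτ)).1 (mul_mem (hψ σ hσ).1
          (smul_mem_ideles_rel hFF₁ hnormal hσ (hψ τ hτ).1))) (L := L) ?_
        have h1 := hcoc' σ hσ τ hτ
        have h2 := div_mem (mul_mem (hψ σ hσ).2 (smul_mem_classKer (T := T) σ (hψ τ hτ).2))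
          (hψ _ (mul_mem hσ hτ)).2
        have h3 := mul_mem h1 h2
        convert h3 using 1
        simp only [smul_div']
        apply Additive.ofMul.injective
        simp only [ofMul_mul, ofMul_div]
        abel)
      (fun σ hσ => by
        refine classKer_inter' (hψ σ (hle hσ)).1 (L := L) ?_
        have h := div_mem (hb₁' σ hσ) (hψ σ (hle hσ)).2
        simpa [ha'] using h)
    refine ⟨b₁ * b₂, mul_mem hb₁ (ideles_le_of_le hF₁L hb₂), fun σ hσ => ?_⟩
    have h := mul_mem (hψ σ hσ).2 (classKer_mono' hF₁L (hb₂' σ hσ))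
    convert h using 1
    simp only [ha', smul_mul']
    apply Additive.ofMul.injective
    simp only [ofMul_mul, ofMul_div]
    abel

end FLTAgent.TW
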