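import Fermat.Agent.TW.Idele.ClassField.Reciprocity
import Fermat.Agent.TW.Idele.ClassField.KummerExt

/-!
# Characters of `C_T(F)` of order dividing `p` are Kummer characters

`exists_kummer_units`: every character of exponent `p` killing `classKer T F` is given on places
outside `T` by a `p`-th root of a `T`-unit.  The map from `T`-units modulo `p`-th powers to the
characters (`exists_reciprocity`) is injective by density, and both groups have the same order.
-/

set_option autoImplicit false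
set_option maxHeartbeats 1000000

noncomputable section

open scoped Pointwise Classical

namespace FLTAgent.TW

local notation "ℚ̄" => AlgebraicClosure ℚ
local notation "Γ" => (AlgebraicClosure ℚ ≃ₐ[ℚ] AlgebraicClosure ℚ)

variable {T : Finset ℕ} {p : ℕ} {L F : IntermediateField ℚ (AlgebraicClosure ℚ)}

/-- The `p`-th roots of `T`-units are unramified outside `T`. -/
theorem inertia_fix_root_tUnit [Fact p.Prime] (hL : IdeleSetting T p L) (hFL : F ≤ L)
    {y : ℚ̄ˣ} (hy : y ^ p ∈ tUnits T F) (A : Place) (hA : ¬ A.Over T) (σ : Γ)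
    (hσ : σ ∈ A.1.inertiaSubgroupIn ℚ) : σ (y : ℚ̄) = y := by
  refine inertia_fixed_root (p := p) (fun h => hA (A.over_iff.mpr (h ▸ hL.mem))) ?_ hσ ?_
  · have h := mem_unitGroup_iff.mp (hy.2 A hA)
    rw [Units.val_pow_eq_pow_val, map_pow] at h
    exact (pow_eq_one_iff.mp h).resolve_right (Fact.out : p.Prime).ne_zero
  · have h := hy.1
    rw [Units.val_pow_eq_pow_val] at h
    exact (IntermediateField.mem_fixingSubgroup_iff _ _).mp (hL.unramified A hA σ hσ) _ (hFL h)

/-- A character of exponent `p` of the classes is the Kummer character of a root of a `T`-unit. -/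
theorem exists_kummer_units [Fact p.Prime] (hL : IdeleSetting T p L) (hT : TPrincipal T F)
    (hFL : F ≤ L) (hμ : ContainsMuP p F)
    (lam : ideles F →* ℚ̄ˣ) (hlam : ∀ φ, lam φ ^ p = 1)
    (hker : ∀ φ : ideles F, φ.1 ∈ classKer T F → lam φ = 1) :
    ∃ y : ℚ̄ˣ, y ^ p ∈ tUnits T F ∧
      (∀ A : Place, ¬ A.Over T → ∀ σ ∈ A.1.inertiaSubgroupIn ℚ, σ (y : ℚ̄) = y) ∧
      ∀ (q : ℕ) (hq : q.Prime) (A : Place), q ∉ T → A.1.LiesOverPrime q →
        ∀ σ : Γ, A.1.IsFrobeniusAt σ q → ∀ f : ℕ, 0 < f → σ ^ f ∈ F.fixingSubgroup →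
          (∀ g : ℕ, 0 < g → g < f → σ ^ g ∉ F.fixingSubgroup) →
          ∀ h : placeIdele F q hq.ne_zero A ∈ ideles F,
            (lam ⟨_, h⟩ : ℚ̄) = (σ ^ f) (y : ℚ̄) / (y : ℚ̄) := by
  have hp : p.Prime := Fact.out
  have := hL.finite
  have := finite_of_le (L := L) hFL
  set N := (classKer T F ⊔ powIdeles p F).subgroupOf (ideles F) with hN
  set P := ((tUnits T F).map (powMonoidHom p)).subgroupOf (tUnits T F) with hP
  have hNi : N.index = p ^ (numPlaces T F + numInf F) := relIndex_classKer_sup_pow hL hT hFL hμ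
  have hPi : P.index = p ^ (numPlaces T F + numInf F) := relIndex_tUnits_pow hL hFL hμ
  have hfin : Finite (ideles F ⧸ N) := Nat.finite_of_card_ne_zero (by
    rw [← Subgroup.index_eq_card, hNi]; exact pow_ne_zero _ hp.ne_zero)
  have hfinP : Finite (tUnits T F ⧸ P) := Nat.finite_of_card_ne_zero (by
    rw [← Subgroup.index_eq_card, hPi]; exact pow_ne_zero _ hp.ne_zero)
  have : NeZero (Monoid.exponent (ideles F ⧸ N)) := ⟨Monoid.exponent_ne_zero_of_finite⟩
  have hcard : Nat.card (tUnits T F ⧸ P) = Nat.card ((ideles F ⧸ N) →* ℚ̄ˣ) := by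
    rw [CommGroup.card_monoidHom_of_hasEnoughRootsOfUnity (ideles F ⧸ N) ℚ̄,
      ← Subgroup.index_eq_card, ← Subgroup.index_eq_card, hNi, hPi]
  have : Finite ((ideles F ⧸ N) →* ℚ̄ˣ) := Nat.finite_of_card_ne_zero (by
    rw [← hcard]; exact Nat.card_pos.ne')
  -- a root and a character for every class of `T`-units
  have hroot : ∀ c : tUnits T F ⧸ P, ∃ y : ℚ̄ˣ, y ^ p = ((Quotient.out c : tUnits T F) : ℚ̄ˣ) :=
    fun c => by
      obtain ⟨t, ht⟩ := IsAlgClosed.exists_pow_nat_eq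
        (((Quotient.out c : tUnits T F) : ℚ̄ˣ) : ℚ̄) hp.pos
      refine ⟨Units.mk0 t (fun h0 => ?_), Units.ext ht⟩
      rw [h0, zero_pow hp.ne_zero] at ht
      exact Units.ne_zero _ ht.symm
  choose Y hY using hroot
  have hYU : ∀ c, Y c ^ p ∈ tUnits T F := fun c => by rw [hY]; exact (Quotient.out c).2
  have hYF : ∀ c, (Y c : ℚ̄) ^ p ∈ F := fun c => by
    rw [← Units.val_pow_eq_pow_val]; exact (hYU c).1
  choose μc hpow hker' hnorm hplace using fun c =>
    exists_reciprocity hL hFL hμ (hYF c) (inertia_fix_root_tUnit hL hFL (hYU c))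
  have hN_le : ∀ (f : ideles F →* ℚ̄ˣ), (∀ φ, f φ ^ p = 1) →
      (∀ φ : ideles F, φ.1 ∈ classKer T F → f φ = 1) → N ≤ f.ker := fun f hf1 hf2 φ hφ => by
    obtain ⟨a, ha, b, hb, he⟩ := Subgroup.mem_sup.mp (Subgroup.mem_subgroupOf.mp hφ)
    obtain ⟨x, hx, rfl⟩ := hb
    rw [MonoidHom.mem_ker, show φ = (⟨a, classKer_le_ideles' ha⟩ : ideles F) * ⟨x, hx⟩ ^ p from
      Subtype.ext he.symm, map_mul, map_pow, hf1, mul_one]
    exact hf2 _ ha
  let Φ : tUnits T F ⧸ P → ((ideles F ⧸ N) →* ℚ̄ˣ) := fun c =>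
    QuotientGroup.lift N (μc c) (hN_le _ (hpow c) (hker' c))
  have hΦ : ∀ c (φ : ideles F), Φ c (QuotientGroup.mk φ) = μc c φ := fun c φ => rfl
  have hinj : Function.Injective Φ := fun c c' h => by
    set z := Y c / Y c' with hz
    have hzfix : ∀ g ∈ F.fixingSubgroup, g (z : ℚ̄) = z := by
      by_contra hnot
      push Not at hnot
      obtain ⟨g, hg, hgz⟩ := hnot
      obtain ⟨v, -⟩ := exists_inertPlace (T := T) hg hgz ∅
      have hmem : placeIdele F v.q v.hq.ne_zero v.A ∈ ideles F := placeIdele_mem_ideles v.hq v.hA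
      have e1 := hplace c v.q v.hq v.A v.hqT v.hA v.σ v.hσ v.f v.hf v.hσf v.hmin hmem
      have e2 := hplace c' v.q v.hq v.A v.hqT v.hA v.σ v.hσ v.f v.hf v.hσf v.hmin hmem
      rw [← hΦ, h, hΦ, e2] at e1
      refine v.hne ?_
      have hn : (v.σ ^ v.f) (Y c' : ℚ̄) ≠ 0 := (map_ne_zero _).mpr (Units.ne_zero _)
      show (v.σ ^ v.f) ((Y c / Y c' : ℚ̄ˣ) : ℚ̄) = ((Y c / Y c' : ℚ̄ˣ) : ℚ̄)
      rw [Units.val_div_eq_div_val, map_div₀, div_eq_div_iff hn (Units.ne_zero _)]
      rw [div_eq_div_iff (Units.ne_zero _) (Units.ne_zero _)] at e1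
      linear_combination -e1
    have hzF : (z : ℚ̄) ∈ F := mem_of_forall_fixed hzfix
    have hzU : z ∈ tUnits T F := ⟨hzF, fun A hA => div_mem (mem_unitGroup_iff.mpr ?_)
      (mem_unitGroup_iff.mpr ?_)⟩
    · rw [← QuotientGroup.out_eq' c, ← QuotientGroup.out_eq' c', eq_comm, QuotientGroup.eq]
      refine Subgroup.mem_subgroupOf.mpr ⟨z, hzU, ?_⟩
      show z ^ p = _
      rw [Subgroup.coe_mul, InvMemClass.coe_inv, ← hY, ← hY, hz, div_pow, div_eq_inv_mul]
    all_goals
      first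
      | (have h := mem_unitGroup_iff.mp ((hYU c).2 A hA)
         rw [Units.val_pow_eq_pow_val, map_pow] at h
         exact (pow_eq_one_iff.mp h).resolve_right hp.ne_zero)
      | (have h := mem_unitGroup_iff.mp ((hYU c').2 A hA)
         rw [Units.val_pow_eq_pow_val, map_pow] at h
         exact (pow_eq_one_iff.mp h).resolve_right hp.ne_zero)
  obtain ⟨c, hc⟩ := ((Nat.bijective_iff_injective_and_card Φ).mpr ⟨hinj, hcard⟩).2
    (QuotientGroup.lift N lam (hN_le _ hlam hker))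
  refine ⟨Y c, hYU c, inertia_fix_root_tUnit hL hFL (hYU c),
    fun q hq A hqT hA σ hσ f hf hσf hmin h => ?_⟩
  have e : lam ⟨_, h⟩ = μc c ⟨_, h⟩ := by
    rw [← hΦ, hc]
    rfl
  rw [e]
  exact hplace c q hq A hqT hA σ hσ f hf hσf hmin h

end FLTAgent.TW
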