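import Fermat.Agent.TW.Idele.Basic
import Fermat.Agent.GalCommon.Frobenius

/-!
# Kummer characters and enlargement of the setting

The Kummer character `kum` of an element `y` with `y ^ p ∈ F ∋ ζ_p`, the normality and degree `p`
of a nontrivial `F(y)/F`, and the extension of an `IdeleSetting` by a field unramified outside
`T'` (`IdeleSetting.exists_extend`).
-/

set_option autoImplicit false
set_option maxHeartbeats 1000000

noncomputable section

open scoped Pointwise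

namespace FLTAgent.TW

local notation "ℚ̄" => AlgebraicClosure ℚ
local notation "Γ" => (AlgebraicClosure ℚ ≃ₐ[ℚ] AlgebraicClosure ℚ)

variable {T T' : Finset ℕ} {p : ℕ} {L F M : IntermediateField ℚ (AlgebraicClosure ℚ)}
  {y : (AlgebraicClosure ℚ)ˣ}

theorem mem_fixingSubgroup_sup_adjoin_iff {x : ℚ̄} {g : Γ} :
    g ∈ (F ⊔ IntermediateField.adjoin ℚ {x}).fixingSubgroup ↔ g ∈ F.fixingSubgroup ∧ g x = x := by
  refine ⟨fun h => ⟨IntermediateField.fixingSubgroup_le le_sup_left h,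
    (IntermediateField.mem_fixingSubgroup_iff _ _).mp h x
      (le_sup_right (a := F) (IntermediateField.mem_adjoin_simple_self ℚ x))⟩, fun ⟨h, hx⟩ => ?_⟩
  have hle : F ⊔ IntermediateField.adjoin ℚ {x} ≤
      IntermediateField.fixedField (Subgroup.zpowers g) := by
    refine sup_le (fun z hz => ?_) (IntermediateField.adjoin_simple_le_iff.mpr ?_)
    · rintro ⟨k, hk⟩
      exact (IntermediateField.mem_fixingSubgroup_iff _ _).mp (Subgroup.zpowers_le.mpr h hk) z hz
    · rintro ⟨k, hk⟩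
      have h' : g ∈ MulAction.stabilizer Γ x := hx
      exact Subgroup.zpowers_le.mpr h' hk
  exact (IntermediateField.mem_fixingSubgroup_iff _ _).mpr fun z hz =>
    hle hz ⟨g, Subgroup.mem_zpowers g⟩

theorem finiteDimensional_sup_adjoin (F : IntermediateField ℚ ℚ̄) [FiniteDimensional ℚ F] (x : ℚ̄) :
    FiniteDimensional ℚ (F ⊔ IntermediateField.adjoin ℚ {x} : IntermediateField ℚ ℚ̄) := by
  have : FiniteDimensional ℚ (IntermediateField.adjoin ℚ {x}) :=
    IntermediateField.adjoin.finiteDimensional (EllP.qbarIsAlgebraic.isAlgebraic x).isIntegral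
  infer_instance

theorem ContainsMuP.mono (h : ContainsMuP p F) (hFM : F ≤ M) : ContainsMuP p M :=
  fun ζ hζ => hFM (h ζ hζ)

/-- The Kummer character of `y`. -/
def kum (hy : (y : ℚ̄) ^ p ∈ F) (hμ : ContainsMuP p F) : F.fixingSubgroup →* ℚ̄ˣ :=
  MonoidHom.mk' (fun g => Units.map ((g : Γ) : ℚ̄ →* ℚ̄) y / y) fun g h => by
    refine Units.ext ?_
    simp only [Units.val_div_eq_div_val, Units.val_mul, Units.coe_map, MonoidHom.coe_coe,
      Subgroup.coe_mul, AlgEquiv.mul_apply]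
    have hfix := (IntermediateField.mem_fixingSubgroup_iff _ _).mp g.2
    have hz : (g : Γ) ((h : Γ) (y : ℚ̄) / (y : ℚ̄)) = (h : Γ) (y : ℚ̄) / (y : ℚ̄) :=
      hfix _ (hμ _ (by
        rw [div_pow, ← map_pow, (IntermediateField.mem_fixingSubgroup_iff _ _).mp h.2 _ hy,
          div_self (pow_ne_zero _ y.ne_zero)]))
    rw [map_div₀, div_eq_iff (by simp)] at hz
    rw [hz]
    ring

theorem coe_kum (hy : (y : ℚ̄) ^ p ∈ F) (hμ : ContainsMuP p F) (g : F.fixingSubgroup) :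
    (kum hy hμ g : ℚ̄) = (g : Γ) (y : ℚ̄) / (y : ℚ̄) := by
  simp [kum]

theorem kum_pow (hy : (y : ℚ̄) ^ p ∈ F) (hμ : ContainsMuP p F) (g : F.fixingSubgroup) :
    kum hy hμ g ^ p = 1 := Units.ext (by
  rw [Units.val_pow_eq_pow_val, coe_kum, div_pow, ← map_pow,
    (IntermediateField.mem_fixingSubgroup_iff _ _).mp g.2 _ hy,
    div_self (pow_ne_zero _ y.ne_zero), Units.val_one])

theorem kum_eq_one_iff (hy : (y : ℚ̄) ^ p ∈ F) (hμ : ContainsMuP p F) (g : F.fixingSubgroup) :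
    kum hy hμ g = 1 ↔ (g : Γ) (y : ℚ̄) = y := by
  rw [← Units.val_inj, coe_kum, Units.val_one, div_eq_one_iff_eq y.ne_zero]

theorem mem_zpowers_of_pow_eq_one [Fact p.Prime] {a b : ℚ̄ˣ} (ha : a ^ p = 1) (hb : b ^ p = 1)
    (ha1 : a ≠ 1) : ∃ i : ℕ, i < p ∧ b = a ^ i := by
  have hprim : IsPrimitiveRoot (a : ℚ̄) p :=
    IsPrimitiveRoot.iff_orderOf.mpr (orderOf_eq_prime (by rw [← Units.val_pow_eq_pow_val, ha, Units.val_one])
      fun h => ha1 (Units.ext h))
  obtain ⟨i, hi, he⟩ := hprim.eq_pow_of_pow_eq_one (ξ := (b : ℚ̄))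
    (by rw [← Units.val_pow_eq_pow_val, hb, Units.val_one])
  exact ⟨i, hi, Units.ext (by rw [Units.val_pow_eq_pow_val, he])⟩

/-- A nontrivial Kummer extension has degree `p` and is normal. -/
theorem kummer_normal_relIndex [Fact p.Prime] (hy : (y : ℚ̄) ^ p ∈ F) (hμ : ContainsMuP p F)
    {g : Γ} (hg : g ∈ F.fixingSubgroup) (hgy : g (y : ℚ̄) ≠ y) :
    ((F ⊔ IntermediateField.adjoin ℚ {(y : ℚ̄)}).fixingSubgroup.subgroupOf F.fixingSubgroup).Normal ∧
    (F ⊔ IntermediateField.adjoin ℚ {(y : ℚ̄)}).fixingSubgroup.relIndex F.fixingSubgroup = p := by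
  set k := kum hy hμ with hk
  have hker : (F ⊔ IntermediateField.adjoin ℚ {(y : ℚ̄)}).fixingSubgroup.subgroupOf F.fixingSubgroup =
      k.ker := by
    ext h
    rw [Subgroup.mem_subgroupOf, mem_fixingSubgroup_sup_adjoin_iff, MonoidHom.mem_ker, hk,
      kum_eq_one_iff]
    exact ⟨fun h' => h'.2, fun h' => ⟨h.2, h'⟩⟩
  refine ⟨hker ▸ inferInstance, ?_⟩
  rw [Subgroup.relIndex, hker, Subgroup.index_ker]
  have hg1 : k ⟨g, hg⟩ ≠ 1 := fun h => hgy ((kum_eq_one_iff hy hμ _).mp h)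
  have hrange : k.range = Subgroup.zpowers (k ⟨g, hg⟩) := by
    refine le_antisymm ?_ (Subgroup.zpowers_le.mpr ⟨_, rfl⟩)
    rintro _ ⟨h, rfl⟩
    obtain ⟨i, -, hi⟩ := mem_zpowers_of_pow_eq_one (kum_pow hy hμ _) (kum_pow hy hμ h) hg1
    rw [hk, hi]
    exact Subgroup.pow_mem _ (Subgroup.mem_zpowers _) i
  rw [hrange, Nat.card_zpowers]
  exact orderOf_eq_prime (kum_pow hy hμ _) hg1

theorem IdeleSetting.mono_T (h : IdeleSetting T p L) (hT : T ⊆ T') (hT' : ∀ q ∈ T', q.Prime) :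
    IdeleSetting T' p L :=
  ⟨h.finite, h.isGalois, hT h.mem, hT', fun A hA => h.unramified A fun hA' => hA (over_mono hT hA')⟩

/-- A setting containing a given field unramified outside `T'`. -/
theorem IdeleSetting.exists_extend (h : IdeleSetting T p L) (hT : T ⊆ T') (hT' : ∀ q ∈ T', q.Prime)
    (K : IntermediateField ℚ ℚ̄) [FiniteDimensional ℚ K]
    (hK : ∀ A : Place, ¬ A.Over T' → ∀ σ ∈ A.1.inertiaSubgroupIn ℚ, σ ∈ K.fixingSubgroup) :
    ∃ L' : IntermediateField ℚ ℚ̄, IdeleSetting T' p L' ∧ L ≤ L' ∧ K ≤ L' := by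
  have := h.finite
  have := GalCommon.normal_Qbar
  set N := IntermediateField.normalClosure ℚ (L ⊔ K : IntermediateField ℚ ℚ̄) ℚ̄ with hN
  have : Normal ℚ N := normalClosure.normal ℚ _ ℚ̄
  have : FiniteDimensional ℚ N := normalClosure.is_finiteDimensional ℚ _ ℚ̄
  refine ⟨N, ⟨inferInstance, ⟨⟩, hT h.mem, hT', fun A hA σ hσ => ?_⟩,
    le_trans le_sup_left (IntermediateField.le_normalClosure _),
    le_trans le_sup_right (IntermediateField.le_normalClosure _)⟩
  have hle : N ≤ IntermediateField.fixedField (Subgroup.zpowers σ) := by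
    rw [hN]
    refine normalClosure_le_iff.mpr fun f => ?_
    rintro _ ⟨x, rfl⟩ ⟨k, hk⟩
    have := GalCommon.normal_Qbar
    set e : Γ := (f.liftNormal ℚ̄).restrictNormal' ℚ̄ with he
    have hfe : f x = e (x : ℚ̄) := by
      have h1 := AlgHom.restrictNormal_commutes (f.liftNormal ℚ̄) ℚ̄ (x : ℚ̄)
      have h2 := f.liftNormal_commutes ℚ̄ x
      exact h2.symm.trans h1.symm
    have h1 : ∀ z ∈ (L ⊔ K : IntermediateField ℚ ℚ̄), (e⁻¹ * σ * e) z = z := by
      have hmem : e⁻¹ * σ * e ∈ (e⁻¹ • A).1.inertiaSubgroupIn ℚ := by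
        have := GalCommon.mem_inertia_conj hσ e⁻¹
        rwa [inv_inv] at this
      have hA' : ¬ (e⁻¹ • A).Over T' := fun h' => hA (Place.over_smul_iff.mp h')
      have hL := h.unramified _ (fun h' => hA' (over_mono hT h')) _ hmem
      have hK' := hK _ hA' _ hmem
      have hsup : e⁻¹ * σ * e ∈ (L ⊔ K : IntermediateField ℚ ℚ̄).fixingSubgroup := by
        rw [IntermediateField.fixingSubgroup_sup]
        exact ⟨hL, hK'⟩
      exact (IntermediateField.mem_fixingSubgroup_iff _ _).mp hsup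
    have h2 : σ (e (x : ℚ̄)) = e (x : ℚ̄) := by
      have h3 := congrArg e (h1 _ x.2)
      rwa [AlgEquiv.mul_apply, AlgEquiv.mul_apply, ← AlgEquiv.mul_apply e e⁻¹, mul_inv_cancel,
        AlgEquiv.one_apply] at h3
    have h4 : σ ∈ MulAction.stabilizer Γ (f x) := by
      rw [MulAction.mem_stabilizer_iff, hfe]
      exact h2
    exact Subgroup.zpowers_le.mpr h4 hk
  exact (IntermediateField.mem_fixingSubgroup_iff _ _).mpr fun x hx =>
    hle hx ⟨σ, Subgroup.mem_zpowers σ⟩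

/-- The Galois closure of `F(y)` is unramified outside `T`. -/
theorem inertia_mem_sup_adjoin (h : IdeleSetting T p L) (hFL : F ≤ L)
    (hunr : ∀ A : Place, ¬ A.Over T → ∀ σ ∈ A.1.inertiaSubgroupIn ℚ, σ (y : ℚ̄) = y)
    (A : Place) (hA : ¬ A.Over T) (σ : Γ) (hσ : σ ∈ A.1.inertiaSubgroupIn ℚ) :
    σ ∈ (F ⊔ IntermediateField.adjoin ℚ {(y : ℚ̄)}).fixingSubgroup :=
  mem_fixingSubgroup_sup_adjoin_iff.mpr
    ⟨IntermediateField.fixingSubgroup_le hFL (h.unramified A hA σ hσ), hunr A hA σ hσ⟩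

end FLTAgent.TW
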