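import Fermat.Agent.TW.Idele.ClassField.NormIndex
import Fermat.Agent.TW.Idele.ClassField.KummerChar

/-!
# The norm index without hypothesis on the class group

`relIndex_norm_general`: enlarging `T` until the class groups are trivial gives index at most `p`
(`relIndex_norm_of_tPrincipal`), and the Herbrand quotient gives a multiple of `p`.
-/

set_option autoImplicit false

noncomputable section

open scoped Pointwise

namespace FLTAgent.TW

variable {T T' : Finset ℕ} {p : ℕ} {L F F' : IntermediateField ℚ (AlgebraicClosure ℚ)}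

theorem classKer_anti (h : T ⊆ T') : classKer T' F ≤ classKer T F :=
  sup_le_sup le_rfl fun _ hφ =>
    ⟨⟨hφ.1.1, fun A hA => hφ.1.2.1 A (over_mono h hA), hφ.1.2.2⟩, hφ.2⟩

/-- The norm index in degree `p`. -/
theorem relIndex_norm_general [Fact p.Prime] (hL : IdeleSetting T p L) (hFF' : F ≤ F')
    (hF'L : F' ≤ L) (hμ : ContainsMuP p F)
    (hnormal : (F'.fixingSubgroup.subgroupOf F.fixingSubgroup).Normal)
    (hdeg : F'.fixingSubgroup.relIndex F.fixingSubgroup = p) :
    (classKer T F ⊔ normSubgroup F F').relIndex (ideles F) = p := by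
  have := hL.finite
  obtain ⟨T', hTT', hT', hTP⟩ := exists_tPrincipal L T
  have hT'p : ∀ q ∈ T', q.Prime := fun q hq => (hT' q hq).elim (hL.prime q) id
  have h1 := relIndex_norm_of_tPrincipal (hL.mono_T hTT' hT'p) (hTP F (hFF'.trans hF'L)) hFF' hF'L
    hμ hnormal hdeg
  have h2 : (classKer T F ⊔ normSubgroup F F').relIndex (ideles F) ∣ p := by
    conv_rhs => rw [← h1]
    exact Subgroup.relIndex_dvd_of_le_left _ (sup_le_sup_right (classKer_anti hTT') _)
  obtain ⟨σ, hσ, hσ'⟩ : ∃ σ ∈ F.fixingSubgroup, σ ∉ F'.fixingSubgroup := by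
    by_contra hall
    push Not at hall
    rw [Subgroup.relIndex_eq_one.mpr hall] at hdeg
    exact (Fact.out : p.Prime).ne_one hdeg.symm
  obtain ⟨-, h3⟩ := herbrand_quotient hL hFF' hF'L hμ σ hσ hσ' hnormal hdeg
  exact Nat.dvd_antisymm h2 (h3 ▸ dvd_mul_right p _)

end FLTAgent.TW
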