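import Fermat.Agent.Density.Main
import Fermat.Agent.EllP.Unramified

/-!
# Auxiliary primes separating two given primes

`exists_aux_prime`: for primes `q ≠ q'`, `q ≠ p`, there is a prime `ℓ` outside a given finite set
modulo which no `q ^ (f * n)` with `p ∤ n` is a power of `q'`.  Such `ℓ` comes from a Frobenius
element acting suitably on roots of unity and on roots of `q` and `q'` (density).
-/

set_option autoImplicit false
set_option maxHeartbeats 1000000

noncomputable section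

open scoped Pointwise

namespace FLTAgent.TW

local notation "ℚ̄" => AlgebraicClosure ℚ
local notation "Γ" => (AlgebraicClosure ℚ ≃ₐ[ℚ] AlgebraicClosure ℚ)

theorem valuation_eq_one_of_pow_eq {A : ValuationSubring ℚ̄} {P : ℕ} (hP : P ≠ 0) {r : ℚ̄}
    {c : ℕ} (h : r ^ P = (c : ℚ̄)) (hc : A.valuation (c : ℚ̄) = 1) : A.valuation r = 1 := by
  rw [← h, map_pow] at hc
  exact (pow_eq_one_iff.mp hc).resolve_right hP

/-- A prime `ℓ` modulo which no power `q ^ (f n)` with `p ∤ n` is a power of `q'`. -/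
theorem exists_aux_prime {p q q' f : ℕ} [Fact p.Prime] (hq : q.Prime) (hq' : q'.Prime)
    (hqq : q ≠ q') (hqp : q ≠ p) (hf : 0 < f) (S : Finset ℕ) :
    ∃ ℓ : ℕ, ℓ.Prime ∧ ℓ ∉ S ∧ ℓ ≠ q ∧ ℓ ≠ q' ∧
      ∀ (u u' : (ZMod ℓ)ˣ), (u : ZMod ℓ) = q → (u' : ZMod ℓ) = q' →
        ∀ n n' : ℤ, (u ^ f) ^ n * u' ^ n' = 1 → (p : ℤ) ∣ n := by
  classical
  have hp : p.Prime := Fact.out
  obtain ⟨k, f', hf', hfk⟩ := Nat.exists_eq_pow_mul_and_not_dvd hf.ne' p hp.ne_one
  set P := p ^ (k + 1) with hP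
  have hP0 : P ≠ 0 := pow_ne_zero _ hp.ne_zero
  have : NeZero P := ⟨hP0⟩
  have := GalCommon.normal_Qbar
  obtain ⟨ζ, hζ⟩ := HasEnoughRootsOfUnity.exists_primitiveRoot ℚ̄ P
  obtain ⟨r, hr⟩ := IsAlgClosed.exists_pow_nat_eq (q : ℚ̄) hp.pos
  obtain ⟨r', hr'⟩ := IsAlgClosed.exists_pow_nat_eq (q' : ℚ̄) (Nat.pos_of_ne_zero hP0)
  obtain ⟨A, hA⟩ := GalCommon.exists_liesOverPrime hq
  -- inertia at `q` moving `r`
  obtain ⟨g, hgI, hgr⟩ : ∃ g ∈ A.inertiaSubgroupIn ℚ, g r ≠ r := by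
    by_contra hall
    push Not at hall
    have hr0 : r ≠ 0 := fun h => by
      rw [h, zero_pow hp.ne_zero] at hr
      exact hq.ne_zero (by exact_mod_cast hr.symm)
    obtain ⟨i, hi⟩ := EllP.exists_valuation_eq_zpow hq hA hr0 hall
    have h1 : A.valuation (q : ℚ̄) ^ (1 : ℤ) = A.valuation (q : ℚ̄) ^ (i * p) := by
      rw [zpow_one, zpow_mul, ← hi, zpow_natCast, ← map_pow, hr]
    have hne : A.valuation (q : ℚ̄) ≠ 0 := by simpa using hq.ne_zero
    have hlt : A.valuation (q : ℚ̄) < 1 := A.mem_nonunits_iff.mp hA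
    have h2 := zpow_right_injective₀ (zero_lt_iff.mpr hne) hlt.ne h1
    have h3 : (p : ℤ) ∣ 1 := ⟨i, by rw [h2]; ring⟩
    exact hp.ne_one (Nat.eq_one_of_dvd_one (by exact_mod_cast h3))
  have hqP : ¬ q ∣ P := fun h =>
    hqp ((Nat.prime_dvd_prime_iff_eq hq hp).mp (hq.dvd_of_dvd_pow h))
  have hgζ : g ζ = ζ := GalCommon.inertia_apply_of_pow_eq_one hq hA hqP hgI hζ.pow_eq_one
  have hq'A : A.valuation (q' : ℚ̄) = 1 :=
    le_antisymm ((A.valuation_le_one_iff _).mpr (natCast_mem A q'))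
      (not_lt.mp fun h => hqq ((Nat.prime_dvd_prime_iff_eq hq hq').mp
        ((GalCommon.natCast_mem_nonunits_iff hq hA q').mp (A.mem_nonunits_iff.mpr h))))
  have hr'0 : r' ≠ 0 := fun h => by
    rw [h, zero_pow hP0] at hr'
    exact hq'.ne_zero (by exact_mod_cast hr'.symm)
  have hgr' : g r' = r' := by
    have hv : A.valuation r' = 1 := valuation_eq_one_of_pow_eq hP0 hr' hq'A
    have hmem : r' ∈ A := (A.valuation_le_one_iff _).mp hv.le
    have h1 := A.mem_nonunits_iff.mp ((GalCommon.mem_inertiaSubgroupIn_iff.mp hgI).2 _ hmem)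
    have h2 : g r' / r' = 1 := GalCommon.eq_one_of_pow_eq_one_of_sub_mem hq hA hqP
      (by rw [div_pow, ← map_pow, hr', map_natCast, div_self (Nat.cast_ne_zero.mpr hq'.ne_zero)])
      (A.mem_nonunits_iff.mpr (by rw [div_sub_one hr'0, map_div₀, hv, div_one]; exact h1))
    rwa [div_eq_one_iff_eq hr'0] at h2
  -- a Frobenius with the same action up to a power
  set K := IntermediateField.normalClosure ℚ
    (IntermediateField.adjoin ℚ ({ζ, r, r'} : Set ℚ̄)) ℚ̄ with hKdef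
  have : FiniteDimensional ℚ (IntermediateField.adjoin ℚ ({ζ, r, r'} : Set ℚ̄)) :=
    IntermediateField.finiteDimensional_adjoin fun x _ =>
      (EllP.qbarIsAlgebraic.isAlgebraic x).isIntegral
  have : Normal ℚ K := normalClosure.normal ℚ _ ℚ̄
  have : FiniteDimensional ℚ K := normalClosure.is_finiteDimensional ℚ _ ℚ̄
  have : IsGalois ℚ K := ⟨⟩
  have hsub : ∀ x ∈ ({ζ, r, r'} : Set ℚ̄), x ∈ K := fun x hx =>
    IntermediateField.le_normalClosure _ (IntermediateField.subset_adjoin ℚ _ hx)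
  obtain ⟨ℓ, hℓ, hℓS, -, B, hB, τ, hτ, j, hj, hres⟩ :=
    Density.exists_isFrobeniusAt_restrict_eq_pow K (AlgEquiv.restrictNormalHom K g)
      (S ∪ {p, q, q'})
  simp only [Finset.mem_union, Finset.mem_insert, Finset.mem_singleton, not_or] at hℓS
  obtain ⟨hℓS, hℓp, hℓq, hℓq'⟩ := hℓS
  refine ⟨ℓ, hℓ, hℓS, hℓq, hℓq', ?_⟩
  have hact : ∀ x ∈ K, τ x = (g ^ j) x := fun x hx => by
    have h := Density.inv_mul_mem_fixingSubgroup_of_restrict_eq (L := K) (x := g ^ j) (y := τ)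
      (by rw [map_pow, hres])
    have h' := congrArg (g ^ j) ((IntermediateField.mem_fixingSubgroup_iff _ _).mp h x hx)
    rwa [← AlgEquiv.mul_apply, mul_inv_cancel_left] at h'
  have hiter : ∀ (n : ℕ) (x : ℚ̄), g x = x → (g ^ n) x = x := fun n x hx => by
    induction n with
    | zero => simp
    | succ n ih => rw [pow_succ, AlgEquiv.mul_apply, hx, ih]
  have hr0 : r ≠ 0 := fun h => by
    rw [h, zero_pow hp.ne_zero] at hr
    exact hq.ne_zero (by exact_mod_cast hr.symm)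
  set ξ := g r / r with hξdef
  have hξp : ξ ^ p = 1 := by
    rw [hξdef, div_pow, ← map_pow, hr, map_natCast, div_self (Nat.cast_ne_zero.mpr hq.ne_zero)]
  have hξ1 : ξ ≠ 1 := by rwa [hξdef, ne_eq, div_eq_one_iff_eq hr0]
  have hgξ : g ξ = ξ := GalCommon.inertia_apply_of_pow_eq_one hq hA
    (fun h => hqp ((Nat.prime_dvd_prime_iff_eq hq hp).mp h)) hgI hξp
  have hpowr : ∀ n : ℕ, (g ^ n) r = ξ ^ n * r := fun n => by
    induction n with
    | zero => simp
    | succ n ih =>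
      rw [pow_succ, AlgEquiv.mul_apply, show g r = ξ * r by rw [hξdef, div_mul_cancel₀ _ hr0],
        map_mul, hiter n ξ hgξ, ih, pow_succ]
      ring
  have hord : orderOf ξ = p := orderOf_eq_prime hξp hξ1
  have hpj : ξ ^ j ≠ 1 := fun h => by
    rw [← orderOf_dvd_iff_pow_eq_one, hord] at h
    set o := orderOf (AlgEquiv.restrictNormalHom K g) with ho
    have hgo : (g ^ o) r = r := by
      have h1 : AlgEquiv.restrictNormalHom K (g ^ o) = 1 := by rw [map_pow, ho, pow_orderOf_eq_one]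
      exact (IntermediateField.mem_fixingSubgroup_iff _ _).mp
        (Density.mem_fixingSubgroup_of_restrict_eq_one h1) r (hsub r (by simp))
    rw [hpowr] at hgo
    have h2 : ξ ^ o = 1 := mul_right_cancel₀ hr0 (by rw [hgo, one_mul])
    rw [← orderOf_dvd_iff_pow_eq_one, hord] at h2
    exact hp.ne_one (Nat.eq_one_of_dvd_coprimes hj h h2)
  -- residues at `B`
  have hτζ : τ ζ = ζ := by rw [hact ζ (hsub ζ (by simp)), hiter j ζ hgζ]
  have hτr : τ r = ξ ^ j * r := by rw [hact r (hsub r (by simp)), hpowr]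
  have hτr' : τ r' = r' := by rw [hact r' (hsub r' (by simp)), hiter j r' hgr']
  have hℓP : ¬ ℓ ∣ P := fun h =>
    hℓp ((Nat.prime_dvd_prime_iff_eq hℓ hp).mp (hℓ.dvd_of_dvd_pow h))
  have hℓ1 : P ∣ ℓ - 1 := by
    have h := GalCommon.frobenius_apply_of_pow_eq_one hℓ hB hℓP hτ hζ.pow_eq_one
    rw [hτζ] at h
    refine hζ.dvd_of_pow_eq_one _ ?_
    have h0 : ζ ≠ 0 := hζ.ne_zero hP0
    refine mul_left_cancel₀ h0 ?_
    rw [mul_one, ← pow_succ', Nat.sub_add_cancel hℓ.one_le]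
    exact h.symm
  obtain ⟨e, he⟩ := hℓ1
  have := GalCommon.charP_residueField hℓ hB
  have : Fact ℓ.Prime := ⟨hℓ⟩
  have hvone : ∀ c : ℕ, ¬ ℓ ∣ c → B.valuation (c : ℚ̄) = 1 := fun c hc =>
    le_antisymm ((B.valuation_le_one_iff _).mpr (natCast_mem B c))
      (not_lt.mp fun h => hc
        ((GalCommon.natCast_mem_nonunits_iff hℓ hB c).mp (B.mem_nonunits_iff.mpr h)))
  have hndq : ¬ ℓ ∣ q := fun h => hℓq ((Nat.prime_dvd_prime_iff_eq hℓ hq).mp h)
  have hndq' : ¬ ℓ ∣ q' := fun h => hℓq' ((Nat.prime_dvd_prime_iff_eq hℓ hq').mp h)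
  have hrB : B.valuation r = 1 := valuation_eq_one_of_pow_eq hp.ne_zero hr (hvone q hndq)
  have hr'B : B.valuation r' = 1 := valuation_eq_one_of_pow_eq hP0 hr' (hvone q' hndq')
  -- in the residue field: `x ^ (ℓ - 1)` for the roots
  have hres' : ∀ (x : ℚ̄) (hx : x ∈ B) (hτx : τ x ∈ B),
      IsLocalRing.residue B ⟨τ x, hτx⟩ = IsLocalRing.residue B ⟨x, hx⟩ ^ ℓ := fun x hx hτx => by
    rw [← map_pow, ← sub_eq_zero, ← map_sub, ← GalCommon.coe_mem_nonunits_iff_residue]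
    exact (GalCommon.isFrobeniusAt_iff.mp hτ).2 x hx
  let ρ := ZMod.castHom (dvd_refl ℓ) (IsLocalRing.ResidueField B)
  have hρ : Function.Injective ρ := RingHom.injective ρ
  have hρn : ∀ (c : ℕ), IsLocalRing.residue B ⟨(c : ℚ̄), natCast_mem B c⟩ = ρ (c : ZMod ℓ) :=
    fun c => by
      rw [map_natCast, ← map_natCast (IsLocalRing.residue B)]
      rfl
  have hq'e : (q' : ZMod ℓ) ^ e = 1 := hρ (by
    have hm : r' ∈ B := (B.valuation_le_one_iff _).mp hr'B.le
    set z := IsLocalRing.residue B ⟨r', hm⟩ with hz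
    have hz0 : z ≠ 0 := fun h0 => by
      have := B.mem_nonunits_iff.mp
        ((GalCommon.coe_mem_nonunits_iff_residue B).mpr h0)
      simp [hr'B] at this
    have h := hres' r' hm (by rw [hτr']; exact hm)
    simp only [hτr', ← hz] at h
    have h1 : z ^ (ℓ - 1) = 1 := mul_right_cancel₀ hz0 (by
      rw [one_mul, ← pow_succ, Nat.sub_add_cancel hℓ.one_le]; exact h.symm)
    have hzP : z ^ P = ρ (q' : ZMod ℓ) := by
      rw [← hρn, hz, ← map_pow]
      congr 1
      exact Subtype.ext hr'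
    rw [map_pow, ← hzP, ← pow_mul, ← he, h1, map_one])
  have hqe : ((q : ZMod ℓ) ^ e) ^ p ^ k ≠ 1 := fun h0 => by
    have hm : r ∈ B := (B.valuation_le_one_iff _).mp hrB.le
    set z := IsLocalRing.residue B ⟨r, hm⟩ with hz
    have hz0 : z ≠ 0 := fun h1 => by
      have := B.mem_nonunits_iff.mp
        ((GalCommon.coe_mem_nonunits_iff_residue B).mpr h1)
      simp [hrB] at this
    have hzp : z ^ p = ρ (q : ZMod ℓ) := by
      rw [← hρn, hz, ← map_pow]
      congr 1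
      exact Subtype.ext hr
    have h1 : z ^ (ℓ - 1) = 1 := by
      rw [he, show P * e = p * (e * p ^ k) by rw [hP, pow_succ]; ring, pow_mul, hzp, ← map_pow,
        pow_mul, h0, map_one]
    have hτm : τ r ∈ B := (GalCommon.map_mem_iff_of_mem_decomposition
      hτ.mem_decompositionSubgroup).mpr hm
    have h := hres' r hm hτm
    rw [← hz, ← Nat.sub_add_cancel hℓ.one_le, pow_succ, h1, one_mul, hz, ← sub_eq_zero, ← map_sub,
      ← GalCommon.coe_mem_nonunits_iff_residue] at h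
    have h2 : (ξ ^ j) ^ p = 1 := by rw [← pow_mul, mul_comm, pow_mul, hξp, one_pow]
    refine hpj (GalCommon.eq_one_of_pow_eq_one_of_sub_mem hℓ hB
      (fun hd => hℓp ((Nat.prime_dvd_prime_iff_eq hℓ hp).mp hd)) h2 ?_)
    rw [B.mem_nonunits_iff] at h ⊢
    change B.valuation (τ r - r) < 1 at h
    rwa [hτr, ← sub_one_mul, map_mul, hrB, mul_one] at h
  intro u u' hu hu' n n' h
  set x := u ^ e with hx
  have hxP : x ^ p ^ (k + 1) = 1 := by
    rw [hx, ← pow_mul, ← hP, mul_comm, ← he]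
    exact ZMod.units_pow_card_sub_one_eq_one ℓ u
  have hxne : ¬ x ^ p ^ k = 1 := fun h0 => hqe (by
    rw [← hu, ← Units.val_pow_eq_pow_val, ← Units.val_pow_eq_pow_val, ← hx, h0, Units.val_one])
  have horder : orderOf x = p ^ (k + 1) := orderOf_eq_prime_pow hxne hxP
  have hu'e : u' ^ e = 1 := Units.ext (by rw [Units.val_pow_eq_pow_val, hu', hq'e, Units.val_one])
  have h' : x ^ ((f : ℤ) * n) = 1 := by
    have h1 := congrArg (· ^ e) h
    simp only [one_pow, mul_pow] at h1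
    have hb : (u' ^ n') ^ e = 1 := by
      rw [← zpow_natCast, ← zpow_mul, mul_comm, zpow_mul, zpow_natCast, hu'e, one_zpow]
    rw [hb, mul_one] at h1
    rw [← h1, hx, ← zpow_natCast u e, ← zpow_mul, ← zpow_natCast u f, ← zpow_mul,
      ← zpow_natCast _ e, ← zpow_mul]
    ring_nf
  rw [← orderOf_dvd_iff_zpow_eq_one, horder] at h'
  rw [hfk, pow_succ, Nat.cast_mul, Nat.cast_mul, mul_assoc] at h'
  have h2 : (p : ℤ) ∣ (f' : ℤ) * n := (mul_dvd_mul_iff_left (by simp [hp.ne_zero])).mp h'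
  rcases (Nat.prime_iff_prime_int.mp hp).dvd_or_dvd h2 with h3 | h3
  · exact absurd (by exact_mod_cast h3) hf'
  · exact h3

end FLTAgent.TW
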