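import Fermat.Agent.TW.Idele.Arith
import Fermat.Agent.TW.Idele.ClassField.PlaceNorm

/-!
# Ideles are generated by places, principal ideles and `p`-th powers

`awayIdeles_le_closure` writes an idele trivial at `T ∪ ∞` by ideles of places outside `T` and
units; with approximation at `T`, `eq_one_of_places` shows that a character of exponent `p`
killing the class kernel and the places outside `T` is trivial.
-/

set_option autoImplicit false
set_option maxHeartbeats 1000000

noncomputable section

open IsDedekindDomain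
open scoped Pointwise NumberField Classical

namespace FLTAgent.TW

open PreIdele

local notation "ℚ̄" => AlgebraicClosure ℚ
local notation "Γ" => (AlgebraicClosure ℚ ≃ₐ[ℚ] AlgebraicClosure ℚ)

attribute [local instance] numberField_intermediate

variable {T : Finset ℕ} {p : ℕ} {L F : IntermediateField ℚ (AlgebraicClosure ℚ)}

/-- The ideles of places outside `T`. -/
def placeIdeles (T : Finset ℕ) (F : IntermediateField ℚ ℚ̄) : Set PreIdele :=
  {φ | ∃ (q : ℕ) (hq : q.Prime) (A : Place), q ∉ T ∧ A.1.LiesOverPrime q ∧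
    φ = placeIdele F q hq.ne_zero A}

theorem awayIdeles_le_closure [FiniteDimensional ℚ F]
    (hur : ∀ A : Place, ¬ A.Over T → ∀ σ ∈ A.1.inertiaSubgroupIn ℚ, σ ∈ F.fixingSubgroup) :
    awayIdeles T F ≤ Subgroup.closure (placeIdeles T F) ⊔ unitIdeles T F := by
  suffices h : ∀ (W : Finset (HeightOneSpectrum (𝓞 F))) (β : PreIdele), β ∈ awayIdeles T F →
      (∀ A : Place, primeOf F A ∉ W → A.1.valuation (β.fin A : ℚ̄) = 1) →
      β ∈ Subgroup.closure (placeIdeles T F) ⊔ unitIdeles T F by
    intro β hβ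
    obtain ⟨W, hW⟩ := exists_finset_primes hβ.1
    exact h W β hβ hW
  intro W
  induction W using Finset.induction with
  | empty => exact fun β hβ hW => Subgroup.mem_sup_right ⟨hβ, fun A => hW A (Finset.notMem_empty _)⟩
  | @insert P W hP ih =>
    intro β hβ hW
    set A₀ := placeAbove F P with hA₀
    by_cases hT : A₀.Over T
    · refine ih β hβ fun A hA => ?_
      by_cases hAP : primeOf F A = P
      · have hAT : A.Over T := by
          rw [Place.over_iff, ← char_placeAbove hAP]
          exact A₀.over_iff.mp hT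
        rw [hβ.2.1 A hAT, Units.val_one, map_one]
      · exact hW A (by simp [hAP, hA])
    obtain ⟨k, hk⟩ := EllP.exists_valuation_eq_zpow A₀.prime_char A₀.liesOver_char
      (y := (β.fin A₀ : ℚ̄)) (Units.ne_zero _) fun σ hσ => fin_fixed hβ.1 A₀ (hur A₀ hT σ hσ)
        (Subtype.ext (MulAction.mem_stabilizer_iff.mp
          (GalCommon.inertiaSubgroupIn_le_decomposition hσ)))
    have hqT : A₀.char ∉ T := fun h => hT (A₀.over_iff.mpr h)
    set π := placeIdele F A₀.char A₀.prime_char.ne_zero A₀ with hπ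
    have hπaway : π ∈ awayIdeles T F := placeIdele_mem_awayIdeles A₀.prime_char hqT A₀.liesOver_char
    have hrest : β * (π ^ k)⁻¹ ∈ Subgroup.closure (placeIdeles T F) ⊔ unitIdeles T F := by
      refine ih _ (mul_mem hβ (inv_mem (Subgroup.zpow_mem _ hπaway k))) fun A hA => ?_
      have hfin : ((β * (π ^ k)⁻¹).fin A : ℚ̄) =
          (β.fin A : ℚ̄) * (((π.fin A : ℚ̄)) ^ k)⁻¹ := by
        show (finHom A (β * (π ^ k)⁻¹) : ℚ̄) = _
        rw [map_mul, map_inv, map_zpow, Units.val_mul, Units.val_inv_eq_inv_val,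
          Units.val_zpow_eq_zpow_val]
        rfl
      rw [hfin, map_mul, map_inv₀, map_zpow₀]
      by_cases hAP : primeOf F A = P
      · obtain ⟨σ, hσ, rfl⟩ := exists_smul_eq_of_primeOf_eq (F := F) (A := A₀) (B := A)
          (by rw [hA₀, primeOf_placeAbove, hAP])
        have h1 : (π.fin (σ • A₀) : ℚ̄) = A₀.char := by
          rw [coe_smul_fin hπaway.1 hσ, hπ, placeIdele_fin_self, map_natCast]
        rw [← map_zpow₀] at hk
        have h2 := (valuation_smul_eq_iff σ A₀).mpr hk
        rw [map_zpow₀ σ, map_natCast, map_zpow₀, ← coe_smul_fin hβ.1 hσ] at h2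
        rw [h1, h2]
        exact mul_inv_cancel₀ (zpow_ne_zero _ (by simpa using A₀.prime_char.ne_zero))
      · have h1 : π.fin A = 1 := placeIdele_fin_of_not _ _ fun ⟨σ, hσ, he⟩ => hAP (by
          rw [← he, primeOf_smul hσ, hA₀, primeOf_placeAbove])
        rw [h1, Units.val_one, map_one, one_zpow, inv_one, mul_one]
        exact hW A (by simp [hAP, hA])
    have hcl : π ^ k ∈ Subgroup.closure (placeIdeles T F) ⊔ unitIdeles T F :=
      Subgroup.mem_sup_left (Subgroup.zpow_mem _
        (Subgroup.subset_closure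
        (show π ∈ placeIdeles T F from ⟨_, A₀.prime_char, A₀, hqT, A₀.liesOver_char, rfl⟩)) k)
    have := mul_mem hrest hcl
    rwa [inv_mul_cancel_right] at this

/-- A character killing the class kernel, the `p`-th powers and all places outside `T` is
trivial. -/
theorem eq_one_of_places [Fact p.Prime] (hL : IdeleSetting T p L) (hFL : F ≤ L)
    (hμ : ContainsMuP p F) {M : Type*} [CommGroup M] (f : ideles F →* M)
    (hpow : ∀ φ, f φ ^ p = 1) (hker : ∀ φ : ideles F, φ.1 ∈ classKer T F → f φ = 1)
    (hplace : ∀ (q : ℕ) (hq : q.Prime) (A : Place), q ∉ T → A.1.LiesOverPrime q →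
      ∀ h : placeIdele F q hq.ne_zero A ∈ ideles F, f ⟨_, h⟩ = 1)
    (φ : ideles F) : f φ = 1 := by
  have := hL.finite
  have := finite_of_le (L := L) hFL
  let S : Subgroup PreIdele := f.ker.map (ideles F).subtype
  have hS : ∀ (x : PreIdele) (hx : x ∈ ideles F), f ⟨x, hx⟩ = 1 → x ∈ S := fun x hx h =>
    ⟨⟨x, hx⟩, h, rfl⟩
  suffices h : ideles F ≤ S by
    obtain ⟨ψ, hψ, he⟩ := h φ.2
    rw [← Subtype.ext he]
    exact hψ
  refine (ideles_le_principal_sup hL hFL hμ).trans (sup_le ?_ (sup_le ?_ ?_))
  · exact fun x hx => hS x (principal_le_ideles hx) (hker _ (Subgroup.mem_sup_left hx))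
  · refine (awayIdeles_le_closure fun A hA σ hσ =>
      IntermediateField.fixingSubgroup_le hFL (hL.unramified A hA σ hσ)).trans (sup_le ?_ ?_)
    · rw [Subgroup.closure_le]
      rintro _ ⟨q, hq, A, hqT, hA, rfl⟩
      exact hS _ (placeIdele_mem_ideles hq hA) (hplace q hq A hqT hA _)
    · exact fun x hx => hS x (unitIdeles_le_ideles hx) (hker _ (Subgroup.mem_sup_right hx))
  · rintro _ ⟨x, hx, rfl⟩
    refine hS _ (pow_mem hx p) ?_
    exact (map_pow f ⟨x, hx⟩ p).trans (hpow _)

end FLTAgent.TW
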