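import Fermat.Agent.TW.Idele.ClassField.ArtinRat
import Fermat.Agent.TW.Idele.ClassField.Generate

/-!
# The image of the norms under the Artin map of `ℚ(ζ_m)`

`omegaNorm_mem`: the norm of an idele of `K` goes into the image of `Gal(ℚ̄/K)` under the
cyclotomic character `chi` modulo `m`.  By signed approximation and `omega_classKer` one reduces
to ideles of single places, where the value is a power of Frobenius.
-/

set_option autoImplicit false
set_option maxHeartbeats 1000000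

noncomputable section

open scoped Pointwise Classical

namespace FLTAgent.TW

open PreIdele

local notation "ℚ̄" => AlgebraicClosure ℚ
local notation "Γ" => (AlgebraicClosure ℚ ≃ₐ[ℚ] AlgebraicClosure ℚ)

attribute [local instance] numberField_intermediate

variable {m : ℕ} [NeZero m]

/-- A primitive `m`-th root of unity. -/
def zetaRoot (m : ℕ) [NeZero m] : ℚ̄ :=
  (HasEnoughRootsOfUnity.exists_primitiveRoot ℚ̄ m).choose

theorem zetaRoot_spec : IsPrimitiveRoot (zetaRoot m) m :=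
  (HasEnoughRootsOfUnity.exists_primitiveRoot ℚ̄ m).choose_spec

/-- The cyclotomic character modulo `m`. -/
def chi (m : ℕ) [NeZero m] : Γ →* (ZMod m)ˣ := (zetaRoot_spec (m := m)).autToPow ℚ

theorem chi_apply (g : Γ) {z : ℚ̄} (hz : z ^ m = 1) : g z = z ^ ((chi m g : ZMod m)).val := by
  obtain ⟨i, -, rfl⟩ := (zetaRoot_spec (m := m)).eq_pow_of_pow_eq_one hz
  rw [map_pow, ← pow_mul, mul_comm i, pow_mul]
  exact congrArg (· ^ i) ((zetaRoot_spec (m := m)).autToPow_spec ℚ g).symm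

theorem chi_eq_of_apply_eq (g : Γ) (a : ℕ) (h : g (zetaRoot m) = zetaRoot m ^ a) :
    ((chi m g : (ZMod m)ˣ) : ZMod m) = (a : ZMod m) := by
  have h1 := (zetaRoot_spec (m := m)).autToPow_spec ℚ g
  rw [h, ← Nat.mod_add_div a m, pow_add, pow_mul, (zetaRoot_spec (m := m)).pow_eq_one, one_pow,
    mul_one] at h1
  have h2 := (zetaRoot_spec (m := m)).pow_inj (ZMod.val_lt _) (Nat.mod_lt _ (NeZero.pos m)) h1
  have h3 := congrArg (fun n : ℕ => (n : ZMod m)) h2
  simp only [ZMod.natCast_zmod_val, ZMod.natCast_mod] at h3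
  exact h3

theorem chi_eq_one_iff (g : Γ) : chi m g = 1 ↔ ∀ z : ℚ̄, z ^ m = 1 → g z = z := by
  refine ⟨fun h z hz => ?_, fun h => Units.ext ?_⟩
  · rw [chi_apply g hz, h, Units.val_one]
    rcases Nat.lt_or_ge 1 m with hm | hm
    · have : Fact (1 < m) := ⟨hm⟩
      rw [ZMod.val_one, pow_one]
    · obtain rfl : m = 1 := le_antisymm hm (NeZero.pos m)
      rw [pow_one] at hz
      rw [hz, one_pow]
  · rw [chi_eq_of_apply_eq g 1 (by rw [pow_one]; exact h _ (zetaRoot_spec (m := m)).pow_eq_one)]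
    simp

theorem chi_frobenius {q : ℕ} (hq : q.Prime) (hqm : ¬ q ∣ m) {A : ValuationSubring ℚ̄}
    (hA : A.LiesOverPrime q) {σ : Γ} (hσ : A.IsFrobeniusAt σ q) :
    chi m σ = ZMod.unitOfCoprime q ((Nat.Prime.coprime_iff_not_dvd hq).mpr hqm) :=
  Units.ext ((chi_eq_of_apply_eq σ q (GalCommon.frobenius_apply_of_pow_eq_one hq hA hqm hσ
    (zetaRoot_spec (m := m)).pow_eq_one)).trans (ZMod.coe_unitOfCoprime q _).symm)

theorem chi_inertia {q : ℕ} (hq : q.Prime) (hqm : ¬ q ∣ m) {A : ValuationSubring ℚ̄}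
    (hA : A.LiesOverPrime q) {σ : Γ} (hσ : σ ∈ A.inertiaSubgroupIn ℚ) : chi m σ = 1 :=
  (chi_eq_one_iff σ).mpr fun _ hz => GalCommon.inertia_apply_of_pow_eq_one hq hA hqm hσ hz

/-- A conjugation-stable finite product with positive real fixed terms is real and positive. -/
theorem prod_real_pos_of_involution {ι : Type*} (s : Finset ι) (z : ι → ℂ) (τ : ι → ι)
    (hs : ∀ i ∈ s, τ i ∈ s) (hinv : ∀ i ∈ s, τ (τ i) = i)
    (hz : ∀ i ∈ s, z (τ i) = starRingEnd ℂ (z i)) (h0 : ∀ i ∈ s, z i ≠ 0)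
    (hfix : ∀ i ∈ s, τ i = i → 0 < (z i).re) :
    0 < (∏ i ∈ s, z i).re ∧ starRingEnd ℂ (∏ i ∈ s, z i) = ∏ i ∈ s, z i := by
  induction s using Finset.strongInduction with
  | H s ih =>
    rcases s.eq_empty_or_nonempty with rfl | ⟨c, hc⟩
    · simp
    by_cases hτ : τ c = c
    · have hs' : ∀ i ∈ s.erase c, τ i ∈ s.erase c := fun i hi => by
        obtain ⟨hne, hi⟩ := Finset.mem_erase.mp hi
        refine Finset.mem_erase.mpr ⟨fun h => hne ?_, hs i hi⟩
        rw [← hinv i hi, h, hτ]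
      obtain ⟨h1, h2⟩ := ih _ (Finset.erase_ssubset hc) hs'
        (fun i hi => hinv i (Finset.mem_of_mem_erase hi))
        (fun i hi => hz i (Finset.mem_of_mem_erase hi))
        (fun i hi => h0 i (Finset.mem_of_mem_erase hi))
        (fun i hi => hfix i (Finset.mem_of_mem_erase hi))
      have hcr : starRingEnd ℂ (z c) = z c := by rw [← hz c hc, hτ]
      rw [← Finset.mul_prod_erase s z hc]
      refine ⟨?_, by rw [map_mul, hcr, h2]⟩
      rw [re_mul_of_conj_eq hcr]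
      exact mul_pos (hfix c hc hτ) h1
    · have hd : τ c ∈ s.erase c := Finset.mem_erase.mpr ⟨hτ, hs c hc⟩
      set s' := (s.erase c).erase (τ c)
      have hsub : ∀ i ∈ s', i ∈ s := fun i hi =>
        Finset.mem_of_mem_erase (Finset.mem_of_mem_erase hi)
      have hs' : ∀ i ∈ s', τ i ∈ s' := fun i hi => by
        obtain ⟨hne', hi'⟩ := Finset.mem_erase.mp hi
        obtain ⟨hne, hi'⟩ := Finset.mem_erase.mp hi'
        refine Finset.mem_erase.mpr ⟨fun h => hne ?_,
          Finset.mem_erase.mpr ⟨fun h => hne' ?_, hs i hi'⟩⟩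
        · rw [← hinv i hi', h, hinv c hc]
        · rw [← hinv i hi', h]
      obtain ⟨h1, h2⟩ := ih s' ((Finset.erase_ssubset hd).trans (Finset.erase_ssubset hc)) hs'
        (fun i hi => hinv i (hsub i hi)) (fun i hi => hz i (hsub i hi))
        (fun i hi => h0 i (hsub i hi)) (fun i hi => hfix i (hsub i hi))
      have e : ∏ i ∈ s, z i = (z c * starRingEnd ℂ (z c)) * ∏ i ∈ s', z i := by
        rw [← Finset.mul_prod_erase s z hc, ← Finset.mul_prod_erase _ z hd, hz c hc, mul_assoc]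
      have hN : starRingEnd ℂ (z c * starRingEnd ℂ (z c)) = z c * starRingEnd ℂ (z c) := by
        rw [map_mul, Complex.conj_conj, mul_comm]
      rw [e]
      refine ⟨?_, by rw [map_mul, hN, h2]⟩
      rw [re_mul_of_conj_eq hN]
      refine mul_pos ?_ h1
      rw [Complex.mul_conj, Complex.ofReal_re]
      exact Complex.normSq_pos.mpr (h0 c hc)

variable (m) in
/-- The Artin map of `ℚ(ζ_m)` composed with the norm from `K`. -/
def omegaNorm (K : IntermediateField ℚ ℚ̄) [FiniteDimensional ℚ K] : ideles K →* (ZMod m)ˣ :=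
  (omega m).comp (((normHomIdele ⊥ K).comp (ideles K).subtype).codRestrict _
    fun φ => normIdele_mem' φ.2)

theorem omegaNorm_apply {K : IntermediateField ℚ ℚ̄} [FiniteDimensional ℚ K] (φ : ideles K)
    (h : normIdele ⊥ K φ.1 ∈ ideles ⊥) : omegaNorm m K φ = omega m ⟨_, h⟩ := rfl

theorem omegaNorm_classKer {T : Finset ℕ} (hmT : ∀ q : ℕ, q.Prime → q ∣ m → q ∈ T)
    {K : IntermediateField ℚ ℚ̄} [FiniteDimensional ℚ K] {φ : ideles K}
    (h : φ.1 ∈ classKer T K) : omegaNorm m K φ = 1 := by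
  rw [omegaNorm_apply φ (normIdele_mem' φ.2)]
  exact omega_classKer hmT (normIdele_mem_classKer' h)

theorem omegaNorm_placeIdele {K : IntermediateField ℚ ℚ̄} [FiniteDimensional ℚ K] {q : ℕ}
    (hq : q.Prime) (hqm : ¬ q ∣ m) {A : Place} (hA : A.1.LiesOverPrime q) {σ : Γ}
    (hσ : A.1.IsFrobeniusAt σ q) (hI : ∀ ι ∈ A.1.inertiaSubgroupIn ℚ, ι ∈ K.fixingSubgroup)
    {f : ℕ} (hf : 0 < f) (hσf : σ ^ f ∈ K.fixingSubgroup)
    (hfmin : ∀ g : ℕ, 0 < g → g < f → σ ^ g ∉ K.fixingSubgroup)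
    (h : placeIdele K q hq.ne_zero A ∈ ideles K) :
    omegaNorm m K ⟨_, h⟩ = chi m (σ ^ f) := by
  rw [omegaNorm_apply _ (normIdele_mem' h)]
  have e := normIdele_placeIdele (F := ⊥) (F' := K) bot_le hq hA hσ hI (f := 1) (d := f) one_pos
    (mem_fixingSubgroup_bot _) (fun g hg hg' => absurd hg' (by omega)) hf
    (by rwa [pow_one]) (fun g hg hg' => by rw [pow_one]; exact hfmin g hg hg')
  have h1 : placeIdele ⊥ q hq.ne_zero A ∈ ideles ⊥ := placeIdele_mem_ideles hq hA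
  rw [show (⟨normIdele ⊥ K (placeIdele K q hq.ne_zero A), normIdele_mem' h⟩ : ideles ⊥) =
    ⟨_, h1⟩ ^ f from Subtype.ext e, map_pow, omega_placeIdele hq hqm hA, map_pow,
    chi_frobenius hq hqm hA hσ]

/-- The norm of an idele which is everywhere a unit near `1`. -/
theorem valuation_norm_near {K : IntermediateField ℚ ℚ̄} [FiniteDimensional ℚ K] {α : PreIdele}
    (hα : ∀ A : Place, A.1.valuation (α.fin A : ℚ̄) = 1 ∧
      A.1.valuation ((α.fin A : ℚ̄) - 1) ≤ A.1.valuation (m : ℚ̄)) (A : Place) :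
    A.1.valuation ((normIdele ⊥ K α).fin A : ℚ̄) = 1 ∧
      A.1.valuation (((normIdele ⊥ K α).fin A : ℚ̄) - 1) ≤ A.1.valuation (m : ℚ̄) := by
  have := finite_fixing_quotient (⊥ : IntermediateField ℚ ℚ̄).fixingSubgroup K
  have := Fintype.ofFinite ((⊥ : IntermediateField ℚ ℚ̄).fixingSubgroup ⧸
    K.fixingSubgroup.subgroupOf (⊥ : IntermediateField ℚ ℚ̄).fixingSubgroup)
  rw [coe_fin_normIdele]
  refine Finset.prod_induction _
    (fun w => A.1.valuation w = 1 ∧ A.1.valuation (w - 1) ≤ A.1.valuation (m : ℚ̄)) ?_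
    ⟨map_one _, by rw [sub_self, map_zero]; exact zero_le⟩ fun c _ => ?_
  · rintro a b ⟨ha, ha'⟩ ⟨hb, hb'⟩
    refine ⟨by rw [map_mul, ha, hb, one_mul], ?_⟩
    rw [show a * b - 1 = (a - 1) * b + (b - 1) by ring]
    refine (A.1.valuation.map_add _ _).trans (max_le ?_ hb')
    rw [map_mul, hb, mul_one]
    exact ha'
  · obtain ⟨σ, hσ⟩ : ∃ σ : Γ, σ = ((Quotient.out c : (⊥ : IntermediateField ℚ ℚ̄).fixingSubgroup) : Γ) :=
      ⟨_, rfl⟩
    rw [← hσ]
    obtain ⟨h1, h2⟩ := hα (σ⁻¹ • A)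
    rw [← map_one (σ⁻¹ • A).1.valuation] at h1
    have h3 := (valuation_smul_eq_iff σ (σ⁻¹ • A)).mpr h1
    have h4 := (valuation_smul_le_iff σ (σ⁻¹ • A)).mpr h2
    rw [smul_inv_smul, map_one σ, map_one] at h3
    rw [smul_inv_smul, map_sub, map_one σ, map_natCast] at h4
    exact ⟨h3, h4⟩

/-- The norm of an idele positive at the real embeddings is positive. -/
theorem re_inf_norm_pos {K : IntermediateField ℚ ℚ̄} [FiniteDimensional ℚ K] {α : PreIdele}
    (hα : α ∈ ideles K) (hpos : ∀ ι : Emb, ι.IsRealOn K → 0 < (α.inf ι : ℂ).re) (ι : Emb) :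
    0 < ((normIdele ⊥ K α).inf ι : ℂ).re := by
  have := finite_fixing_quotient (⊥ : IntermediateField ℚ ℚ̄).fixingSubgroup K
  have := Fintype.ofFinite ((⊥ : IntermediateField ℚ ℚ̄).fixingSubgroup ⧸
    K.fixingSubgroup.subgroupOf (⊥ : IntermediateField ℚ ℚ̄).fixingSubgroup)
  rw [inf_normIdele, Units.coe_prod]
  obtain ⟨s, hs⟩ := exists_emb_comp_eq ι ι.conj
  have hs' : ∀ w : ℚ̄, ι (s w) = starRingEnd ℂ (ι w) := fun w => RingHom.congr_fun hs w
  let t : (⊥ : IntermediateField ℚ ℚ̄).fixingSubgroup := ⟨s, mem_fixingSubgroup_bot s⟩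
  have hss : t * t = 1 := by
    refine Subtype.ext (AlgEquiv.ext fun z => ι.injective ?_)
    show ι (s (s z)) = ι z
    rw [hs', hs', Complex.conj_conj]
  have hsmul : ∀ c : (⊥ : IntermediateField ℚ ℚ̄).fixingSubgroup ⧸
      K.fixingSubgroup.subgroupOf (⊥ : IntermediateField ℚ ℚ̄).fixingSubgroup,
      (((Quotient.out (t • c))⁻¹ * (t * Quotient.out c) :
        (⊥ : IntermediateField ℚ ℚ̄).fixingSubgroup) : Γ) ∈ K.fixingSubgroup := fun c => by
    refine mem_of_mk_eq (K := K.fixingSubgroup) ?_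
    rw [QuotientGroup.out_eq']
    conv_lhs => rw [← QuotientGroup.out_eq' c]
    rfl
  refine (prod_real_pos_of_involution Finset.univ _ (fun c => t • c)
    (fun _ _ => Finset.mem_univ _) (fun c _ => by rw [smul_smul, hss, one_smul])
    (fun c _ => ?_) (fun c _ => Units.ne_zero _) (fun c _ hc => ?_)).1
  · obtain ⟨g, hg⟩ : ∃ g : Γ,
      g = ((Quotient.out (t • c) : (⊥ : IntermediateField ℚ ℚ̄).fixingSubgroup) : Γ) := ⟨_, rfl⟩
    obtain ⟨g', hg'⟩ : ∃ g' : Γ,
      g' = ((Quotient.out c : (⊥ : IntermediateField ℚ ℚ̄).fixingSubgroup) : Γ) := ⟨_, rfl⟩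
    have hk : g⁻¹ * (s * g') ∈ K.fixingSubgroup := by rw [hg, hg']; exact hsmul c
    rw [← hg, ← hg', ← inf_fixed hα _ hk]
    have e2 : (RingHom.comp ι (g : ℚ̄ →+* ℚ̄)).comp ((g⁻¹ * (s * g') : Γ) : ℚ̄ →+* ℚ̄) =
        Emb.conj (RingHom.comp ι (g' : ℚ̄ →+* ℚ̄)) := by
      refine RingHom.ext fun z => ?_
      show ι (g (g⁻¹ (s (g' z)))) = starRingEnd ℂ (ι (g' z))
      rw [← AlgEquiv.mul_apply g g⁻¹, mul_inv_cancel, AlgEquiv.one_apply, hs']
    rw [e2, hα.2.1]
    rfl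
  · have h0 := hsmul c
    rw [hc] at h0
    obtain ⟨g, hg⟩ : ∃ g : Γ,
      g = ((Quotient.out c : (⊥ : IntermediateField ℚ ℚ̄).fixingSubgroup) : Γ) := ⟨_, rfl⟩
    have hk : g⁻¹ * (s * g) ∈ K.fixingSubgroup := by rw [hg]; exact h0
    rw [← hg]
    refine hpos _ fun z hz => ?_
    have h1 := (IntermediateField.mem_fixingSubgroup_iff _ _).mp hk z hz
    show starRingEnd ℂ (ι (g z)) = ι (g z)
    conv_rhs => rw [← h1]
    show starRingEnd ℂ (ι (g z)) = ι (g (g⁻¹ (s (g z))))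
    rw [← AlgEquiv.mul_apply g g⁻¹, mul_inv_cancel, AlgEquiv.one_apply, hs']

/-- Norms from `K` go to the image of `Gal(ℚ̄/K)`. -/
theorem omegaNorm_mem {K : IntermediateField ℚ ℚ̄} [FiniteDimensional ℚ K] (φ : ideles K) :
    omegaNorm m K φ ∈ K.fixingSubgroup.map (chi m) := by
  obtain ⟨S, hS⟩ := GalCommon.exists_finset_inertia_fix K
  set T := m.primeFactors ∪ S with hT
  have hmT : ∀ q : ℕ, q.Prime → q ∣ m → q ∈ T := fun q hq hd =>
    Finset.mem_union_left _ (Nat.mem_primeFactors.mpr ⟨hq, hd, NeZero.ne m⟩)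
  have hur : ∀ A : Place, ¬ A.Over T → ∀ σ ∈ A.1.inertiaSubgroupIn ℚ, σ ∈ K.fixingSubgroup :=
    fun A hA σ hσ => (IntermediateField.mem_fixingSubgroup_iff _ _).mpr fun x hx =>
      hS A.char A.prime_char (fun h => hA (A.over_iff.mpr (Finset.mem_union_right _ h))) A.1
        A.liesOver_char σ hσ x hx
  set G := K.fixingSubgroup.map (chi m)
  set Good : Subgroup PreIdele := (G.comap (omegaNorm m K)).map (ideles K).subtype
  have hGood : ∀ (x : PreIdele) (hx : x ∈ ideles K), omegaNorm m K ⟨x, hx⟩ ∈ G → x ∈ Good :=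
    fun x hx h => ⟨⟨x, hx⟩, h, rfl⟩
  suffices h : φ.1 ∈ Good by
    obtain ⟨ψ, hψ, he⟩ := h
    rw [← Subtype.ext he]
    exact hψ
  obtain ⟨x, hx0, hxW, hxs⟩ := exists_signed_approx φ.2 (primesOverT K T) m
  have hxu : (x : ℚ̄) ≠ 0 := by simpa using hx0
  set P := principalHom (Units.mk0 (x : ℚ̄) hxu) with hP
  have hPK : P ∈ ideles K := principalHom_mem_ideles x.2
  have hPgood : P ∈ Good := hGood P hPK (by
    rw [omegaNorm_classKer (φ := ⟨P, hPK⟩) hmT (Subgroup.mem_sup_left ⟨_, x.2, rfl⟩)]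
    exact one_mem G)
  set φ' := φ.1 * P⁻¹ with hφ'
  have hφ'K : φ' ∈ ideles K := mul_mem φ.2 (inv_mem hPK)
  suffices h : φ' ∈ Good by
    have := mul_mem h hPgood
    rwa [hφ', inv_mul_cancel_right] at this
  let α : PreIdele := ⟨fun A => if A.Over T then φ'.fin A else 1, φ'.inf⟩
  have hαK : α ∈ ideles K := by
    refine ⟨fun σ hσ => PreIdele.ext (funext fun A => Units.ext ?_) (funext fun ι => ?_),
      hφ'K.2.1, T, fun A hA => ?_⟩
    · rw [coe_fin_smul]
      by_cases hA : A.Over T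
      · have hA' : (σ⁻¹ • A).Over T := hA.smul _
        show σ ((if _ then _ else _ : ℚ̄ˣ) : ℚ̄) = ((if _ then _ else _ : ℚ̄ˣ) : ℚ̄)
        rw [if_pos hA, if_pos hA', ← coe_smul_fin hφ'K hσ, smul_inv_smul]
      · have hA' : ¬ (σ⁻¹ • A).Over T := fun h => hA (Place.over_smul_iff.mp h)
        show σ ((if _ then _ else _ : ℚ̄ˣ) : ℚ̄) = ((if _ then _ else _ : ℚ̄ˣ) : ℚ̄)
        rw [if_neg hA, if_neg hA', Units.val_one, map_one]
    · rw [inf_smul]
      exact inf_fixed hφ'K ι hσ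
    · show (if _ then _ else _) ∈ _
      rw [if_neg hA]
      exact one_mem _
  have hαfin : ∀ A : Place, A.1.valuation (α.fin A : ℚ̄) = 1 ∧
      A.1.valuation ((α.fin A : ℚ̄) - 1) ≤ A.1.valuation (m : ℚ̄) := by
    intro A
    by_cases hA : A.Over T
    · have h1 := hxW A (primeOf_mem_primesOverT.mpr hA)
      have hval : (α.fin A : ℚ̄) = (φ.1.fin A : ℚ̄) / (x : ℚ̄) := by
        show ((if _ then _ else _ : ℚ̄ˣ) : ℚ̄) = _
        rw [if_pos hA, hφ', PreIdele.fin_mul, PreIdele.fin_inv, Units.val_mul,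
          Units.val_inv_eq_inv_val, div_eq_mul_inv]
        rfl
      have h2 : A.1.valuation ((x : ℚ̄) / (φ.1.fin A : ℚ̄)) = 1 := by
        have h := Valuation.map_add_eq_of_lt_right (v := A.1.valuation)
          (x := (x : ℚ̄) / (φ.1.fin A : ℚ̄) - 1) (y := 1) (by
            rw [map_one]
            exact h1.trans_lt (pow_lt_one₀ zero_le A.valuation_char_lt_one (NeZero.ne m)))
        rwa [sub_add_cancel, map_one] at h
      have h3 : A.1.valuation (α.fin A : ℚ̄) = 1 := by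
        rw [hval, ← inv_div, map_inv₀, h2, inv_one]
      refine ⟨h3, ?_⟩
      rw [show (α.fin A : ℚ̄) - 1 = -((α.fin A : ℚ̄) * ((x : ℚ̄) / (φ.1.fin A : ℚ̄) - 1)) by
        rw [hval]; field_simp; ring, Valuation.map_neg, map_mul, h3, one_mul]
      exact h1.trans (valuation_char_pow_le A)
    · have hval : α.fin A = 1 := if_neg hA
      rw [hval, Units.val_one, sub_self, map_zero, map_one]
      exact ⟨rfl, zero_le⟩
  have hαgood : α ∈ Good := by
    refine hGood α hαK ?_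
    have := finite_fixing_quotient (⊥ : IntermediateField ℚ ℚ̄).fixingSubgroup K
    have := Fintype.ofFinite ((⊥ : IntermediateField ℚ ℚ̄).fixingSubgroup ⧸
      K.fixingSubgroup.subgroupOf (⊥ : IntermediateField ℚ ℚ̄).fixingSubgroup)
    have h : omegaNorm m K ⟨α, hαK⟩ = 1 := by
      rw [omegaNorm_apply _ (normIdele_mem' hαK)]
      refine omega_of_near (fun ι => ?_) (fun A => ?_) (fun A => ?_)
      · refine re_inf_norm_pos hαK (fun ι' hι' => ?_) ι
        have h3 := hxs ι' hι'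
        show 0 < ((φ.1 * P⁻¹).inf ι' : ℂ).re
        rw [PreIdele.inf_mul, PreIdele.inf_inv, Units.val_mul, Units.val_inv_eq_inv_val,
          ← div_eq_mul_inv]
        exact h3
      · exact (valuation_norm_near hαfin A).1
      · exact (valuation_norm_near hαfin A).2
    rw [h]
    exact one_mem G
  have hβ : φ' * α⁻¹ ∈ awayIdeles T K := by
    refine ⟨mul_mem hφ'K (inv_mem hαK), fun A hA => ?_, funext fun ι => ?_⟩
    · rw [PreIdele.fin_mul, PreIdele.fin_inv, show α.fin A = φ'.fin A from if_pos hA, mul_inv_cancel]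
    · rw [PreIdele.inf_mul, PreIdele.inf_inv]
      exact mul_inv_cancel _
  suffices h : φ' * α⁻¹ ∈ Good by
    have := mul_mem h hαgood
    rwa [inv_mul_cancel_right] at this
  refine ((awayIdeles_le_closure hur).trans (sup_le ?_ ?_)) hβ
  · rw [Subgroup.closure_le]
    rintro _ ⟨q, hq, A, hqT, hA, rfl⟩
    obtain ⟨σ, hσ⟩ := GalCommon.exists_isFrobeniusAt hq hA
    have hAT : ¬ A.Over T := by rwa [A.over_iff, A.char_eq hq hA]
    obtain ⟨f, hf, hσf, hfmin⟩ := exists_least_pow_mem_fixing K σ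
    refine hGood _ (placeIdele_mem_ideles hq hA) ⟨σ ^ f, hσf, ?_⟩
    exact (omegaNorm_placeIdele hq (fun hd => hqT (hmT q hq hd)) hA hσ (hur A hAT) hf hσf hfmin
      _).symm
  · exact fun u hu => hGood u (unitIdeles_le_ideles hu) (by
      rw [omegaNorm_classKer (φ := ⟨u, unitIdeles_le_ideles hu⟩) hmT (Subgroup.mem_sup_right hu)]
      exact one_mem G)

end FLTAgent.TW
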