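import Fermat.Agent.TW.Idele.ClassField.PlaceNorm
import Fermat.Agent.TW.Idele.ClassField.Signs

/-!
# The Artin map of `ℚ(ζ_m)` on the ideles of `ℚ`

An idele `φ` of `ℚ` is sent to the class `a` modulo `m` such that, for the rational `x` making all
components units and the infinite one positive, `φ x a ≡ 1` modulo `m`.
-/

set_option autoImplicit false
set_option maxHeartbeats 1000000

noncomputable section

open scoped Pointwise

namespace FLTAgent.TW

open PreIdele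
open scoped Classical

local notation "ℚ̄" => AlgebraicClosure ℚ
local notation "Γ" => (AlgebraicClosure ℚ ≃ₐ[ℚ] AlgebraicClosure ℚ)

attribute [local instance] numberField_intermediate

variable {m : ℕ}

theorem Place.valuation_natCast_eq_one (A : Place) {n : ℕ} (hn : ¬ A.char ∣ n) :
    A.1.valuation (n : ℚ̄) = 1 :=
  le_antisymm ((A.1.valuation_le_one_iff _).mpr (natCast_mem A.1 n))
    (not_lt.mp fun h => hn ((GalCommon.natCast_mem_nonunits_iff A.prime_char A.liesOver_char n).mp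
      (A.1.mem_nonunits_iff.mpr h)))

theorem Place.valuation_intCast_le_one (A : Place) (n : ℤ) : A.1.valuation (n : ℚ̄) ≤ 1 :=
  (A.1.valuation_le_one_iff _).mpr (intCast_mem A.1 n)

theorem Place.valuation_intCast_eq_one (A : Place) {n : ℤ} (hn : ¬ (A.char : ℤ) ∣ n) :
    A.1.valuation (n : ℚ̄) = 1 :=
  le_antisymm (A.valuation_intCast_le_one n)
    (not_lt.mp fun h => hn ((GalCommon.intCast_mem_nonunits_iff A.prime_char A.liesOver_char n).mp
      (A.1.mem_nonunits_iff.mpr h)))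

theorem Place.valuation_intCast_lt_one (A : Place) {n : ℤ} (hn : (A.char : ℤ) ∣ n) :
    A.1.valuation (n : ℚ̄) < 1 :=
  A.1.mem_nonunits_iff.mp
    ((GalCommon.intCast_mem_nonunits_iff A.prime_char A.liesOver_char n).mpr hn)

theorem exists_place_char {q : ℕ} (hq : q.Prime) : ∃ A : Place, A.char = q := by
  obtain ⟨B, hB⟩ := GalCommon.exists_liesOverPrime hq
  exact ⟨⟨B, q, hq, hB⟩, Place.char_eq _ hq hB⟩

theorem exists_smul_place_eq {A B : Place} (h : A.char = B.char) : ∃ σ : Γ, σ • A = B := by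
  obtain ⟨σ, hσ⟩ := GalCommon.exists_smul_eq_of_liesOverPrime A.prime_char A.liesOver_char
    (h ▸ B.liesOver_char)
  exact ⟨σ, Subtype.ext hσ⟩

theorem Place.valuation_ratCast (A : Place) (r : ℚ) :
    A.1.valuation ((r : ℚ) : ℚ̄) =
      A.1.valuation ((r.num : ℤ) : ℚ̄) / A.1.valuation ((r.den : ℕ) : ℚ̄) := by
  rw [Rat.cast_def, map_div₀]

theorem den_eq_one_of_le_one {r : ℚ} (h : ∀ A : Place, A.1.valuation (r : ℚ̄) ≤ 1) : r.den = 1 := by
  by_contra hne
  obtain ⟨q, hq, hqd⟩ := Nat.exists_prime_and_dvd hne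
  obtain ⟨A, rfl⟩ := exists_place_char hq
  have h1 := h A
  rw [A.valuation_ratCast, A.valuation_intCast_eq_one fun hn => ?_] at h1
  · have h2 : A.1.valuation ((r.den : ℕ) : ℚ̄) < 1 := by
      simpa using A.valuation_intCast_lt_one (n := (r.den : ℤ)) (Int.natCast_dvd_natCast.mpr hqd)
    have h3 : A.1.valuation ((r.den : ℕ) : ℚ̄) ≠ 0 := by simp [r.den_nz]
    rw [div_le_one₀ (zero_lt_iff.mpr h3)] at h1
    exact absurd h2 (not_lt.mpr h1)
  · exact hq.ne_one (Nat.eq_one_of_dvd_coprimes r.reduced (Int.natCast_dvd.mp hn) hqd)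

theorem rat_eq_one_or_eq_neg_one {r : ℚ} (h : ∀ A : Place, A.1.valuation (r : ℚ̄) = 1) :
    r = 1 ∨ r = -1 := by
  have hd : r.den = 1 := den_eq_one_of_le_one fun A => (h A).le
  have hn : r.num.natAbs = 1 := by
    by_contra hne
    obtain ⟨q, hq, hqd⟩ := Nat.exists_prime_and_dvd hne
    obtain ⟨A, rfl⟩ := exists_place_char hq
    have h1 := h A
    rw [A.valuation_ratCast, hd, Nat.cast_one, map_one, div_one] at h1
    exact absurd h1 (A.valuation_intCast_lt_one (Int.natCast_dvd.mpr hqd)).ne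
  rw [← Rat.coe_int_num_of_den_eq_one hd]
  rcases Int.natAbs_eq_iff.mp hn with e | e <;> simp [e]

theorem dvd_of_valuation_le [NeZero m] {z : ℤ}
    (h : ∀ A : Place, A.1.valuation (z : ℚ̄) ≤ A.1.valuation (m : ℚ̄)) : (m : ℤ) ∣ z := by
  have hd : ((z : ℚ) / ((m : ℤ) : ℚ)).den = 1 := den_eq_one_of_le_one fun A => by
    rw [Rat.cast_div, map_div₀, div_le_one₀ (zero_lt_iff.mpr (by simp [NeZero.ne m]))]
    simpa using h A
  exact (Rat.den_div_intCast_eq_one_iff z (m : ℤ) (by simp [NeZero.ne m])).mp hd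

theorem valuation_char_pow_le [NeZero m] (A : Place) :
    A.1.valuation (A.char : ℚ̄) ^ m ≤ A.1.valuation (m : ℚ̄) := by
  obtain ⟨e, c, hc, hm⟩ := Nat.exists_eq_pow_mul_and_not_dvd (NeZero.ne m) A.char A.prime_char.ne_one
  have hem : e ≤ m := by
    rw [hm]
    calc e ≤ A.char ^ e := (Nat.lt_pow_self A.prime_char.one_lt).le
      _ ≤ _ := Nat.le_mul_of_pos_right _ (Nat.pos_of_ne_zero fun h => hc (by rw [h]; exact dvd_zero _))
  calc A.1.valuation (A.char : ℚ̄) ^ m ≤ A.1.valuation (A.char : ℚ̄) ^ e :=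
        pow_le_pow_of_le_one zero_le A.valuation_char_lt_one.le hem
    _ = _ := by rw [hm, Nat.cast_mul, Nat.cast_pow, map_mul, map_pow,
        A.valuation_natCast_eq_one hc, mul_one]

theorem valuation_zmod_sub_le [NeZero m] (A : Place) {z w : ℤ}
    (h : (z : ZMod m) = (w : ZMod m)) :
    A.1.valuation ((z : ℚ̄) - (w : ℚ̄)) ≤ A.1.valuation (m : ℚ̄) := by
  obtain ⟨c, hc⟩ := (ZMod.intCast_eq_intCast_iff_dvd_sub z w m).mp h
  rw [← Valuation.map_neg, neg_sub, ← Int.cast_sub, hc, Int.cast_mul, Int.cast_natCast, map_mul]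
  exact mul_le_of_le_one_right zero_le (A.valuation_intCast_le_one c)

theorem valuation_natCast_le_one (A : Place) (n : ℕ) : A.1.valuation (n : ℚ̄) ≤ 1 :=
  (A.1.valuation_le_one_iff _).mpr (natCast_mem A.1 n)

/-- The condition defining the Artin map. -/
def ArtinSpec (m : ℕ) (φ : PreIdele) (a : (ZMod m)ˣ) : Prop :=
  ∃ x : ℚ, x ≠ 0 ∧ (∀ ι : Emb, 0 < ((φ.inf ι : ℂ) * (x : ℂ)).re) ∧
    ∀ A : Place, A.1.valuation ((φ.fin A : ℚ̄) * (x : ℚ̄)) = 1 ∧
      A.1.valuation ((φ.fin A : ℚ̄) * (x : ℚ̄) * ((a : ZMod m).val : ℚ̄) - 1) ≤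
        A.1.valuation (m : ℚ̄)

variable [NeZero m]

theorem ArtinSpec.unique {φ : PreIdele} {a b : (ZMod m)ˣ} (ha : ArtinSpec m φ a)
    (hb : ArtinSpec m φ b) : a = b := by
  obtain ⟨x, hx0, hxi, hx⟩ := ha
  obtain ⟨y, hy0, hyi, hy⟩ := hb
  have hxy : x = y := by
    have hr : ∀ A : Place, A.1.valuation ((y / x : ℚ) : ℚ̄) = 1 := fun A => by
      rw [Rat.cast_div, show (y : ℚ̄) / (x : ℚ̄) =
        ((φ.fin A : ℚ̄) * y) / ((φ.fin A : ℚ̄) * x) from (mul_div_mul_left _ _ (Units.ne_zero _)).symm,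
        map_div₀, (hx A).1, (hy A).1, div_one]
    rcases rat_eq_one_or_eq_neg_one hr with h | h
    · exact ((div_eq_one_iff_eq hx0).mp h).symm
    · exfalso
      obtain ⟨ι⟩ := exists_emb
      rw [div_eq_iff hx0, neg_one_mul] at h
      have h1 := hyi ι
      rw [h, Rat.cast_neg, mul_neg, Complex.neg_re] at h1
      linarith [hxi ι]
  subst hxy
  have hdvd : (m : ℤ) ∣ ((a : ZMod m).val : ℤ) - ((b : ZMod m).val : ℤ) :=
    dvd_of_valuation_le fun A => by
      have h1 := (hx A).2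
      have h2 := (hy A).2
      have h3 : A.1.valuation ((φ.fin A : ℚ̄) * x *
          (((a : ZMod m).val : ℚ̄) - ((b : ZMod m).val : ℚ̄))) ≤ A.1.valuation (m : ℚ̄) := by
        rw [show (φ.fin A : ℚ̄) * x * (((a : ZMod m).val : ℚ̄) - ((b : ZMod m).val : ℚ̄)) =
          ((φ.fin A : ℚ̄) * x * ((a : ZMod m).val : ℚ̄) - 1) -
            ((φ.fin A : ℚ̄) * x * ((b : ZMod m).val : ℚ̄) - 1) by ring]
        exact (A.1.valuation.map_sub _ _).trans (max_le h1 h2)
      rw [map_mul, (hx A).1, one_mul] at h3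
      simpa using h3
  have h := (ZMod.intCast_eq_intCast_iff_dvd_sub _ _ m).mpr hdvd
  simp only [Int.cast_natCast, ZMod.natCast_zmod_val] at h
  exact (Units.ext h).symm

theorem ArtinSpec.mul {φ ψ : PreIdele} {a b : (ZMod m)ˣ} (ha : ArtinSpec m φ a)
    (hb : ArtinSpec m ψ b) (hφ : φ ∈ ideles ⊥) :
    ArtinSpec m (φ * ψ) (a * b) := by
  obtain ⟨x, hx0, hxi, hx⟩ := ha
  obtain ⟨y, hy0, hyi, hy⟩ := hb
  refine ⟨x * y, mul_ne_zero hx0 hy0, fun ι => ?_, fun A => ?_⟩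
  · rw [PreIdele.inf_mul, Units.val_mul, Rat.cast_mul, mul_mul_mul_comm, re_mul_of_conj_eq]
    · exact mul_pos (hxi ι) (hyi ι)
    · rw [map_mul, map_ratCast]
      congr 1
      exact conj_inf_of_isRealOn hφ fun z hz => by
        obtain ⟨r, rfl⟩ := IntermediateField.mem_bot.mp hz
        simp
  · have e : ((φ * ψ).fin A : ℚ̄) * ((x * y : ℚ) : ℚ̄) =
        ((φ.fin A : ℚ̄) * x) * ((ψ.fin A : ℚ̄) * y) := by
      rw [PreIdele.fin_mul, Units.val_mul, Rat.cast_mul]; ring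
    rw [e]
    refine ⟨by rw [map_mul, (hx A).1, (hy A).1, mul_one], ?_⟩
    set u := (φ.fin A : ℚ̄) * x
    set w := (ψ.fin A : ℚ̄) * y
    have hab : A.1.valuation ((((a * b : (ZMod m)ˣ) : ZMod m).val : ℚ̄) -
        ((a : ZMod m).val : ℚ̄) * ((b : ZMod m).val : ℚ̄)) ≤ A.1.valuation (m : ℚ̄) := by
      have := valuation_zmod_sub_le (m := m) A (z := (((a * b : (ZMod m)ˣ) : ZMod m).val : ℤ))
        (w := ((a : ZMod m).val : ℤ) * ((b : ZMod m).val : ℤ)) (by simp)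
      simpa using this
    rw [show u * w * (((a * b : (ZMod m)ˣ) : ZMod m).val : ℚ̄) - 1 =
      (u * w) * ((((a * b : (ZMod m)ˣ) : ZMod m).val : ℚ̄) -
          ((a : ZMod m).val : ℚ̄) * ((b : ZMod m).val : ℚ̄)) +
        ((u * ((a : ZMod m).val : ℚ̄) - 1) * (w * ((b : ZMod m).val : ℚ̄)) +
          (w * ((b : ZMod m).val : ℚ̄) - 1)) by ring]
    refine (A.1.valuation.map_add _ _).trans (max_le ?_
      ((A.1.valuation.map_add _ _).trans (max_le ?_ (hy A).2)))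
    · rw [map_mul, map_mul, (hx A).1, (hy A).1, one_mul, one_mul]
      exact hab
    · rw [map_mul, map_mul, (hy A).1, one_mul]
      exact mul_le_of_le_of_le_one (hx A).2 (valuation_natCast_le_one A _)

theorem coe_ratCast_bot (r : ℚ) : ((r : ℚ) : ℚ̄) ∈ (⊥ : IntermediateField ℚ ℚ̄) :=
  IntermediateField.mem_bot.mpr ⟨r, (eq_ratCast _ r)⟩

theorem isRealOn_bot (ι : Emb) : ι.IsRealOn ⊥ := fun z hz => by
  obtain ⟨r, rfl⟩ := IntermediateField.mem_bot.mp hz
  simp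

theorem mem_fixingSubgroup_bot (σ : Γ) : σ ∈ (⊥ : IntermediateField ℚ ℚ̄).fixingSubgroup := by
  rw [IntermediateField.fixingSubgroup_bot]; trivial

theorem exists_artinSpec {φ : PreIdele} (hφ : φ ∈ ideles ⊥) :
    ∃ a : (ZMod m)ˣ, ArtinSpec m φ a := by
  classical
  obtain ⟨S, hS⟩ := hφ.2.2
  -- the rational making the components units
  have hq : ∀ q : ℕ, ∃ k : ℤ, q.Prime → ∀ A : Place, A.char = q →
      A.1.valuation (φ.fin A : ℚ̄) = A.1.valuation (q : ℚ̄) ^ k := fun q => by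
    by_cases hqp : q.Prime
    · obtain ⟨A₀, hA₀⟩ := exists_place_char hqp
      obtain ⟨k, hk⟩ := EllP.exists_valuation_eq_zpow A₀.prime_char A₀.liesOver_char
        (y := (φ.fin A₀ : ℚ̄)) (Units.ne_zero _) fun σ hσ => fin_fixed hφ A₀ (mem_fixingSubgroup_bot σ)
          (Subtype.ext (MulAction.mem_stabilizer_iff.mp
            (GalCommon.inertiaSubgroupIn_le_decomposition hσ)))
      refine ⟨k, fun _ A hA => ?_⟩
      obtain ⟨σ, rfl⟩ := exists_smul_place_eq (hA₀.trans hA.symm)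
      rw [← map_zpow₀] at hk ⊢
      rw [coe_smul_fin hφ (mem_fixingSubgroup_bot σ)]
      have h := (valuation_smul_eq_iff σ A₀).mpr hk
      rwa [map_zpow₀ σ, map_natCast, hA₀] at h
    · exact ⟨0, fun h => absurd h hqp⟩
  choose k hk using hq
  obtain ⟨ι₀⟩ := exists_emb
  let ε : ℚ := if 0 < (φ.inf ι₀ : ℂ).re then 1 else -1
  let S' : Finset ℕ := S.filter Nat.Prime
  let x : ℚ := ε * ∏ q ∈ S', (q : ℚ) ^ (-k q)
  have hεsq : ε = 1 ∨ ε = -1 := by simp only [ε]; split_ifs <;> simp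
  have hprodpos : (0 : ℚ) < ∏ q ∈ S', (q : ℚ) ^ (-k q) :=
    Finset.prod_pos fun q hq => zpow_pos (by exact_mod_cast (Finset.mem_filter.mp hq).2.pos) _
  have hx0 : x ≠ 0 := mul_ne_zero (by rcases hεsq with h | h <;> simp [h]) hprodpos.ne'
  have hsign : ∀ ι : Emb, 0 < ((φ.inf ι : ℂ) * (x : ℂ)).re := fun ι => by
    have he : φ.inf ι = φ.inf ι₀ := inf_eq_of_eqOn hφ fun z hz => by
      obtain ⟨r, rfl⟩ := IntermediateField.mem_bot.mp hz
      simp
    have hre := re_ne_zero_of_conj_eq (conj_inf_of_isRealOn hφ (isRealOn_bot ι₀)) (Units.ne_zero _)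
    have hp' : (0 : ℝ) < ((∏ q ∈ S', (q : ℚ) ^ (-k q) : ℚ) : ℝ) := by exact_mod_cast hprodpos
    rw [he, re_mul_of_conj_eq (conj_inf_of_isRealOn hφ (isRealOn_bot ι₀)),
      ← Complex.ofReal_ratCast, Complex.ofReal_re]
    simp only [x, ε, Rat.cast_mul]
    split_ifs with h
    · simpa using mul_pos h hp'
    · have h' : (φ.inf ι₀ : ℂ).re < 0 := lt_of_le_of_ne (not_lt.mp h) hre
      simpa using mul_neg_of_neg_of_pos h' hp'
  have hu : ∀ A : Place, A.1.valuation ((φ.fin A : ℚ̄) * (x : ℚ̄)) = 1 := fun A => by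
    have hε : A.1.valuation ((ε : ℚ) : ℚ̄) = 1 := by rcases hεsq with h | h <;> simp [h]
    have hfac : ∀ q ∈ S', q ≠ A.char → A.1.valuation ((((q : ℚ) ^ (-k q)) : ℚ) : ℚ̄) = 1 :=
      fun q hqS hne => by
        rw [Rat.cast_zpow, Rat.cast_natCast, map_zpow₀, A.valuation_natCast_eq_one fun hd =>
          hne ((Nat.prime_dvd_prime_iff_eq A.prime_char (Finset.mem_filter.mp hqS).2).mp hd).symm,
          one_zpow]
    rw [map_mul, show ((x : ℚ) : ℚ̄) = ((ε : ℚ) : ℚ̄) * ∏ q ∈ S', (((q : ℚ) ^ (-k q) : ℚ) : ℚ̄) by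
      simp only [x, Rat.cast_mul, Rat.cast_prod], map_mul, hε, one_mul, map_prod]
    by_cases hA : A.char ∈ S'
    · rw [Finset.prod_eq_single_of_mem _ hA fun q hq hne => hfac q hq hne, Rat.cast_zpow,
        Rat.cast_natCast, map_zpow₀, hk _ A.prime_char A rfl, ← zpow_add₀ A.valuation_char_ne_zero,
        add_neg_cancel, zpow_zero]
    · rw [Finset.prod_eq_one fun q hq => hfac q hq (fun h => hA (h ▸ hq)), mul_one]
      exact hS A fun h => hA (Finset.mem_filter.mpr ⟨A.over_iff.mp h, A.prime_char⟩)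
  -- the class modulo `m`
  set ψ := φ * principalHom (Units.mk0 ((x : ℚ) : ℚ̄) (Rat.cast_ne_zero.mpr hx0)) with hψdef
  have hψ : ψ ∈ ideles ⊥ := mul_mem hφ (principalHom_mem_ideles (coe_ratCast_bot x))
  obtain ⟨⟨r', hr'⟩, hr0, hr⟩ := exists_idele_approx hψ (primesOverT ⊥ m.primeFactors) m
  obtain ⟨r, rfl⟩ := IntermediateField.mem_bot.mp hr'
  have hnear : ∀ A : Place, A.char ∣ m →
      A.1.valuation ((r : ℚ̄) / ((φ.fin A : ℚ̄) * (x : ℚ̄)) - 1) ≤ A.1.valuation (A.char : ℚ̄) ^ m := by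
    intro A hA
    have h := hr A (primeOf_mem_primesOverT.mpr (A.over_iff.mpr
      (Nat.mem_primeFactors.mpr ⟨A.prime_char, hA, NeZero.ne m⟩)))
    simpa [hψdef, PreIdele.principalHom, eq_ratCast] using h
  have hrunit : ∀ A : Place, A.char ∣ m → A.1.valuation (r : ℚ̄) = 1 := fun A hA => by
    have h := (hnear A hA).trans_lt (pow_lt_one₀ zero_le A.valuation_char_lt_one (NeZero.ne m))
    have h1 := Valuation.map_add_eq_of_lt_right (v := A.1.valuation)
      (x := (r : ℚ̄) / ((φ.fin A : ℚ̄) * (x : ℚ̄)) - 1) (y := 1) (by rwa [map_one])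
    rw [sub_add_cancel, map_one, map_div₀, hu A, div_one] at h1
    exact h1
  have hcop : ∀ q : ℕ, q.Prime → q ∣ m → ¬ (q : ℤ) ∣ r.num ∧ ¬ q ∣ r.den := by
    intro q hq hqm
    obtain ⟨A, rfl⟩ := exists_place_char hq
    have h := hrunit A hqm
    rw [A.valuation_ratCast] at h
    refine ⟨fun hn => ?_, fun hd => ?_⟩
    · have hd : ¬ A.char ∣ r.den := fun hd =>
        hq.ne_one (Nat.eq_one_of_dvd_coprimes r.reduced (Int.natCast_dvd.mp hn) hd)
      rw [A.valuation_natCast_eq_one hd, div_one] at h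
      exact (A.valuation_intCast_lt_one hn).ne h
    · have hn : ¬ (A.char : ℤ) ∣ r.num := fun hn =>
        hq.ne_one (Nat.eq_one_of_dvd_coprimes r.reduced (Int.natCast_dvd.mp hn) hd)
      rw [A.valuation_intCast_eq_one hn, one_div, inv_eq_one] at h
      have h' := A.valuation_intCast_lt_one (n := (r.den : ℤ)) (Int.natCast_dvd_natCast.mpr hd)
      rw [Int.cast_natCast, h] at h'
      exact lt_irrefl _ h'
  obtain ⟨u, hu'⟩ : IsUnit ((r.num : ℤ) : ZMod m) := by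
    have hc : Nat.Coprime r.num.natAbs m := Nat.coprime_of_dvd fun q hq h1 h2 =>
      (hcop q hq h2).1 (Int.natCast_dvd.mpr h1)
    have h1 := (ZMod.unitOfCoprime _ hc).isUnit
    rw [ZMod.coe_unitOfCoprime] at h1
    rcases Int.natAbs_eq r.num with e | e
    · rw [e, Int.cast_natCast]; exact h1
    · rw [e, Int.cast_neg, Int.cast_natCast]; exact h1.neg
  let d : (ZMod m)ˣ := ZMod.unitOfCoprime r.den (Nat.coprime_of_dvd fun q hq h1 h2 =>
    (hcop q hq h2).2 h1)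
  refine ⟨d * u⁻¹, x, hx0, hsign, fun A => ⟨hu A, ?_⟩⟩
  by_cases hA : A.char ∣ m
  swap
  · rw [A.valuation_natCast_eq_one hA]
    refine (A.1.valuation.map_sub _ _).trans (max_le ?_ (map_one _).le)
    rw [map_mul, hu A, one_mul]
    exact valuation_natCast_le_one A _
  set w := (φ.fin A : ℚ̄) * (x : ℚ̄)
  set c : ℕ := ((d * u⁻¹ : (ZMod m)ˣ) : ZMod m).val with hcdef
  have hw : w ≠ 0 := fun h => by
    have h1 := hu A
    rw [show (φ.fin A : ℚ̄) * (x : ℚ̄) = 0 from h, map_zero] at h1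
    exact zero_ne_one h1
  have hr0' : (r : ℚ̄) ≠ 0 := fun h => by simpa [h] using hrunit A hA
  have hnum0 : ((r.num : ℤ) : ℚ̄) ≠ 0 :=
    Int.cast_ne_zero.mpr (Rat.num_ne_zero.mpr (Rat.cast_ne_zero.mp hr0'))
  have hcm : A.1.valuation ((c : ℚ̄) * (r.num : ℚ̄) - (r.den : ℚ̄)) ≤ A.1.valuation (m : ℚ̄) := by
    have h := valuation_zmod_sub_le (m := m) A (z := (c : ℤ) * r.num) (w := (r.den : ℤ)) (by
      rw [Int.cast_mul, Int.cast_natCast, Int.cast_natCast, hcdef, ZMod.natCast_zmod_val, ← hu',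
        Units.val_mul, mul_assoc, Units.inv_mul, mul_one]
      exact ZMod.coe_unitOfCoprime r.den _)
    simpa using h
  have hnum1 : A.1.valuation ((r.num : ℤ) : ℚ̄) = 1 :=
    A.valuation_intCast_eq_one (hcop _ A.prime_char hA).1
  have e : w * (c : ℚ̄) - 1 =
      w / (r.num : ℚ̄) * ((c : ℚ̄) * (r.num : ℚ̄) - (r.den : ℚ̄)) +
        -(w / (r : ℚ̄)) * ((r : ℚ̄) / w - 1) := by
    rw [Rat.cast_def] at hr0' ⊢
    field_simp
    ring
  rw [e]
  refine (A.1.valuation.map_add _ _).trans (max_le ?_ ?_)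
  · rw [map_mul, map_div₀, hu A, hnum1, div_one, one_mul]
    exact hcm
  · rw [map_mul, Valuation.map_neg, map_div₀, hu A, hrunit A hA, div_one, one_mul]
    exact (hnear A hA).trans (valuation_char_pow_le A)

/-- The Artin map of `ℚ(ζ_m)`. -/
def omega (m : ℕ) [NeZero m] : ideles ⊥ →* (ZMod m)ˣ :=
  MonoidHom.mk' (fun φ => (exists_artinSpec (m := m) φ.2).choose) fun φ ψ =>
    (exists_artinSpec (m := m) (φ * ψ).2).choose_spec.unique
      ((exists_artinSpec (m := m) φ.2).choose_spec.mul (exists_artinSpec (m := m) ψ.2).choose_spec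
        φ.2)

theorem omega_eq {φ : ideles ⊥} {a : (ZMod m)ˣ} (h : ArtinSpec m φ.1 a) : omega m φ = a :=
  ArtinSpec.unique (exists_artinSpec (m := m) φ.2).choose_spec h

theorem val_one_cast (A : Place) :
    A.1.valuation (((1 : (ZMod m)ˣ) : ZMod m).val : ℚ̄) ≤ 1 ∧
    A.1.valuation ((((1 : (ZMod m)ˣ) : ZMod m).val : ℚ̄) - 1) ≤ A.1.valuation (m : ℚ̄) := by
  refine ⟨valuation_natCast_le_one A _, ?_⟩
  have h := valuation_zmod_sub_le (m := m) A (z := (((1 : (ZMod m)ˣ) : ZMod m).val : ℤ)) (w := 1)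
    (by simp)
  simpa using h

theorem omega_principal {φ : ideles ⊥} (h : φ.1 ∈ principal ⊥) : omega m φ = 1 := by
  obtain ⟨y, hy, he⟩ := h
  obtain ⟨r, hr⟩ := IntermediateField.mem_bot.mp hy
  rw [eq_ratCast] at hr
  have hr0 : r ≠ 0 := fun h0 => y.ne_zero (by rw [← hr, h0, Rat.cast_zero])
  refine omega_eq ⟨r⁻¹, inv_ne_zero hr0, fun ι => ?_, fun A => ?_⟩
  · rw [← he]
    show (0 : ℝ) < (ι (y : ℚ̄) * _).re
    rw [← hr, map_ratCast, ← Rat.cast_mul, mul_inv_cancel₀ hr0, Rat.cast_one, Complex.one_re]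
    exact one_pos
  · rw [← he]
    show A.1.valuation ((y : ℚ̄) * _) = 1 ∧ A.1.valuation ((y : ℚ̄) * _ * _ - 1) ≤ _
    rw [← hr, ← Rat.cast_mul, mul_inv_cancel₀ hr0, Rat.cast_one, map_one, one_mul]
    exact ⟨rfl, (val_one_cast A).2⟩

/-- An idele with unit components, congruent to `1` modulo `m` and positive, goes to `1`. -/
theorem omega_of_near {φ : ideles ⊥} (hpos : ∀ ι : Emb, 0 < (φ.1.inf ι : ℂ).re)
    (hunit : ∀ A : Place, A.1.valuation (φ.1.fin A : ℚ̄) = 1)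
    (hnear : ∀ A : Place, A.1.valuation ((φ.1.fin A : ℚ̄) - 1) ≤ A.1.valuation (m : ℚ̄)) :
    omega m φ = 1 := by
  refine omega_eq ⟨1, one_ne_zero, fun ι => by simpa using hpos ι, fun A => ?_⟩
  rw [Rat.cast_one, mul_one]
  refine ⟨hunit A, ?_⟩
  rw [show (φ.1.fin A : ℚ̄) * (((1 : (ZMod m)ˣ) : ZMod m).val : ℚ̄) - 1 =
    (φ.1.fin A : ℚ̄) * ((((1 : (ZMod m)ˣ) : ZMod m).val : ℚ̄) - 1) + ((φ.1.fin A : ℚ̄) - 1) by ring]
  refine (A.1.valuation.map_add _ _).trans (max_le ?_ (hnear A))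
  rw [map_mul, hunit A, one_mul]
  exact (val_one_cast A).2

theorem omega_unitIdeles {T : Finset ℕ} (hmT : ∀ q : ℕ, q.Prime → q ∣ m → q ∈ T) {φ : ideles ⊥}
    (h : φ.1 ∈ unitIdeles T ⊥) : omega m φ = 1 := by
  refine omega_of_near (fun ι => by simp [h.1.2.2]) (fun A => h.2 A) fun A => ?_
  by_cases hA : A.char ∣ m
  · rw [h.1.2.1 A (A.over_iff.mpr (hmT _ A.prime_char hA)), Units.val_one, sub_self, map_zero]
    exact zero_le
  · rw [A.valuation_natCast_eq_one hA]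
    exact (A.1.valuation.map_sub _ _).trans (max_le (h.2 A).le (map_one _).le)

/-- The Artin map kills the class kernel. -/
theorem omega_classKer {T : Finset ℕ} (hmT : ∀ q : ℕ, q.Prime → q ∣ m → q ∈ T) {φ : ideles ⊥}
    (h : φ.1 ∈ classKer T ⊥) : omega m φ = 1 := by
  obtain ⟨a, ha, b, hb, he⟩ := Subgroup.mem_sup.mp h
  rw [show φ = ⟨a, principal_le_ideles ha⟩ * ⟨b, unitIdeles_le_ideles hb⟩ from Subtype.ext he.symm,
    map_mul, omega_principal ha, omega_unitIdeles hmT hb, one_mul]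

/-- The value at the idele of a prime not dividing `m`. -/
theorem omega_placeIdele {q : ℕ} (hq : q.Prime) (hqm : ¬ q ∣ m) {A : Place}
    (hA : A.1.LiesOverPrime q) (h : placeIdele ⊥ q hq.ne_zero A ∈ ideles ⊥) :
    omega m ⟨_, h⟩ = ZMod.unitOfCoprime q ((Nat.Prime.coprime_iff_not_dvd hq).mpr hqm) := by
  have hq0 : (q : ℚ̄) ≠ 0 := Nat.cast_ne_zero.mpr hq.ne_zero
  refine omega_eq ⟨(q : ℚ)⁻¹, inv_ne_zero (Nat.cast_ne_zero.mpr hq.ne_zero), fun ι => ?_,
    fun B => ?_⟩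
  · show 0 < ((1 : ℂ) * _).re
    rw [one_mul, Rat.cast_inv, Rat.cast_natCast, ← Complex.ofReal_natCast, ← Complex.ofReal_inv,
      Complex.ofReal_re]
    exact inv_pos.mpr (Nat.cast_pos.mpr hq.pos)
  rw [Rat.cast_inv, Rat.cast_natCast]
  by_cases hB : B.char = q
  · have h1 : ((placeIdele ⊥ q hq.ne_zero A).fin B : ℚ̄) = q := by
      obtain ⟨σ, rfl⟩ := exists_smul_place_eq ((A.char_eq hq hA).trans hB.symm)
      show ((if _ then _ else _ : ℚ̄ˣ) : ℚ̄) = _
      rw [if_pos ⟨σ, mem_fixingSubgroup_bot σ, rfl⟩]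
      rfl
    rw [h1, mul_inv_cancel₀ hq0, map_one, one_mul, B.valuation_natCast_eq_one (hB ▸ hqm)]
    exact ⟨rfl, (B.1.valuation.map_sub _ _).trans
      (max_le (valuation_natCast_le_one B _) (map_one _).le)⟩
  · have h1 : (placeIdele ⊥ q hq.ne_zero A).fin B = 1 := placeIdele_fin_of_not q _ fun ⟨σ, _, hσ⟩ =>
      hB (by rw [← hσ, Place.char_smul, A.char_eq hq hA])
    have hv : B.1.valuation (q : ℚ̄) = 1 := B.valuation_natCast_eq_one fun hd =>
      hB ((Nat.prime_dvd_prime_iff_eq B.prime_char hq).mp hd)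
    rw [h1, Units.val_one, one_mul, map_inv₀, hv, inv_one]
    refine ⟨rfl, ?_⟩
    rw [show (q : ℚ̄)⁻¹ * ((_ : ℕ) : ℚ̄) - 1 = (q : ℚ̄)⁻¹ *
        (((ZMod.unitOfCoprime q ((Nat.Prime.coprime_iff_not_dvd hq).mpr hqm) : ZMod m).val : ℚ̄) - q)
      by rw [mul_sub, inv_mul_cancel₀ hq0], map_mul, map_inv₀, hv, inv_one, one_mul]
    have h2 := valuation_zmod_sub_le (m := m) B
      (z := ((ZMod.unitOfCoprime q ((Nat.Prime.coprime_iff_not_dvd hq).mpr hqm) : ZMod m).val : ℤ))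
      (w := (q : ℤ)) (by simp)
    rw [Int.cast_natCast, Int.cast_natCast] at h2
    exact h2

end FLTAgent.TW
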