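import Fermat.Agent.TW.Idele.ClassField.ArtinNorm
import Fermat.Agent.TW.Idele.ClassField.AuxPrime
import Fermat.Agent.TW.Idele.ClassField.NormGeneral

/-!
# Crossing: two places have the same exponent

For two inert places `v`, `v'` of `F'/F` with different residue characteristics choose `m = ℓ ℓ'`
such that their Frobenius elements in `Gal(F'/F) × (ℤ/m)ˣ` generate a subgroup meeting the first
factor trivially, and let `M` be its fixed field.  Then `v`, `v'` split completely in `M/F`, and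
on `M` the Artin map of `ℚ(ζ_m)` gives a character with the kernel of the norm group of `F'M`.
-/

set_option autoImplicit false
set_option maxHeartbeats 1000000

noncomputable section

open scoped Pointwise Classical

namespace FLTAgent.TW

local notation "ℚ̄" => AlgebraicClosure ℚ
local notation "Γ" => (AlgebraicClosure ℚ ≃ₐ[ℚ] AlgebraicClosure ℚ)

variable {T : Finset ℕ} {p : ℕ} {L F : IntermediateField ℚ (AlgebraicClosure ℚ)}
  {y : (AlgebraicClosure ℚ)ˣ}

/-- An inert place of `F(y)/F` outside `T`. -/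
structure InertPlace (T : Finset ℕ) (F : IntermediateField ℚ (AlgebraicClosure ℚ))
    (y : (AlgebraicClosure ℚ)ˣ) : Type where
  /-- residue characteristic -/
  q : ℕ
  /-- the place -/
  A : Place
  /-- a Frobenius -/
  σ : Γ
  /-- residue degree over `ℚ` -/
  f : ℕ
  hq : q.Prime
  hqT : q ∉ T
  hA : A.1.LiesOverPrime q
  hσ : A.1.IsFrobeniusAt σ q
  hf : 0 < f
  hσf : σ ^ f ∈ F.fixingSubgroup
  hmin : ∀ g : ℕ, 0 < g → g < f → σ ^ g ∉ F.fixingSubgroup
  hne : (σ ^ f) (y : ℚ̄) ≠ y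

/-- The idele of an inert place. -/
def InertPlace.idele (v : InertPlace T F y) : ideles F :=
  ⟨placeIdele F v.q v.hq.ne_zero v.A, placeIdele_mem_ideles v.hq v.hA⟩

/-- The Frobenius of an inert place. -/
def InertPlace.frob (v : InertPlace T F y) : F.fixingSubgroup := ⟨v.σ ^ v.f, v.hσf⟩

/-- A character killing the norm group takes one power of the Kummer value at two inert places. -/
theorem crossing [Fact p.Prime] (hL : IdeleSetting T p L) (hFL : F ≤ L) (hμ : ContainsMuP p F)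
    (hy : (y : ℚ̄) ^ p ∈ F)
    (hunr : ∀ A : Place, ¬ A.Over T → ∀ σ ∈ A.1.inertiaSubgroupIn ℚ, σ (y : ℚ̄) = y)
    (lam : ideles F →* ℚ̄ˣ) (hpow : ∀ φ, lam φ ^ p = 1)
    (hker : ∀ φ : ideles F, φ.1 ∈ classKer T F → lam φ = 1)
    (hnorm : ∀ φ : ideles F,
      φ.1 ∈ normSubgroup F (F ⊔ IntermediateField.adjoin ℚ {(y : ℚ̄)}) → lam φ = 1)
    (v v' : InertPlace T F y) (hvv' : v.q ≠ v'.q) :
    ∃ κ : ℕ, lam v.idele = kum hy hμ v.frob ^ κ ∧ lam v'.idele = kum hy hμ v'.frob ^ κ := by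
  have hp : p.Prime := Fact.out
  have := hL.finite
  have := finite_of_le (L := L) hFL
  have : FiniteDimensional ℚ (F ⊔ IntermediateField.adjoin ℚ {(y : ℚ̄)} : IntermediateField ℚ ℚ̄) :=
    finiteDimensional_sup_adjoin F _
  -- the auxiliary modulus
  have hqp : v.q ≠ p := fun h => v.hqT (h ▸ hL.mem)
  have hqp' : v'.q ≠ p := fun h => v'.hqT (h ▸ hL.mem)
  obtain ⟨ℓ, hℓ, hℓT, hℓq, hℓq', haux⟩ := exists_aux_prime (p := p) v.hq v'.hq hvv' hqp v.hf T
  obtain ⟨ℓ', hℓ', hℓ'T, hℓ'q', hℓ'q, haux'⟩ :=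
    exists_aux_prime (p := p) v'.hq v.hq hvv'.symm hqp' v'.hf T
  set m := ℓ * ℓ' with hm
  have : NeZero m := ⟨mul_ne_zero hℓ.ne_zero hℓ'.ne_zero⟩
  have hqm : ∀ q : ℕ, q.Prime → q ≠ ℓ → q ≠ ℓ' → ¬ q ∣ m := fun q hq h1 h2 h =>
    (hq.dvd_mul.mp h).elim (fun h => h1 ((Nat.prime_dvd_prime_iff_eq hq hℓ).mp h))
      (fun h => h2 ((Nat.prime_dvd_prime_iff_eq hq hℓ').mp h))
  have hvm : ¬ v.q ∣ m := hqm _ v.hq hℓq.symm hℓ'q.symm
  have hv'm : ¬ v'.q ∣ m := hqm _ v'.hq hℓq'.symm hℓ'q'.symm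
  -- the joint character
  set Θ : F.fixingSubgroup →* ℚ̄ˣ × (ZMod m)ˣ :=
    (kum hy hμ).prod ((chi m).comp F.fixingSubgroup.subtype) with hΘ
  have hindep : ∀ n n' : ℤ, chi m (v.σ ^ v.f) ^ n * chi m (v'.σ ^ v'.f) ^ n' = 1 →
      (p : ℤ) ∣ n ∧ (p : ℤ) ∣ n' := by
    intro n n' h
    rw [map_pow, map_pow, chi_frobenius v.hq hvm v.hA v.hσ,
      chi_frobenius v'.hq hv'm v'.hA v'.hσ] at h
    constructor
    · have h1 := congrArg (Units.map (ZMod.castHom (dvd_mul_right ℓ ℓ') (ZMod ℓ) : ZMod m →* ZMod ℓ)) h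
      rw [map_one, map_mul, map_zpow, map_zpow, map_pow, map_pow, ← zpow_natCast _ v'.f,
        ← zpow_mul] at h1
      exact haux _ _ (by simp) (by simp) n _ h1
    · have h1 := congrArg (Units.map (ZMod.castHom (dvd_mul_left ℓ' ℓ) (ZMod ℓ') : ZMod m →* ZMod ℓ')) h
      rw [map_one, map_mul, map_zpow, map_zpow, map_pow, map_pow, ← zpow_natCast _ v.f,
        ← zpow_mul, mul_comm] at h1
      exact haux' _ _ (by simp) (by simp) n' _ h1
  set H : Subgroup (ℚ̄ˣ × (ZMod m)ˣ) := Subgroup.closure {Θ v.frob, Θ v'.frob} with hH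
  set U : Subgroup Γ := (H.comap Θ).map F.fixingSubgroup.subtype with hU
  have hUF : U ≤ F.fixingSubgroup := by
    rintro _ ⟨g, -, rfl⟩
    exact g.2
  have hUmem : ∀ g : F.fixingSubgroup, Θ g ∈ H → (g : Γ) ∈ U := fun g h => ⟨g, h, rfl⟩
  have hUone : ∀ (g : Γ) (hg : g ∈ U), chi m g = 1 → g (y : ℚ̄) = y := by
    rintro _ ⟨g, hg, rfl⟩ h1
    obtain ⟨n, n', hn⟩ := Subgroup.mem_closure_pair.mp hg
    have h2 := congrArg Prod.snd hn
    have h3 := congrArg Prod.fst hn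
    simp only [hΘ, InertPlace.frob, MonoidHom.prod_apply, MonoidHom.comp_apply, Subgroup.coe_subtype,
      Prod.snd_mul, Prod.pow_snd, Prod.fst_mul, Prod.pow_fst] at h2 h3
    rw [Subgroup.coe_subtype] at h1
    rw [h1] at h2
    obtain ⟨⟨a, rfl⟩, ⟨b, rfl⟩⟩ := hindep n n' h2
    refine (kum_eq_one_iff hy hμ g).mp ?_
    rw [← h3, zpow_mul, zpow_mul, zpow_natCast, zpow_natCast, kum_pow, kum_pow, one_zpow, one_zpow,
      one_mul]
  set K₀ : IntermediateField ℚ ℚ̄ :=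
    (F ⊔ IntermediateField.adjoin ℚ {(y : ℚ̄)}) ⊔ IntermediateField.adjoin ℚ {zetaRoot m} with hK₀
  have : FiniteDimensional ℚ K₀ := finiteDimensional_sup_adjoin _ _
  have hK₀U : K₀.fixingSubgroup ≤ U := by
    intro g hg
    obtain ⟨hg1, hg2⟩ := mem_fixingSubgroup_sup_adjoin_iff.mp hg
    obtain ⟨hg3, hg4⟩ := mem_fixingSubgroup_sup_adjoin_iff.mp hg1
    refine hUmem ⟨g, hg3⟩ ?_
    have e : Θ ⟨g, hg3⟩ = 1 := Prod.ext ((kum_eq_one_iff hy hμ _).mpr hg4) ((chi_eq_one_iff g).mpr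
      fun z hz => by
        obtain ⟨i, -, rfl⟩ := (zetaRoot_spec (m := m)).eq_pow_of_pow_eq_one hz
        rw [map_pow, hg2])
    rw [e]
    exact one_mem H
  set M := IntermediateField.fixedField U with hMdef
  have := GalCommon.isGalois_Qbar
  have hMfix : M.fixingSubgroup = U :=
    InfiniteGalois.fixingSubgroup_fixedField ⟨U, U.isClosed_of_isOpen
      (Subgroup.isOpen_mono hK₀U K₀.fixingSubgroup_isOpen)⟩
  have hFM : F ≤ M := fun z hz g => (IntermediateField.mem_fixingSubgroup_iff _ _).mp (hUF g.2) z hz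
  have hMK₀ : M ≤ K₀ := fun z hz => by
    rw [← InfiniteGalois.fixedField_fixingSubgroup K₀]
    exact fun g => hz ⟨g, hK₀U g.2⟩
  have : FiniteDimensional ℚ M := finite_of_le hMK₀
  set F' := F ⊔ IntermediateField.adjoin ℚ {(y : ℚ̄)} with hF'
  set M' := M ⊔ IntermediateField.adjoin ℚ {(y : ℚ̄)} with hM'
  have : FiniteDimensional ℚ M' := finiteDimensional_sup_adjoin M _
  have hμM : ContainsMuP p M := hμ.mono hFM
  have hyM : (y : ℚ̄) ^ p ∈ M := hFM hy
  -- the setting for the enlarged set of primes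
  set T' := T ∪ {ℓ, ℓ'} with hT'
  have hT'p : ∀ q ∈ T', q.Prime := fun q hq => by
    rcases Finset.mem_union.mp hq with h | h
    · exact hL.prime q h
    · rcases Finset.mem_insert.mp h with rfl | h
      · exact hℓ
      · exact (Finset.mem_singleton.mp h) ▸ hℓ'
  have hmT' : ∀ q : ℕ, q.Prime → q ∣ m → q ∈ T' := fun q hq hd => by
    by_contra hnot
    simp only [hT', Finset.mem_union, Finset.mem_insert, Finset.mem_singleton, not_or] at hnot
    exact hqm q hq hnot.2.1 hnot.2.2 hd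
  have hinK₀ : ∀ A : Place, ¬ A.Over T' → ∀ σ ∈ A.1.inertiaSubgroupIn ℚ,
      σ ∈ K₀.fixingSubgroup := fun A hA σ hσ => by
    refine mem_fixingSubgroup_sup_adjoin_iff.mpr ⟨inertia_mem_sup_adjoin hL hFL hunr A
      (fun h => hA (over_mono Finset.subset_union_left h)) σ hσ, ?_⟩
    exact (chi_eq_one_iff σ).mp (chi_inertia A.prime_char
      (fun hd => hA (A.over_iff.mpr (hmT' _ A.prime_char hd))) A.liesOver_char hσ) _
      (zetaRoot_spec (m := m)).pow_eq_one
  obtain ⟨L', hL', hLL', hK₀L'⟩ := hL.exists_extend Finset.subset_union_left hT'p K₀ hinK₀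
  have hM'L' : M' ≤ L' :=
    sup_le (hMK₀.trans hK₀L') ((le_sup_right.trans le_sup_left).trans hK₀L')
  have hF'M' : F' ≤ M' := sup_le (hFM.trans le_sup_left) le_sup_right
  -- the character on `M`
  have hexg : ∀ φ : ideles M, ∃ g : M.fixingSubgroup, chi m g.1 = omegaNorm m M φ := fun φ => by
    obtain ⟨g, hg, he⟩ := omegaNorm_mem (m := m) φ
    exact ⟨⟨g, hg⟩, he⟩
  choose gM hgM using hexg
  have hwd : ∀ g g' : M.fixingSubgroup, chi m g.1 = chi m g'.1 →
      kum hyM hμM g = kum hyM hμM g' := fun g g' h => by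
    rw [← mul_inv_eq_one, ← map_inv, ← map_mul, kum_eq_one_iff]
    refine hUone _ ?_ ?_
    · rw [← hMfix]; exact (g * g'⁻¹).2
    · rw [Subgroup.coe_mul, InvMemClass.coe_inv, map_mul, map_inv, h, mul_inv_cancel]
  let ψ : ideles M →* ℚ̄ˣ := MonoidHom.mk' (fun φ => kum hyM hμM (gM φ)) fun a b => by
    rw [← map_mul]
    exact hwd _ _ (by rw [Subgroup.coe_mul, map_mul, hgM, hgM, hgM, map_mul])
  have hψ : ∀ (φ : ideles M) (g : M.fixingSubgroup), chi m g.1 = omegaNorm m M φ →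
      ψ φ = kum hyM hμM g := fun φ g h => hwd _ _ ((hgM φ).trans h.symm)
  have hψker : ∀ φ : ideles M, φ.1 ∈ classKer T' M → ψ φ = 1 := fun φ h => by
    rw [hψ φ 1 (by rw [OneMemClass.coe_one, map_one, omegaNorm_classKer hmT' h]), map_one]
  have hψnorm : ∀ φ : ideles M, φ.1 ∈ normSubgroup M M' → ψ φ = 1 := fun φ h => by
    rw [normSubgroup_eq_map] at h
    obtain ⟨χ, hχ, he⟩ := h
    obtain ⟨g, hg, hge⟩ := omegaNorm_mem (m := m) (⟨χ, hχ⟩ : ideles M')
    obtain ⟨hgM', hgy⟩ := mem_fixingSubgroup_sup_adjoin_iff.mp hg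
    rw [hψ φ ⟨g, hgM'⟩ ?_, kum_eq_one_iff]
    · exact hgy
    · rw [hge, omegaNorm_apply _ (normIdele_mem' φ.2), omegaNorm_apply _ (normIdele_mem' hχ)]
      congr 1
      refine Subtype.ext ?_
      show normIdele ⊥ M' χ = normIdele ⊥ M φ.1
      rw [← he, normHomIdele_apply, normIdele_trans' bot_le le_sup_left hχ]
  -- places in `M`
  have hplaceU : ∀ w : InertPlace T F y, Θ w.frob ∈ H → w.q ≠ ℓ → w.q ≠ ℓ' →
      ∃ hw : placeIdele M w.q w.hq.ne_zero w.A ∈ ideles M,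
        ψ ⟨_, hw⟩ = kum hy hμ w.frob ∧
        normIdele F M (placeIdele M w.q w.hq.ne_zero w.A) = placeIdele F w.q w.hq.ne_zero w.A := by
    intro w hwH hw1 hw2
    have hσM : w.σ ^ w.f ∈ M.fixingSubgroup := by rw [hMfix]; exact hUmem w.frob hwH
    have hwT' : ¬ w.A.Over T' := fun h => by
      rw [Place.over_iff, w.A.char_eq w.hq w.hA, hT', Finset.mem_union, Finset.mem_insert,
        Finset.mem_singleton] at h
      rcases h with h | h | h
      exacts [w.hqT h, hw1 h, hw2 h]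
    have hI : ∀ ι ∈ w.A.1.inertiaSubgroupIn ℚ, ι ∈ M.fixingSubgroup := fun ι hι =>
      IntermediateField.fixingSubgroup_le hMK₀ (hinK₀ w.A hwT' ι hι)
    have hminM : ∀ g : ℕ, 0 < g → g < w.f → w.σ ^ g ∉ M.fixingSubgroup := fun g hg hg' h =>
      w.hmin g hg hg' (hUF (hMfix ▸ h))
    refine ⟨placeIdele_mem_ideles w.hq w.hA, ?_, ?_⟩
    · rw [hψ _ ⟨w.σ ^ w.f, hσM⟩ (omegaNorm_placeIdele w.hq (hqm _ w.hq hw1 hw2) w.hA w.hσ hI w.hf hσM
        hminM _).symm]
      exact Units.ext (by rw [coe_kum, coe_kum]; rfl)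
    · have h := normIdele_placeIdele hFM w.hq w.hA w.hσ hI w.hf w.hσf w.hmin (d := 1) one_pos
        (by rwa [pow_one]) (fun g hg hg' => absurd hg' (by omega))
      rwa [pow_one] at h
  obtain ⟨hwv, hψv, hNv⟩ :=
    hplaceU v (Subgroup.subset_closure (by simp)) hℓq.symm hℓ'q.symm
  obtain ⟨hwv', hψv', hNv'⟩ :=
    hplaceU v' (Subgroup.subset_closure (by simp)) hℓq'.symm hℓ'q'.symm
  have hv1 : kum hy hμ v.frob ≠ 1 := fun h => v.hne ((kum_eq_one_iff hy hμ _).mp h)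
  have hψv1 : ψ ⟨_, hwv⟩ ≠ 1 := hψv ▸ hv1
  -- the index
  have hσM : v.σ ^ v.f ∈ M.fixingSubgroup := by
    rw [hMfix]; exact hUmem v.frob (Subgroup.subset_closure (by simp))
  obtain ⟨hnorm', hdeg'⟩ := kummer_normal_relIndex hyM hμM hσM v.hne
  have hindex := relIndex_norm_general hL' (le_sup_left : M ≤ M') hM'L' hμM hnorm' hdeg'
  set N := (classKer T' M ⊔ normSubgroup M M').subgroupOf (ideles M) with hNdef
  have hNker : N ≤ ψ.ker := fun φ hφ => by
    obtain ⟨a, ha, b, hb, he⟩ := Subgroup.mem_sup.mp (Subgroup.mem_subgroupOf.mp hφ)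
    rw [MonoidHom.mem_ker, show φ = (⟨a, classKer_le_ideles' ha⟩ : ideles M) *
      ⟨b, normSubgroup_le_ideles hb⟩ from Subtype.ext he.symm, map_mul, hψker _ ha, hψnorm _ hb,
      one_mul]
  -- the pushed down character
  let lamM : ideles M →* ℚ̄ˣ := lam.comp (((normHomIdele F M).comp (ideles M).subtype).codRestrict _
    fun φ => normIdele_mem' φ.2)
  have hkerN : N ≤ lamM.ker := fun φ hφ => by
    obtain ⟨a, ha, b, hb, he⟩ := Subgroup.mem_sup.mp (Subgroup.mem_subgroupOf.mp hφ)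
    rw [MonoidHom.mem_ker, show φ = (⟨a, classKer_le_ideles' ha⟩ : ideles M) *
      ⟨b, normSubgroup_le_ideles hb⟩ from Subtype.ext he.symm, map_mul]
    have h1 : lamM ⟨a, classKer_le_ideles' ha⟩ = 1 :=
      hker _ (classKer_anti Finset.subset_union_left (normIdele_mem_classKer' ha))
    have h2 : lamM ⟨b, normSubgroup_le_ideles hb⟩ = 1 := by
      rw [normSubgroup_eq_map] at hb
      obtain ⟨χ, hχ, rfl⟩ := hb
      refine hnorm _ ?_
      show normIdele F M (normIdele M M' χ) ∈ normSubgroup F F'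
      rw [normIdele_trans' hFM le_sup_left hχ, ← normIdele_trans' le_sup_left hF'M' hχ]
      exact normIdele_mem_normSubgroup (normIdele_mem' hχ)
    rw [h1, h2, one_mul]
  have hkerψ : ψ.ker = N := by
    have hi : N.index = p := hindex
    rcases hp.eq_one_or_self_of_dvd _ (hi ▸ Subgroup.index_dvd_of_le hNker) with h | h
    · refine absurd (MonoidHom.mem_ker.mp ?_ : ψ ⟨_, hwv⟩ = 1) hψv1
      rw [Subgroup.index_eq_one.mp h]
      exact Subgroup.mem_top _
    · exact le_antisymm (Subgroup.relIndex_eq_one.mp (by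
        have := Subgroup.relIndex_mul_index hNker
        rw [h, hi] at this
        exact Nat.eq_of_mul_eq_mul_right hp.pos (by rw [this, one_mul]))) hNker
  have hlamv : lamM ⟨_, hwv⟩ = lam v.idele := congrArg lam (Subtype.ext hNv)
  obtain ⟨κ, -, hκ⟩ := mem_zpowers_of_pow_eq_one (kum_pow hy hμ _) (hpow v.idele) hv1
  refine ⟨κ, hκ, ?_⟩
  obtain ⟨i, -, hi⟩ := mem_zpowers_of_pow_eq_one (kum_pow hy hμ v.frob) (kum_pow hy hμ v'.frob) hv1
  have hdiff : (⟨_, hwv'⟩ : ideles M) * ((⟨_, hwv⟩ : ideles M) ^ i)⁻¹ ∈ ψ.ker := by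
    rw [MonoidHom.mem_ker, map_mul, map_inv, map_pow, hψv, hψv', hi, mul_inv_cancel]
  have h1 : lamM ⟨_, hwv'⟩ = lamM ⟨_, hwv⟩ ^ i := by
    have := MonoidHom.mem_ker.mp (hkerN (hkerψ ▸ hdiff))
    rwa [map_mul, map_inv, map_pow, mul_inv_eq_one] at this
  rw [show lam v'.idele = lamM ⟨_, hwv'⟩ from (congrArg lam (Subtype.ext hNv')).symm, h1, hlamv, hκ,
    hi, ← pow_mul, ← pow_mul, mul_comm]

end FLTAgent.TW
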