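import Fermat.Agent.TW.Idele.ClassField.UnitCount

/-!
# The norm index and the class count (inputs of the reciprocity law)

`relIndex_norm_of_tPrincipal`: in degree `p` the index of the norms in `C_T(F)` is `p`, if the
`T`-class group of `F` is trivial.  The lower bound is the Herbrand quotient; for the upper bound
the local norms at auxiliary split places are counted against the units outside `T` and these
places.  The same count without auxiliary places gives `relIndex_classKer_sup_pow`.
-/

set_option autoImplicit false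
set_option synthInstance.maxHeartbeats 200000

noncomputable section

open scoped Pointwise NumberField

namespace FLTAgent.TW

open PreIdele

local notation "ℚ̄" => AlgebraicClosure ℚ
local notation "Γ" => (AlgebraicClosure ℚ ≃ₐ[ℚ] AlgebraicClosure ℚ)

attribute [local instance] numberField_intermediate

variable {T : Finset ℕ} {p : ℕ} {L F F' : IntermediateField ℚ (AlgebraicClosure ℚ)}

/-- Basic counts for the ideles which are units outside a zone. -/
theorem AuxPlaces.zone_count [Fact p.Prime] [FiniteDimensional ℚ F] {n : ℕ}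
    (D : AuxPlaces T p F F' n) (hL : IdeleSetting T p L) (hFL : F ≤ L) (hμ : ContainsMuP p F) :
    (awayIdeles T F ⊔ powIdeles p F).relIndex (principal F ⊓ offIdeles D.Zone F) *
      ((principal F ⊓ offIdeles D.Zone F) ⊔
          ((awayIdeles T F ⊔ powIdeles p F) ⊓ offIdeles D.Zone F)).relIndex
        (offIdeles D.Zone F) = p ^ (2 * (numPlaces T F + numInf F)) := by
  set P := awayIdeles T F ⊔ powIdeles p F with hP
  set J := offIdeles D.Zone F with hJ
  set V := principal F ⊓ J with hV
  have hPle : P ≤ ideles F := sup_le awayIdeles_le_ideles (by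
    rintro _ ⟨ψ, hψ, rfl⟩; exact pow_mem hψ p)
  have hJP : J ⊔ P = ideles F := by
    refine le_antisymm (sup_le (fun φ hφ => hφ.1) hPle) fun φ hφ => ?_
    rw [← mainPart_mul_restPart (T := T) φ]
    refine Subgroup.mul_mem_sup ⟨mainPart_mem hφ, fun A hA => ?_⟩
      (Subgroup.mem_sup_left (restPart_mem hφ))
    simp only [mainPart]
    rw [restr_fin_of_neg (Z := fun A => A.Over T) fun h => hA (Or.inl h)]
    exact one_mem _
  have h1 : (P ⊓ J).relIndex J = p ^ (2 * (numPlaces T F + numInf F)) := by
    rw [Subgroup.inf_relIndex_right, ← Subgroup.relIndex_sup_right (H := J) (K := P),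
      hJP, hP, relIndex_away_sup_pow hL hFL hμ]
    congr 1
    rw [mul_add, two_mul_numInf]
    ring
  have h2 := Subgroup.relIndex_mul_relIndex (P ⊓ J) (V ⊔ P ⊓ J) J le_sup_right
    (sup_le inf_le_right inf_le_right)
  have h3 : (P ⊓ J).relIndex (V ⊔ P ⊓ J) = P.relIndex V := by
    rw [sup_comm, Subgroup.relIndex_sup_left, ← Subgroup.inf_relIndex_right (H := P ⊓ J),
      ← Subgroup.inf_relIndex_right (H := P), inf_assoc,
      inf_eq_right.mpr (inf_le_right : V ≤ J)]
  rw [h3, h1] at h2
  exact h2

/-- The norm index in degree `p`, assuming only that the `T`-class group of the base is trivial. -/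
theorem relIndex_norm_of_tPrincipal [hp : Fact p.Prime] (hL : IdeleSetting T p L)
    (hT : TPrincipal T F) (hFF' : F ≤ F') (hF'L : F' ≤ L) (hμ : ContainsMuP p F)
    (hnormal : (F'.fixingSubgroup.subgroupOf F.fixingSubgroup).Normal)
    (hdeg : F'.fixingSubgroup.relIndex F.fixingSubgroup = p) :
    (classKer T F ⊔ normSubgroup F F').relIndex (ideles F) = p := by
  have := hL.finite
  have hFL := hFF'.trans hF'L
  have := finite_of_le (L := L) hFL
  have := finite_of_le (L := L) hF'L
  set H := classKer T F ⊔ normSubgroup F F' with hH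
  obtain ⟨σ₀, hσ₀, hσ₀'⟩ : ∃ σ₀ ∈ F.fixingSubgroup, σ₀ ∉ F'.fixingSubgroup := by
    by_contra h
    push Not at h
    rw [Subgroup.relIndex_eq_one.mpr h] at hdeg
    exact hp.out.ne_one hdeg.symm
  obtain ⟨hpos, hlow⟩ := herbrand_quotient hL hFF' hF'L hμ σ₀ hσ₀ hσ₀' hnormal hdeg
  set s := numPlaces T F + numInf F with hs
  obtain ⟨D⟩ := exists_auxPlaces hL hT hFF' hF'L hμ hnormal hdeg (s - 1) le_rfl
  set P := awayIdeles T F ⊔ powIdeles p F with hP
  set J := offIdeles D.Zone F with hJ
  set V := principal F ⊓ J with hV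
  have hcount := D.zone_count hL hFL hμ
  rw [← hP, ← hJ, ← hV, ← hs] at hcount
  have hVne : P.relIndex V ≠ 0 := fun h => by
    rw [h, zero_mul] at hcount
    exact (pow_ne_zero _ hp.out.ne_zero) hcount.symm
  have hlower := D.le_relIndex hL hT hFL hμ hVne
  rw [← hP, ← hJ, ← hV, ← hs] at hlower
  -- the local classes are norms
  have hB : V ⊔ P ⊓ J ≤ H := by
    refine sup_le (inf_le_left.trans (le_sup_left.trans le_sup_left)) ?_
    rintro φ ⟨hφP, hφJ⟩
    obtain ⟨ψ, hψ, hψfin, hψinf⟩ := component_of_away_sup_pow hφP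
    rw [← mainPart_mul_restPart (T := T) φ]
    refine mul_mem (Subgroup.mem_sup_right ?_) ?_
    · have e : mainPart T φ = mainPart T ψ ^ p := by
        refine PreIdele.ext (funext fun A => ?_) (funext fun ι => ?_)
        · show _ = finHom A (mainPart T ψ ^ p)
          rw [map_pow]
          show _ = (mainPart T ψ).fin A ^ p
          by_cases hA : A.Over T
          · simp only [mainPart]
            rw [restr_fin_of_pos (Z := fun A => A.Over T) hA,
              restr_fin_of_pos (Z := fun A => A.Over T) hA, hψfin A hA]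
          · simp only [mainPart]
            rw [restr_fin_of_neg (Z := fun A => A.Over T) hA,
              restr_fin_of_neg (Z := fun A => A.Over T) hA, one_pow]
        · show _ = infHom ι (mainPart T ψ ^ p)
          rw [map_pow]
          show _ = (mainPart T ψ).inf ι ^ p
          simp only [mainPart]
          rw [restr_inf_of_pos (W := fun _ => True) trivial,
            restr_inf_of_pos (W := fun _ => True) trivial, hψinf]
      rw [e]
      exact pow_mem_normSubgroup hdeg hFF' (mainPart_mem hψ)
    · set ρ := restPart T φ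
      have hρ := restPart_mem (T := T) hφJ.1
      rw [← restr_mul_restr_not (fun B => ∃ i, primeOf F B = primeOf F (D.A i)) (fun _ => False) ρ]
      have hinv : ∀ σ ∈ F.fixingSubgroup, ∀ B : Place,
          (∃ i, primeOf F (σ • B) = primeOf F (D.A i)) ↔ ∃ i, primeOf F B = primeOf F (D.A i) :=
        fun σ hσ B => by simp only [primeOf_smul hσ]
      refine mul_mem (Subgroup.mem_sup_right ?_) (Subgroup.mem_sup_left (Subgroup.mem_sup_right ?_))
      · refine mem_normSubgroup_of_split hFF' (restr_mem_ideles hρ.1 hinv (fun _ _ _ => Iff.rfl)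
          fun _ => Iff.rfl) (fun B hB => ?_) fun ι hι => absurd (restr_inf_of_neg not_false) hι
        obtain ⟨i, hi⟩ : ∃ i, primeOf F B = primeOf F (D.A i) := by
          by_contra h; exact hB (restr_fin_of_neg h)
        obtain ⟨σ, hσ, rfl⟩ := exists_smul_eq_of_primeOf_eq hi.symm
        intro τ hτ hτB
        have h1 : σ⁻¹ * τ * σ ∈ F'.fixingSubgroup := D.split i _
          (mul_mem (mul_mem (inv_mem hσ) hτ) hσ) (by rw [mul_smul, mul_smul, hτB, inv_smul_smul])
        have h2 := hnormal.conj_mem ⟨_, mul_mem (mul_mem (inv_mem hσ) hτ) hσ⟩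
          (Subgroup.mem_subgroupOf.mpr h1) ⟨σ, hσ⟩
        simpa [Subgroup.mem_subgroupOf, mul_assoc] using h2
      · refine ⟨⟨restr_mem_ideles hρ.1 (fun σ hσ B => not_congr (hinv σ hσ B)) (fun _ _ _ => Iff.rfl)
          fun _ => Iff.rfl, fun B hB => ?_, funext fun ι => ?_⟩, fun B => ?_⟩
        · by_cases h : ∃ i, primeOf F B = primeOf F (D.A i)
          · exact restr_fin_of_neg (not_not_intro h)
          · rw [restr_fin_of_pos (Z := fun B => ¬ ∃ i, primeOf F B = primeOf F (D.A i)) h]
            exact hρ.2.1 B hB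
        · rw [restr_inf_of_pos (W := fun _ => ¬ False) not_false, hρ.2.2]
        · by_cases h : ∃ i, primeOf F B = primeOf F (D.A i)
          · rw [restr_fin_of_neg (not_not_intro h)]; exact one_mem _
          · rw [restr_fin_of_pos (Z := fun B => ¬ ∃ i, primeOf F B = primeOf F (D.A i)) h]
            by_cases hBT : B.Over T
            · rw [hρ.2.1 B hBT]; exact one_mem _
            · simp only [ρ, restPart]
              rw [restr_fin_of_pos (Z := fun B => ¬ B.Over T) hBT]
              exact hφJ.2 B fun hz => hz.elim hBT h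
  -- compare
  have hHle : H ≤ ideles F := sup_le classKer_le_ideles' normSubgroup_le_ideles
  have hJle : ideles F ≤ H ⊔ J := by
    intro φ hφ
    obtain ⟨x, hxF, hx⟩ := exists_div_principal_mem hT hφ
    rw [← div_mul_cancel φ (principalHom x), mul_comm]
    exact Subgroup.mul_mem_sup (Subgroup.mem_sup_left (Subgroup.mem_sup_left ⟨x, hxF, rfl⟩))
      ⟨hx.1, fun A hA => hx.2 A fun h => hA (Or.inl h)⟩
  have hHJ : H.relIndex (ideles F) = H.relIndex J := by
    rw [← Subgroup.relIndex_sup_right (H := J) (K := H),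
      le_antisymm (sup_le (fun φ hφ => hφ.1) hHle : J ⊔ H ≤ ideles F) (sup_comm H J ▸ hJle)]
  have hdvd : H.relIndex (ideles F) ∣ (V ⊔ P ⊓ J).relIndex J :=
    hHJ ▸ Subgroup.relIndex_dvd_of_le_left J hB
  have hVJne : (V ⊔ P ⊓ J).relIndex J ≠ 0 := fun h => by
    rw [h, mul_zero] at hcount
    exact (pow_ne_zero _ hp.out.ne_zero) hcount.symm
  have hub : p ^ (s + (s - 1)) * H.relIndex (ideles F) ≤ p ^ (2 * s) :=
    le_trans (Nat.mul_le_mul hlower (Nat.le_of_dvd (Nat.pos_of_ne_zero hVJne) hdvd)) hcount.le
  have hle : H.relIndex (ideles F) ≤ p := by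
    rcases Nat.eq_zero_or_pos s with h0 | h0
    · rw [h0] at hub
      simp only [mul_zero, add_zero, Nat.zero_sub, pow_zero, one_mul] at hub
      exact hub.trans hp.out.one_lt.le
    · rw [show 2 * s = s + (s - 1) + 1 by omega, pow_succ] at hub
      exact Nat.le_of_mul_le_mul_left hub (pow_pos hp.out.pos _)
  exact le_antisymm hle (Nat.le_of_dvd hpos ⟨_, hlow⟩)

/-- The order of `C_T(F)` modulo `p`-th powers. -/
theorem relIndex_classKer_sup_pow [hp : Fact p.Prime] (hL : IdeleSetting T p L)
    (hT : TPrincipal T F) (hFL : F ≤ L) (hμ : ContainsMuP p F) :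
    (classKer T F ⊔ powIdeles p F).relIndex (ideles F) = p ^ (numPlaces T F + numInf F) := by
  have := hL.finite
  have := finite_of_le (L := L) hFL
  let D : AuxPlaces T p F F 0 := ⟨fun i => i.elim0, fun i => i.elim0, fun i => i.elim0,
    fun i => i.elim0, fun i => i.elim0, fun i => i.elim0, fun i => i.elim0, fun i => i.elim0⟩
  have hZ : ∀ B, D.Zone B ↔ B.Over T :=
    fun B => ⟨fun h => h.resolve_right fun ⟨i, _⟩ => i.elim0, Or.inl⟩
  set s := numPlaces T F + numInf F with hs
  set P := awayIdeles T F ⊔ powIdeles p F with hP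
  set J := offIdeles D.Zone F with hJ
  set V := principal F ⊓ J with hV
  set H := classKer T F ⊔ powIdeles p F with hH
  have hcount := D.zone_count hL hFL hμ
  rw [← hP, ← hJ, ← hV, ← hs] at hcount
  have hVne : P.relIndex V ≠ 0 := fun h => by
    rw [h, zero_mul] at hcount
    exact (pow_ne_zero _ hp.out.ne_zero) hcount.symm
  have hlower := D.le_relIndex hL hT hFL hμ hVne
  rw [← hP, ← hJ, ← hV, ← hs, add_zero] at hlower
  have hupper : P.relIndex V ≤ p ^ s := by
    let f : tUnits T F →* PreIdele := principalHom.comp (tUnits T F).subtype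
    have hVr : V = f.range := by
      ext φ
      constructor
      · rintro ⟨⟨x, hxF, rfl⟩, -, hu⟩
        exact ⟨⟨x, hxF, fun A hA => hu A ((hZ A).not.mpr hA)⟩, rfl⟩
      · rintro ⟨x, rfl⟩
        exact ⟨⟨x, x.2.1, rfl⟩, principalHom_mem_ideles x.2.1,
          fun A hA => x.2.2 A fun h => hA ((hZ A).mpr h)⟩
    have hdvd : P.relIndex V ∣ ((tUnits T F).map (powMonoidHom p)).relIndex (tUnits T F) := by
      rw [hVr, ← Subgroup.index_comap, Subgroup.relIndex]
      refine Subgroup.index_dvd_of_le ?_
      rintro x ⟨y, hy, hyx⟩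
      refine Subgroup.mem_sup_right ⟨principalHom y, principalHom_mem_ideles hy.1, ?_⟩
      show principalHom y ^ p = principalHom x.1
      rw [← map_pow]
      exact congrArg principalHom hyx
    rw [relIndex_tUnits_pow hL hFL hμ] at hdvd
    exact Nat.le_of_dvd (pow_pos hp.out.pos _) hdvd
  have hPV : P.relIndex V = p ^ s := le_antisymm hupper hlower
  rw [hPV] at hcount
  have hVB : (V ⊔ P ⊓ J).relIndex J = p ^ s := by
    rw [two_mul, pow_add p s s] at hcount
    exact mul_left_cancel₀ (pow_ne_zero _ hp.out.ne_zero) hcount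
  have hHle : H ≤ ideles F := sup_le classKer_le_ideles' (by
    rintro _ ⟨ψ, hψ, rfl⟩; exact pow_mem hψ p)
  have hJle : ideles F ≤ H ⊔ J := by
    intro φ hφ
    obtain ⟨x, hxF, hx⟩ := exists_div_principal_mem hT hφ
    rw [← div_mul_cancel φ (principalHom x), mul_comm]
    exact Subgroup.mul_mem_sup (Subgroup.mem_sup_left (Subgroup.mem_sup_left ⟨x, hxF, rfl⟩))
      ⟨hx.1, fun A hA => hx.2 A fun h => hA ((hZ A).mpr h)⟩
  have hHJ : H.relIndex (ideles F) = H.relIndex J := by
    rw [← Subgroup.relIndex_sup_right (H := J) (K := H),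
      le_antisymm (sup_le (fun φ hφ => hφ.1) hHle : J ⊔ H ≤ ideles F) (sup_comm H J ▸ hJle)]
  have hunit : unitIdeles T F ≤ P ⊓ J := fun u hu =>
    ⟨Subgroup.mem_sup_left hu.1, hu.1.1, fun A _ => hu.2 A⟩
  have heq : H ⊓ J = V ⊔ P ⊓ J := by
    refine le_antisymm ?_ (le_inf ?_ (sup_le inf_le_right inf_le_right))
    · rintro φ ⟨hφH, hφJ⟩
      obtain ⟨c, hc, _, ⟨ψ, hψ, rfl⟩, rfl⟩ := Subgroup.mem_sup.mp hφH
      obtain ⟨_, ⟨x, hxF, rfl⟩, u, hu, rfl⟩ := Subgroup.mem_sup.mp hc
      obtain ⟨w, hwF, hψ'⟩ := exists_div_principal_mem hT hψ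
      set ψ' := ψ / principalHom w with hψ'def
      have hψp : ψ' ^ p ∈ P ⊓ J :=
        ⟨Subgroup.mem_sup_right ⟨ψ', hψ'.1, rfl⟩,
          pow_mem (show ψ' ∈ J from ⟨hψ'.1, fun A hA => hψ'.2 A ((hZ A).not.mp hA)⟩) p⟩
      have e : principalHom x * u * ψ ^ p = principalHom (x * w ^ p) * (u * ψ' ^ p) := by
        rw [hψ'def, map_mul, map_pow, div_pow, ← mul_assoc, mul_right_comm (principalHom x) _ u,
          mul_assoc (principalHom x * u) (principalHom w ^ p), mul_div_cancel]
      show principalHom x * u * ψ ^ p ∈ _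
      have hxw : principalHom (x * w ^ p) ∈ V := by
        refine ⟨⟨_, by rw [Units.val_mul, Units.val_pow_eq_pow_val]; exact mul_mem hxF (pow_mem hwF p),
          rfl⟩, ?_⟩
        have h1 : principalHom x * u * ψ ^ p ∈ J := hφJ
        rw [e] at h1
        exact (Subgroup.mul_mem_cancel_right _ (mul_mem (hunit hu).2 hψp.2)).mp h1
      rw [e]
      exact Subgroup.mul_mem_sup hxw (mul_mem (hunit hu) hψp)
    · refine sup_le (inf_le_left.trans (le_sup_left.trans le_sup_left)) ?_
      rintro φ ⟨hφP, hφJ⟩
      obtain ⟨a, ha, b, hb, rfl⟩ := Subgroup.mem_sup.mp hφP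
      obtain ⟨ψ, hψ, rfl⟩ := hb
      have h := Subgroup.mem_sup_left (T := powIdeles p F) (show restPart T (a * ψ ^ p) ∈ classKer T F
        from Subgroup.mem_sup_right ⟨restPart_mem hφJ.1, fun A => ?_⟩)
      · rw [show (a * powMonoidHom p ψ) = a * ψ ^ p from rfl,
          ← mainPart_mul_restPart (T := T) (a * ψ ^ p)]
        refine mul_mem (Subgroup.mem_sup_right ⟨mainPart T ψ, mainPart_mem hψ, ?_⟩) h
        show mainPart T ψ ^ p = _
        refine PreIdele.ext (funext fun A => ?_) (funext fun ι => ?_)
        · show finHom A (mainPart T ψ ^ p) = _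
          rw [map_pow]
          show (mainPart T ψ).fin A ^ p = _
          by_cases hA : A.Over T
          · simp only [mainPart]
            rw [restr_fin_of_pos (Z := fun A => A.Over T) hA,
              restr_fin_of_pos (Z := fun A => A.Over T) hA]
            show finHom A ψ ^ p = finHom A (a * ψ ^ p)
            rw [map_mul, map_pow, show finHom A a = 1 from ha.2.1 A hA, one_mul]
          · simp only [mainPart]
            rw [restr_fin_of_neg (Z := fun A => A.Over T) hA,
              restr_fin_of_neg (Z := fun A => A.Over T) hA, one_pow]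
        · show infHom ι (mainPart T ψ ^ p) = _
          rw [map_pow]
          show (mainPart T ψ).inf ι ^ p = _
          simp only [mainPart]
          rw [restr_inf_of_pos (W := fun _ => True) trivial,
            restr_inf_of_pos (W := fun _ => True) trivial]
          show infHom ι ψ ^ p = infHom ι (a * ψ ^ p)
          rw [map_mul, map_pow, show infHom ι a = 1 from congrFun ha.2.2 ι, one_mul]
      · simp only [restPart]
        by_cases hA : A.Over T
        · rw [restr_fin_of_neg (not_not_intro hA)]; exact one_mem _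
        · rw [restr_fin_of_pos (Z := fun A => ¬ A.Over T) hA]
          exact hφJ.2 A ((hZ A).not.mpr hA)
  rw [hHJ, ← Subgroup.inf_relIndex_right H J, heq, hVB]

end FLTAgent.TW
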