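import Fermat.Agent.TW.Idele.ClassField.AuxPlaces

/-!
# Local classes of the units outside `T` and the auxiliary places

An element of `F` which is a unit outside `T` and the auxiliary places and a `p`-th power above
`T ∪ {∞}` is a `p`-th power: otherwise every idele would be a norm from `F(x^{1/p})`, against the
lower bound of the Herbrand quotient.  So these elements give at least `p ^ (s + n)` local classes.
-/

set_option autoImplicit false
set_option synthInstance.maxHeartbeats 200000
set_option maxHeartbeats 1000000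

noncomputable section

open scoped Pointwise NumberField

namespace FLTAgent.TW

open PreIdele

local notation "ℚ̄" => AlgebraicClosure ℚ
local notation "Γ" => (AlgebraicClosure ℚ ≃ₐ[ℚ] AlgebraicClosure ℚ)

attribute [local instance] numberField_intermediate

variable {p : ℕ} {T : Finset ℕ} {L F F' : IntermediateField ℚ (AlgebraicClosure ℚ)} {n : ℕ}

theorem component_of_away_sup_pow {φ : PreIdele}
    (hφ : φ ∈ awayIdeles T F ⊔ powIdeles p F) :
    ∃ ψ ∈ ideles F, (∀ A : Place, A.Over T → φ.fin A = ψ.fin A ^ p) ∧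
      ∀ ι, φ.inf ι = ψ.inf ι ^ p := by
  obtain ⟨a, ha, _, ⟨ψ, hψ, rfl⟩, rfl⟩ := Subgroup.mem_sup.mp hφ
  refine ⟨ψ, hψ, fun A hA => ?_, fun ι => ?_⟩
  · show finHom A (a * ψ ^ p) = finHom A ψ ^ p
    rw [map_mul, map_pow, show finHom A a = 1 from ha.2.1 A hA, one_mul]
  · show infHom ι (a * ψ ^ p) = infHom ι ψ ^ p
    rw [map_mul, map_pow, show infHom ι a = 1 from congrFun ha.2.2 ι, one_mul]

/-- The part of an idele above `T` and at infinity. -/
abbrev mainPart (T : Finset ℕ) (φ : PreIdele) : PreIdele :=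
  restrIdele (fun A => A.Over T) (fun _ => True) φ

/-- The part of an idele away from `T` and infinity. -/
abbrev restPart (T : Finset ℕ) (φ : PreIdele) : PreIdele :=
  restrIdele (fun A => ¬ A.Over T) (fun _ => ¬ True) φ

theorem mainPart_mul_restPart (φ : PreIdele) : mainPart T φ * restPart T φ = φ :=
  restr_mul_restr_not _ _ φ

theorem mainPart_mem {φ : PreIdele} (hφ : φ ∈ ideles F) : mainPart T φ ∈ ideles F :=
  restr_mem_ideles hφ (fun _ _ _ => Place.over_smul_iff) (fun _ _ _ => Iff.rfl) fun _ => Iff.rfl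

theorem restPart_mem {φ : PreIdele} (hφ : φ ∈ ideles F) : restPart T φ ∈ awayIdeles T F :=
  ⟨restr_mem_ideles hφ (fun _ _ _ => not_congr Place.over_smul_iff) (fun _ _ _ => Iff.rfl)
      fun _ => Iff.rfl,
    fun _ hA => restr_fin_of_neg (not_not_intro hA),
    funext fun _ => restr_inf_of_neg (not_not_intro trivial)⟩

theorem restPart_inf (φ : PreIdele) : (restPart T φ).inf = 1 :=
  funext fun _ => restr_inf_of_neg (not_not_intro trivial)

/-- If the Kummer element is a `p`-th power of an idele at infinity, every embedding splits. -/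
theorem splitInf_of_eq_pow [hp : Fact p.Prime] (hμ : ContainsMuP p F) {z : ℚ̄} {x : ℚ̄ˣ}
    (hz : z ^ p = x) {ψ : PreIdele} (hψ : ψ ∈ ideles F) (ι : Emb)
    (hxψ : (principalHom x).inf ι = ψ.inf ι ^ p) : SplitInf F (kummerField F z) ι := by
  intro σ hσ hσι
  refine mem_fix_kummerField.mpr ⟨hσ, ?_⟩
  obtain ⟨ζ, hζ⟩ := exists_primitiveRoot_qbar p
  set r : ℂ := (ψ.inf ι : ℂ) with hr
  have hrc : starRingEnd ℂ r = r := by
    have h1 := congrArg Units.val (hψ.2.1 ι)
    rw [← hσι, inf_twist hψ hσ] at h1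
    exact h1.symm
  have hx' : ι z ^ p = r ^ p := by
    rw [← map_pow, hz, hr, ← Units.val_pow_eq_pow_val, ← hxψ]
    rfl
  obtain ⟨i, -, hi⟩ := (hζ.map_of_injective ι.injective).eq_pow_of_pow_eq_one (ξ := ι z / r) (by
    rw [div_pow, hx', div_self (pow_ne_zero _ (ψ.inf ι).ne_zero)])
  have hconj : ∀ w, ι (σ w) = starRingEnd ℂ (ι w) := fun w => RingHom.congr_fun hσι w
  rw [eq_div_iff (ψ.inf ι).ne_zero] at hi
  refine ι.injective ?_
  rw [hconj, ← hi, map_mul, hrc, map_pow, ← hconj, apply_of_mem (hμ ζ hζ.pow_eq_one) hσ]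

variable [FiniteDimensional ℚ F]

/-- The places over `T` and those conjugate to an auxiliary place. -/
def AuxPlaces.Zone (D : AuxPlaces T p F F' n) (B : Place) : Prop :=
  B.Over T ∨ ∃ i, primeOf F B = primeOf F (D.A i)

theorem AuxPlaces.zone_smul (D : AuxPlaces T p F F' n) {σ : Γ} (hσ : σ ∈ F.fixingSubgroup)
    (B : Place) : D.Zone (σ • B) ↔ D.Zone B := by
  simp only [AuxPlaces.Zone, Place.over_smul_iff, primeOf_smul hσ]

/-- Injectivity of the local class map. -/
theorem AuxPlaces.exists_root [hp : Fact p.Prime] (D : AuxPlaces T p F F' n)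
    (hL : IdeleSetting T p L) (hT : TPrincipal T F) (hFL : F ≤ L) (hμ : ContainsMuP p F)
    {x : ℚ̄ˣ} (hxF : (x : ℚ̄) ∈ F) (hxu : ∀ B, ¬ D.Zone B → x ∈ B.1.unitGroup)
    (hxP : principalHom x ∈ awayIdeles T F ⊔ powIdeles p F) :
    ∃ y : ℚ̄ˣ, (y : ℚ̄) ∈ F ∧ y ^ p = x := by
  classical
  have := hL.finite
  obtain ⟨z, hz⟩ := IsAlgClosed.exists_pow_nat_eq (x : ℚ̄) hp.out.pos
  have hz0 : z ≠ 0 := fun h => x.ne_zero (by rw [← hz, h, zero_pow hp.out.ne_zero])
  by_contra hcon
  have hzF : z ∉ F := fun h => hcon ⟨Units.mk0 z hz0, h, Units.ext (by simpa using hz)⟩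
  have hzpF : z ^ p ∈ F := hz.symm ▸ hxF
  set F₁ := kummerField F z with hF₁
  have : FiniteDimensional ℚ F₁ := finite_kummerField z
  have hgen : ∀ σ ∈ F.fixingSubgroup, σ z = z → σ ∈ F₁.fixingSubgroup := fun σ h1 h2 =>
    mem_fix_kummerField.mpr ⟨h1, h2⟩
  set T' := T ∪ Finset.univ.image fun i => (D.A i).char with hT'
  have hTT' : T ⊆ T' := Finset.subset_union_left
  have hzone : ∀ B : Place, D.Zone B → B.Over T' := by
    rintro B (h | ⟨i, hi⟩)
    · exact over_mono hTT' h
    · rw [Place.over_iff, char_eq_of_primeOf_eq hi]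
      exact Finset.mem_union_right _ (Finset.mem_image.mpr ⟨i, Finset.mem_univ i, rfl⟩)
  obtain ⟨L', hLL', hF₁L', hL'⟩ := exists_setting_extend hL hTT' (fun q hq => by
      rcases Finset.mem_union.mp hq with h | h
      · exact hL.prime q h
      · obtain ⟨i, -, rfl⟩ := Finset.mem_image.mp h
        exact (D.A i).prime_char) F₁ (fun A hA σ hσ => by
    have hA' : ¬ D.Zone A := fun h => hA (hzone A h)
    have hσF : σ ∈ F.fixingSubgroup := IntermediateField.fixingSubgroup_le hFL
      (hL.unramified A (fun h => hA' (Or.inl h)) σ hσ)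
    refine hgen σ hσF (inertia_fixed_root (char_ne_of_notOver hL.mem fun h => hA' (Or.inl h)) ?_
      hσ (apply_of_mem hzpF hσF))
    refine (pow_eq_one_iff_of_nonneg zero_le hp.out.ne_zero).mp ?_
    rw [← map_pow, hz]
    exact mem_unitGroup_iff.mp (hxu A hA'))
  obtain ⟨hnormal, hdeg⟩ := kummerField_normal hμ hzpF hzF
  obtain ⟨σ₀, hσ₀, hσ₀z⟩ := exists_moving hzF
  obtain ⟨-, hindex⟩ := herbrand_quotient hL' (le_kummerField z) hF₁L' hμ σ₀ hσ₀
    (fun h => hσ₀z (mem_fix_kummerField.mp h).2) hnormal hdeg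
  suffices hle : ideles F ≤ classKer T' F ⊔ normSubgroup F F₁ by
    rw [Subgroup.relIndex_eq_one.mpr hle] at hindex
    exact hp.out.ne_one (Nat.eq_one_of_mul_eq_one_right hindex.symm)
  -- every idele is a norm up to the class kernel
  obtain ⟨ψ, hψ, hψfin, hψinf⟩ := component_of_away_sup_pow hxP
  have hsplitfin : ∀ A : Place, A.Over T → SplitAt F F₁ A := fun A hA =>
    splitAt_of_mem_decPow hμ hz hgen ⟨ψ.fin A, (hψfin A hA).symm, fun σ hσ hσA => fin_fixed hψ A hσ hσA⟩
  intro φ hφ
  obtain ⟨x', hx'F, hφ'⟩ := exists_div_principal_mem hT hφ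
  set φ' := φ / principalHom x'
  obtain ⟨y, hy, hyD⟩ := D.exists_mul_mem hμ hL.mem hφ'.1 fun i => hφ'.2 _ (D.notOver i)
  set φ₁ := φ' * principalHom y with hφ₁
  have hφ₁mem : φ₁ ∈ ideles F := mul_mem hφ'.1 (principalHom_mem_ideles hy.1)
  have hφ₁u : ∀ A : Place, ¬ A.Over T → φ₁.fin A ∈ A.1.unitGroup := fun A hA => by
    rw [hφ₁, fin_mul]; exact mul_mem (hφ'.2 A hA) (hy.2 A hA)
  have key : φ₁ ∈ classKer T' F ⊔ normSubgroup F F₁ := by
    rw [← mainPart_mul_restPart (T := T) φ₁]
    refine mul_mem (Subgroup.mem_sup_right (mem_normSubgroup_of_split (le_kummerField z)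
      (mainPart_mem hφ₁mem) (fun A hA => hsplitfin A ?_) fun ι _ =>
        splitInf_of_eq_pow hμ hz hψ ι (hψinf ι))) ?_
    · by_contra h; exact hA (restr_fin_of_neg h)
    set ρ := restPart T φ₁
    have hρ : ρ ∈ ideles F := (restPart_mem hφ₁mem).1
    have hρT : ∀ A : Place, A.Over T → ρ.fin A = 1 := (restPart_mem hφ₁mem).2.1
    have hρu : ∀ A : Place, ρ.fin A ∈ A.1.unitGroup := fun A => by
      by_cases hA : A.Over T
      · rw [hρT A hA]; exact one_mem _
      · simp only [ρ, restPart]
        rw [restr_fin_of_pos (Z := fun A => ¬ A.Over T) hA]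
        exact hφ₁u A hA
    rw [← restr_mul_restr_not (fun A => A.Over T') (fun _ => False) ρ]
    have hρ₁ : restrIdele (fun A => A.Over T') (fun _ => False) ρ ∈ ideles F :=
      restr_mem_ideles hρ (fun _ _ _ => Place.over_smul_iff) (fun _ _ _ => Iff.rfl) fun _ => Iff.rfl
    refine mul_mem (Subgroup.mem_sup_right ?_) (Subgroup.mem_sup_left (Subgroup.mem_sup_right ?_))
    · refine mem_of_forall_prime (primesOverT F T') hρ₁ (funext fun ι => restr_inf_of_neg not_false)
        (fun A hA => primeOf_mem_primesOverT.mpr (by by_contra h; exact hA (restr_fin_of_neg h)))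
        fun P hP => ?_
      obtain ⟨A, hA, rfl⟩ := mem_primesOverT.mp hP
      set θ := restrIdele (fun B => primeOf F B = primeOf F A) (fun _ => False)
        (restrIdele (fun A => A.Over T') (fun _ => False) ρ)
      have hθ : θ ∈ ideles F := restr_mem_ideles hρ₁
        (fun σ hσ B => by rw [primeOf_smul hσ]) (fun _ _ _ => Iff.rfl) fun _ => Iff.rfl
      have hθinf : θ.inf = 1 := funext fun ι => restr_inf_of_neg not_false
      have hθsupp : ∀ B, θ.fin B ≠ 1 → primeOf F B = primeOf F A := fun B hB => by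
        by_contra h; exact hB (restr_fin_of_neg h)
      have hθA : θ.fin A = ρ.fin A := by
        rw [restr_fin_of_pos (Z := fun B => primeOf F B = primeOf F A) rfl,
          restr_fin_of_pos (Z := fun A => A.Over T') hA]
      by_cases hpow : θ.fin A ∈ decPow p F A
      · obtain ⟨r, hr, hrinf, hrfin⟩ := exists_pow_eq (p := p) hθ (fun B => by
          by_cases h : primeOf F B = primeOf F A
          · obtain ⟨σ, hσ, rfl⟩ := exists_smul_eq_of_primeOf_eq h.symm
            convert smul_mem_decPow hσ hpow using 1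
            exact Units.ext (coe_smul_fin hθ hσ A)
          · rw [show θ.fin B = 1 from not_not.mp fun hne => h (hθsupp B hne)]
            exact one_mem _)
        have e : θ = r ^ p := PreIdele.ext
          (funext fun B => (hrfin B).symm.trans (map_pow (finHom B) r p).symm)
          (funext fun ι => by
            show θ.inf ι = infHom ι (r ^ p)
            rw [map_pow]
            show θ.inf ι = r.inf ι ^ p
            simp [hθinf, hrinf])
        rw [e]
        exact pow_mem_normSubgroup hdeg (le_kummerField z) hr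
      · have hnT : ¬ A.Over T := fun h => hpow (by rw [hθA, hρT A h]; exact one_mem _)
        have hnZ : ¬ D.Zone A := by
          rintro (h | ⟨i, hi⟩)
          · exact hnT h
          obtain ⟨σ, hσ, rfl⟩ := exists_smul_eq_of_primeOf_eq hi.symm
          refine hpow ?_
          have h1 : ρ.fin (D.A i) ∈ decPow p F (D.A i) := by
            simp only [ρ, restPart]
            rw [restr_fin_of_pos (Z := fun A => ¬ A.Over T) (D.notOver i)]
            exact hyD i
          convert smul_mem_decPow hσ h1 using 1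
          rw [hθA]
          exact Units.ext (coe_smul_fin hρ hσ (D.A i))
        exact mem_normSubgroup_of_unit hμ hzF hz hxF (char_ne_of_notOver hL.mem hnT) (hxu A hnZ)
          hθ hθinf hθsupp (hθA ▸ hρu A)
    · refine ⟨⟨restr_mem_ideles hρ (fun _ _ _ => not_congr Place.over_smul_iff) (fun _ _ _ => Iff.rfl)
        fun _ => Iff.rfl, fun A hA => restr_fin_of_neg (not_not_intro hA), funext fun ι => ?_⟩,
        fun A => ?_⟩
      · rw [restr_inf_of_pos (W := fun _ => ¬ False) not_false, restPart_inf]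
      · by_cases hA : A.Over T'
        · rw [restr_fin_of_neg (not_not_intro hA)]; exact one_mem _
        · rw [restr_fin_of_pos (Z := fun A => ¬ A.Over T') hA]; exact hρu A
  have hprin : ∀ w : ℚ̄ˣ, (w : ℚ̄) ∈ F → principalHom w ∈ classKer T' F ⊔ normSubgroup F F₁ :=
    fun w hw => Subgroup.mem_sup_left (Subgroup.mem_sup_left ⟨w, hw, rfl⟩)
  have e : φ = φ₁ / principalHom y * principalHom x' := by
    simp only [hφ₁, φ', mul_div_cancel_right, div_mul_cancel]
  rw [e]
  exact mul_mem (div_mem key (hprin y hy.1)) (hprin x' hx'F)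

/-- Elements of `F` with a simple zero at one auxiliary place. -/
theorem AuxPlaces.exists_uniformizer (D : AuxPlaces T p F F' n) (hT : TPrincipal T F) (i : Fin n) :
    ∃ π : ℚ̄ˣ, (π : ℚ̄) ∈ F ∧
      (D.A i).1.valuation (π : ℚ̄) = (D.A i).1.valuation ((D.A i).char : ℚ̄) ∧
      ∀ B : Place, ¬ B.Over T → primeOf F B ≠ primeOf F (D.A i) → π ∈ B.1.unitGroup := by
  obtain ⟨π, hπF, hπ⟩ := hT _ (placeIdele_mem_ideles (F := F) (D.A i).prime_char (D.A i).liesOver_char)
  refine ⟨π, hπF, ?_, fun B hB hne => ?_⟩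
  · have h := mem_unitGroup_iff.mp (hπ _ (D.notOver i))
    rw [Units.val_mul, Units.val_inv_eq_inv_val, map_mul, map_inv₀, placeIdele_fin_self,
      mul_inv_eq_one₀ (by simp)] at h
    exact h.symm
  · have h := hπ B hB
    rw [placeIdele_fin_of_not _ _ (fun ⟨σ, hσ, h⟩ => hne (h ▸ primeOf_smul hσ)), one_mul] at h
    exact inv_mem_iff.mp h

/-- The group of local classes of the units outside the zone is large. -/
theorem AuxPlaces.le_relIndex [hp : Fact p.Prime] (D : AuxPlaces T p F F' n)
    (hL : IdeleSetting T p L) (hT : TPrincipal T F) (hFL : F ≤ L) (hμ : ContainsMuP p F)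
    (hfin : (awayIdeles T F ⊔ powIdeles p F).relIndex (principal F ⊓ offIdeles D.Zone F) ≠ 0) :
    p ^ (numPlaces T F + numInf F + n) ≤
      (awayIdeles T F ⊔ powIdeles p F).relIndex (principal F ⊓ offIdeles D.Zone F) := by
  classical
  have := hL.finite
  choose π hπF hπA hπu using D.exists_uniformizer hT
  set U := tUnits T F
  set Up := U.map (powMonoidHom p) with hUp
  set V := principal F ⊓ offIdeles D.Zone F with hV
  set P := awayIdeles T F ⊔ powIdeles p F
  have hcardU : Nat.card (U ⧸ Up.subgroupOf U) = p ^ (numPlaces T F + numInf F) :=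
    relIndex_tUnits_pow hL hFL hμ
  have : Finite (V ⧸ P.subgroupOf V) := Nat.finite_of_card_ne_zero hfin
  -- representatives
  let v : (U ⧸ Up.subgroupOf U) × (Fin n → Fin p) → ℚ̄ˣ := fun ce =>
    ((Quotient.out ce.1 : U) : ℚ̄ˣ) * ∏ i, π i ^ (ce.2 i : ℕ)
  have hvF : ∀ ce, (v ce : ℚ̄) ∈ F := fun ce => by
    simp only [v, Units.val_mul, Units.coe_prod, Units.val_pow_eq_pow_val]
    exact mul_mem (Quotient.out ce.1 : U).2.1 (prod_mem fun i _ => pow_mem (hπF i) _)
  have hvu : ∀ ce B, ¬ D.Zone B → v ce ∈ B.1.unitGroup := fun ce B hB =>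
    mul_mem ((Quotient.out ce.1 : U).2.2 B fun h => hB (Or.inl h))
      (prod_mem fun i _ => pow_mem (hπu i B (fun h => hB (Or.inl h)) fun h => hB (Or.inr ⟨i, h⟩)) _)
  have hvV : ∀ ce, principalHom (v ce) ∈ V := fun ce =>
    ⟨⟨_, hvF ce, rfl⟩, principalHom_mem_ideles (hvF ce), hvu ce⟩
  let f : (U ⧸ Up.subgroupOf U) × (Fin n → Fin p) → V ⧸ P.subgroupOf V := fun ce =>
    QuotientGroup.mk ⟨_, hvV ce⟩
  have hf : Function.Injective f := by
    intro ce ce' h
    have h1 : principalHom ((v ce)⁻¹ * v ce') ∈ P := by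
      rw [map_mul, map_inv]
      exact Subgroup.mem_subgroupOf.mp (QuotientGroup.eq.mp h)
    obtain ⟨y, hyF, hy⟩ := D.exists_root hL hT hFL hμ
      (by rw [Units.val_mul, Units.val_inv_eq_inv_val]; exact mul_mem (inv_mem (hvF ce)) (hvF ce'))
      (fun B hB => mul_mem (inv_mem (hvu ce B hB)) (hvu ce' B hB)) h1
    have hexp : ce.2 = ce'.2 := funext fun i => by
      set A := D.A i
      set c := A.1.valuation (A.char : ℚ̄) with hc
      have hval : ∀ ce, A.1.valuation (v ce : ℚ̄) = c ^ (ce.2 i : ℕ) := fun ce => by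
        simp only [v, Units.val_mul, Units.coe_prod, Units.val_pow_eq_pow_val, map_mul, map_prod,
          map_pow]
        rw [mem_unitGroup_iff.mp ((Quotient.out ce.1 : U).2.2 A (D.notOver i)), one_mul,
          Finset.prod_eq_single i, hπA i]
        · intro j _ hj
          rw [mem_unitGroup_iff.mp (hπu j A (D.notOver i) fun h =>
            hj (D.inj (char_eq_of_primeOf_eq h).symm)), one_pow]
        · exact fun h => absurd (Finset.mem_univ i) h
      obtain ⟨k, hk⟩ := EllP.exists_valuation_eq_zpow A.prime_char A.liesOver_char y.ne_zero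
        fun σ hσ => apply_of_mem (hFL hyF) (hL.unramified A (D.notOver i) σ hσ)
      have h2 := congrArg (fun w : ℚ̄ˣ => A.1.valuation (w : ℚ̄)) hy
      simp only [Units.val_mul, Units.val_pow_eq_pow_val, Units.val_inv_eq_inv_val, map_mul,
        map_pow, map_inv₀, hval, hk, ← hc] at h2
      rw [← zpow_natCast c (ce.2 i : ℕ), ← zpow_natCast c (ce'.2 i : ℕ), ← zpow_natCast (c ^ k),
        ← zpow_mul, ← zpow_neg, ← zpow_add₀ A.valuation_char_ne_zero] at h2
      have h3 := zpow_valuation_char_injective A h2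
      have := (ce.2 i).2; have := (ce'.2 i).2
      refine Fin.ext ?_
      rcases lt_trichotomy k 0 with hk0 | hk0 | hk0
      · have : k * (p : ℤ) ≤ -(p : ℤ) := by nlinarith
        omega
      · subst hk0; omega
      · have : (p : ℤ) ≤ k * (p : ℤ) := by nlinarith
        omega
    refine Prod.ext ?_ hexp
    have h2 : ((Quotient.out ce.1 : U) : ℚ̄ˣ)⁻¹ * ((Quotient.out ce'.1 : U) : ℚ̄ˣ) = y ^ p := by
      rw [hy]
      simp only [v, hexp, mul_inv_rev]
      rw [mul_comm ((Quotient.out ce'.1 : U) : ℚ̄ˣ) (∏ i, _),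
        mul_comm (∏ i, _)⁻¹ _, mul_assoc, inv_mul_cancel_left]
    rw [← QuotientGroup.out_eq' ce.1, ← QuotientGroup.out_eq' ce'.1, QuotientGroup.eq,
      Subgroup.mem_subgroupOf]
    refine ⟨y, ⟨hyF, fun A hA => ?_⟩, h2.symm⟩
    rw [mem_unitGroup_iff]
    refine (pow_eq_one_iff_of_nonneg zero_le hp.out.ne_zero).mp ?_
    have h3 : y ^ p ∈ A.1.unitGroup := h2 ▸ mul_mem (inv_mem ((Quotient.out ce.1 : U).2.2 A hA))
      ((Quotient.out ce'.1 : U).2.2 A hA)
    rw [mem_unitGroup_iff, Units.val_pow_eq_pow_val, map_pow] at h3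
    exact h3
  have hle := Nat.card_le_card_of_injective f hf
  rw [Nat.card_prod, hcardU, Nat.card_fun, Nat.card_fin, Nat.card_fin, ← pow_add] at hle
  exact hle

end FLTAgent.TW
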