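import Fermat.Agent.TW.Idele.ClassField.KummerExt

/-!
# Units at tame places: `p`-th power classes, and norms in Kummer extensions

At a place of residue characteristic `≠ p` a unit which is not a `p`-th power generates all unit
classes.  In `F(β)` a suitable `a - β` has such a norm `a ^ p - β ^ p`, so all units are norms.
-/

set_option autoImplicit false
set_option synthInstance.maxHeartbeats 200000
set_option maxHeartbeats 1000000

noncomputable section

open IsDedekindDomain Polynomial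
open scoped Pointwise NumberField

namespace FLTAgent.TW

open PreIdele

local notation "ℚ̄" => AlgebraicClosure ℚ
local notation "Γ" => (AlgebraicClosure ℚ ≃ₐ[ℚ] AlgebraicClosure ℚ)

attribute [local instance] numberField_intermediate

variable {p : ℕ} [hp : Fact p.Prime] {T : Finset ℕ}
  {F F' : IntermediateField ℚ (AlgebraicClosure ℚ)}

theorem valuation_prime_tame {A : Place} (hA : A.char ≠ p) : A.1.valuation (p : ℚ̄) = 1 := by
  refine le_antisymm ((A.1.valuation_le_one_iff _).mpr (natCast_mem A.1 p)) (not_lt.mp fun h => hA ?_)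
  exact (Nat.prime_dvd_prime_iff_eq A.prime_char hp.out).mp
    ((GalCommon.natCast_mem_nonunits_iff A.prime_char A.liesOver_char p).mp
      (by rwa [ValuationSubring.mem_nonunits_iff]))

/-- At a tame place the elements congruent to `1` are `p`-th powers. -/
theorem mem_decPow_of_lt_one (hμ : ContainsMuP p F) {A : Place} (hA : A.char ≠ p) {x : ℚ̄ˣ}
    (hfix : ∀ σ ∈ F.fixingSubgroup, σ • A = A → σ (x : ℚ̄) = x)
    (h : A.1.valuation ((x : ℚ̄) - 1) < 1) : x ∈ decPow p F A := by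
  obtain ⟨ζ, hζ⟩ := exists_primitiveRoot_qbar p
  refine mem_decPow_of_near hζ (hμ ζ hζ.pow_eq_one) hfix ?_
  have h1 := valuation_prime_eq hζ A
  rw [valuation_prime_tame hA] at h1
  rwa [valuation_prime_tame hA, (pow_eq_one_iff_of_nonneg zero_le
    (Nat.sub_ne_zero_of_lt hp.out.one_lt)).mp h1.symm, one_mul]

theorem map_mem_unitGroup {A : Place} {x : Fˣ} :
    Units.map (algebraMap F ℚ̄ : F →* ℚ̄) x ∈ A.1.unitGroup ↔
      A.1.valuation ((x : F) : ℚ̄) = 1 := Iff.rfl

variable [FiniteDimensional ℚ F]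

theorem mem_unitsAt_iff_place {A : Place} {x : Fˣ} :
    x ∈ unitsAt (primeOf F A) ↔ A.1.valuation ((x : F) : ℚ̄) = 1 := by
  rw [mem_unitsAt, ← map_one ((primeOf F A).valuation F), ← valuation_eq_iff]
  simp

/-- Congruent units differ by a local `p`-th power. -/
theorem mem_locSub_of_residue (hμ : ContainsMuP p F) {A : Place} (hA : A.char ≠ p)
    {z : unitsAt (primeOf F A)} (h : residueHom (primeOf F A) 1 z = 1) :
    (z : Fˣ) ∈ locSub p F A := by
  rw [residueHom_eq_one_iff] at h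
  refine mem_decPow_of_lt_one hμ hA (fun σ hσ _ => apply_of_mem ((z : Fˣ) : F).2 hσ) ?_
  have h1 : (primeOf F A).valuation F (((z : Fˣ) : F) - 1) < (primeOf F A).valuation F 1 := by
    rw [map_one, ← WithZero.exp_zero]
    exact lt_of_le_of_lt h (WithZero.exp_lt_exp.mpr (by norm_num))
  simpa using (valuation_lt_iff (A := A) _ _).mpr h1

/-- A unit which is not a local `p`-th power generates the classes of units. -/
theorem exists_pow_div_mem_decPow (hμ : ContainsMuP p F) {A : Place} (hA : A.char ≠ p)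
    {u y : ℚ̄ˣ} (hu : u ∈ A.1.unitGroup) (hy : y ∈ A.1.unitGroup)
    (hufix : ∀ σ ∈ F.fixingSubgroup, σ • A = A → σ (u : ℚ̄) = u)
    (hyfix : ∀ σ ∈ F.fixingSubgroup, σ • A = A → σ (y : ℚ̄) = y)
    (hynot : y ∉ decPow p F A) : ∃ i < p, u / y ^ i ∈ decPow p F A := by
  set P := primeOf F A with hP
  -- replace both by elements of `F`
  have happrox : ∀ w : ℚ̄ˣ, w ∈ A.1.unitGroup →
      (∀ σ ∈ F.fixingSubgroup, σ • A = A → σ (w : ℚ̄) = w) →
      ∃ x : unitsAt P, w / Units.map (algebraMap F ℚ̄ : F →* ℚ̄) x ∈ decPow p F A := by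
    intro w hw hwfix
    obtain ⟨x, hx0, hx⟩ := exists_approx F A w.ne_zero hwfix 1
    rw [pow_one] at hx
    have hlt : A.1.valuation ((x : ℚ̄) / w - 1) < 1 := lt_of_le_of_lt hx A.valuation_char_lt_one
    have h1 : A.1.valuation ((x : ℚ̄) / w) = 1 := by
      rw [← sub_add_cancel ((x : ℚ̄) / (w : ℚ̄)) 1, Valuation.map_add_eq_of_lt_right _
        (by rw [map_one]; exact hlt), map_one]
    have hxu : Units.mk0 x hx0 ∈ unitsAt P := mem_unitsAt_iff_place.mpr (by
      rwa [map_div₀, mem_unitGroup_iff.mp hw, div_one] at h1)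
    refine ⟨⟨_, hxu⟩, ?_⟩
    have hmem : Units.map (algebraMap F ℚ̄ : F →* ℚ̄) (Units.mk0 x hx0) / w ∈ decPow p F A := by
      refine mem_decPow_of_lt_one hμ hA (fun σ hσ hσA => ?_) ?_
      · simp [map_div₀, hwfix σ hσ hσA, apply_of_mem x.2 hσ]
      · simpa using hlt
    simpa using inv_mem hmem
  obtain ⟨x, hx⟩ := happrox u hu hufix
  obtain ⟨z, hz⟩ := happrox y hy hyfix
  -- the residue field
  have : Finite (𝓞 F ⧸ P.asIdeal ^ 1) := Ideal.finiteQuotientOfFreeOfNeBot _ (pow_ne_zero _ P.ne_bot)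
  have : (P.asIdeal ^ 1).IsPrime := by rw [pow_one]; exact P.isPrime
  have : IsDomain (𝓞 F ⧸ P.asIdeal ^ 1) := Ideal.Quotient.isDomain _
  set res := residueHom P 1 with hres
  obtain ⟨g, hg⟩ := IsCyclic.exists_generator (α := (𝓞 F ⧸ P.asIdeal ^ 1)ˣ)
  obtain ⟨a, ha⟩ := Subgroup.mem_zpowers_iff.mp (hg (res x))
  obtain ⟨b, hb⟩ := Subgroup.mem_zpowers_iff.mp (hg (res z))
  have hloc : ∀ (v : unitsAt P) (c : ℤ), res v = (g ^ c) ^ p →
      Units.map (algebraMap F ℚ̄ : F →* ℚ̄) v ∈ decPow p F A := by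
    intro v c hc
    obtain ⟨w, hw⟩ := residueHom_surjective (P := P) one_ne_zero (g ^ c)
    rw [← hw, ← map_pow] at hc
    have h1 : (v : Fˣ) / (w : Fˣ) ^ p ∈ locSub p F A :=
      mem_locSub_of_residue hμ hA (z := v / w ^ p) (by rw [_root_.map_div]; exact div_eq_one.mpr hc)
    have h2 := mul_mem h1 (pow_mem_locSub (p := p) (w : Fˣ) A)
    rwa [div_mul_cancel] at h2
  have hb0 : ((b : ℤ) : ZMod p) ≠ 0 := by
    intro h0
    obtain ⟨c, rfl⟩ := (ZMod.intCast_zmod_eq_zero_iff_dvd b p).mp h0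
    refine hynot ?_
    have h1 := mul_mem hz (hloc z c (by rw [← hb, mul_comm, zpow_mul, zpow_natCast]))
    rwa [div_mul_cancel] at h1
  set i := ((a : ZMod p) / (b : ZMod p)).val
  refine ⟨i, ZMod.val_lt _, ?_⟩
  obtain ⟨c, hc⟩ : (p : ℤ) ∣ a - i * b := by
    rw [← ZMod.intCast_zmod_eq_zero_iff_dvd]
    simp only [i, Int.cast_sub, Int.cast_mul, Int.cast_natCast, ZMod.natCast_zmod_val]
    rw [div_mul_cancel₀ _ hb0, sub_self]
  have h1 := hloc (x / z ^ i) c (by
    rw [_root_.map_div, map_pow, ← ha, ← hb, ← zpow_natCast, ← zpow_mul, div_eq_mul_inv, ← zpow_sub, mul_comm b,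
      hc, mul_comm, zpow_mul, zpow_natCast])
  have h2 := mul_mem (div_mem hx (pow_mem hz i)) h1
  simp only [Subgroup.coe_div, SubmonoidClass.coe_pow, _root_.map_div, map_pow] at h2
  have e : ∀ u' y' x' z' : ℚ̄ˣ, u' / x' / (y' / z') ^ i * (x' / z' ^ i) = u' / y' ^ i := by
    intro u' y' x' z'
    refine Units.ext ?_
    push_cast
    field_simp
    rw [← mul_pow, div_mul_cancel₀ _ z'.ne_zero]
  rwa [e] at h2

omit [FiniteDimensional ℚ F] in
theorem relIndex_le_of_forall_div {G : Type*} [CommGroup G] {D K : Subgroup G} {y : G}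
    (hy : y ∈ K) {n : ℕ} (h : ∀ u ∈ K, ∃ i < n, u / y ^ i ∈ D) :
    D.relIndex K ≤ n ∧ D.relIndex K ≠ 0 := by
  have hsurj : Function.Surjective
      fun i : Fin n => (QuotientGroup.mk (⟨y, hy⟩ ^ (i : ℕ) : K) : K ⧸ D.subgroupOf K) := by
    intro q
    induction q using QuotientGroup.induction_on with
    | _ u =>
      obtain ⟨i, hi, hu⟩ := h u u.2
      refine ⟨⟨i, hi⟩, ?_⟩
      rw [QuotientGroup.eq, Subgroup.mem_subgroupOf]
      simpa [div_eq_mul_inv, mul_comm] using hu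
  have : Finite (K ⧸ D.subgroupOf K) := Finite.of_surjective _ hsurj
  refine ⟨?_, ?_⟩
  · rw [Subgroup.relIndex, Subgroup.index_eq_card]
    exact (Nat.card_le_card_of_surjective _ hsurj).trans_eq (by simp)
  · rw [Subgroup.relIndex, Subgroup.index_eq_card]
    exact Nat.card_pos.ne'

/-- `T`-units modulo local `p`-th powers at a tame place. -/
theorem relIndex_decPow_tUnits (hμ : ContainsMuP p F) {A : Place} (hAT : ¬ A.Over T)
    (hA : A.char ≠ p) :
    (decPow p F A).relIndex (tUnits T F) ≤ p ∧ (decPow p F A).relIndex (tUnits T F) ≠ 0 := by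
  by_cases h : tUnits T F ≤ decPow p F A
  · rw [Subgroup.relIndex_eq_one.mpr h]
    exact ⟨hp.out.one_lt.le, one_ne_zero⟩
  · obtain ⟨y, hy, hy'⟩ := SetLike.not_le_iff_exists.mp h
    exact relIndex_le_of_forall_div hy fun u hu =>
      exists_pow_div_mem_decPow hμ hA (hu.2 A hAT) (hy.2 A hAT)
        (fun σ hσ _ => apply_of_mem hu.1 hσ) (fun σ hσ _ => apply_of_mem hy.1 hσ) hy'

/-- Some `a ^ p - x` is a unit which is not a local `p`-th power. -/
theorem exists_pow_sub_not_mem (hμ : ContainsMuP p F) {A : Place} (hA : A.char ≠ p) {x : ℚ̄ˣ}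
    (hxF : (x : ℚ̄) ∈ F) (hx : x ∈ A.1.unitGroup) (hxnot : x ∉ decPow p F A) :
    ∃ a : ℚ̄, a ∈ F ∧ ∃ g : ℚ̄ˣ,
      (g : ℚ̄) = a ^ p - x ∧ g ∈ A.1.unitGroup ∧ g ∉ decPow p F A := by
  rcases hp.out.eq_two_or_odd' with h2 | hodd
  swap
  · refine ⟨0, F.zero_mem, -x, by simp [zero_pow hp.out.ne_zero], ?_, fun h => hxnot ?_⟩
    · rw [mem_unitGroup_iff, Units.val_neg, Valuation.map_neg]
      exact mem_unitGroup_iff.mp hx
    · have h1 : (-1 : ℚ̄ˣ) ∈ decPow p F A :=
        ⟨-1, hodd.neg_one_pow, fun σ _ _ => by simp⟩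
      simpa using mul_mem h1 h
  subst h2
  set P := primeOf F A with hP
  let xF : Fˣ := Units.mk0 ⟨(x : ℚ̄), hxF⟩ (fun h => x.ne_zero (congrArg Subtype.val h))
  have hxu : xF ∈ unitsAt P := mem_unitsAt_iff_place.mpr (mem_unitGroup_iff.mp hx)
  have hmapx : Units.map (algebraMap F ℚ̄ : F →* ℚ̄) xF = x := Units.ext rfl
  have : Finite (𝓞 F ⧸ P.asIdeal ^ 1) := Ideal.finiteQuotientOfFreeOfNeBot _ (pow_ne_zero _ P.ne_bot)
  have : (P.asIdeal ^ 1).IsMaximal := by rw [pow_one]; exact P.isMaximal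
  let := Ideal.Quotient.field (P.asIdeal ^ 1)
  let := Fintype.ofFinite (𝓞 F ⧸ P.asIdeal ^ 1)
  set res := residueHom P 1
  set c : 𝓞 F ⧸ P.asIdeal ^ 1 := ((res ⟨xF, hxu⟩ : (𝓞 F ⧸ P.asIdeal ^ 1)ˣ) :
    𝓞 F ⧸ P.asIdeal ^ 1) with hc
  have hc0 : c ≠ 0 := Units.ne_zero _
  have hnsq : ∀ w, w ^ 2 ≠ c := by
    intro w hw
    have hw0 : w ≠ 0 := fun h => hc0 (by rw [← hw, h, zero_pow two_ne_zero])
    obtain ⟨z, hz⟩ := residueHom_surjective (P := P) one_ne_zero (Units.mk0 w hw0)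
    have h1 : xF / (z : Fˣ) ^ 2 ∈ locSub 2 F A :=
      mem_locSub_of_residue hμ hA (z := ⟨xF, hxu⟩ / z ^ 2) (by
        rw [_root_.map_div, map_pow, div_eq_one, hz]; exact Units.ext hw.symm)
    have h2 := mul_mem h1 (pow_mem_locSub (p := 2) (z : Fˣ) A)
    rw [div_mul_cancel] at h2
    exact hxnot (hmapx ▸ h2)
  have hcard : Fintype.card (𝓞 F ⧸ P.asIdeal ^ 1) % 2 = 1 := by
    refine FiniteField.odd_card_of_char_ne_two fun h => ?_
    have h1 : ((2 : ℕ) : 𝓞 F ⧸ P.asIdeal ^ 1) = 0 := by rw [← h]; exact ringChar.Nat.cast_ringChar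
    rw [← map_natCast (Ideal.Quotient.mk _), Ideal.Quotient.eq_zero_iff_mem, pow_one,
      mem_primeOf] at h1
    have h3 := valuation_prime_tame hA
    have h4 : (((2 : ℕ) : 𝓞 F) : F) = ((2 : ℕ) : F) := map_natCast _ 2
    rw [h4, show (((2 : ℕ) : F) : ℚ̄) = ((2 : ℕ) : ℚ̄) from map_natCast F.val 2, h3] at h1
    exact lt_irrefl _ h1
  obtain ⟨a, b, hab⟩ := FiniteField.exists_root_sum_quadratic (f := X ^ 2 - C c) (g := C (-c) * X ^ 2)
    (degree_X_pow_sub_C two_pos c) (by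
      rw [degree_C_mul_X_pow 2 (neg_ne_zero.mpr hc0)]; norm_num) hcard
  simp only [eval_sub, eval_pow, eval_X, eval_C, eval_mul] at hab
  have hb0 : b ≠ 0 := fun h => hnsq a (by
    rw [h, zero_pow two_ne_zero, mul_zero, add_zero] at hab
    exact sub_eq_zero.mp hab)
  obtain ⟨r, hr⟩ := Ideal.Quotient.mk_surjective a
  obtain ⟨z, hz⟩ := residueHom_surjective (P := P) one_ne_zero (Units.mk0 b hb0)
  have hd : a ^ 2 - c = c * b ^ 2 := by linear_combination hab
  set g₀ : F := (r : F) ^ 2 - (xF : F)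
  -- the reduction of `g₀`
  have hxres := (residueFun_eq (P := P) (m := 1) (x := ⟨xF, hxu⟩)
    (exists_int_near P ((mem_unitsAt P).mp hxu).le 1).choose_spec)
  set x₁ := (exists_int_near P ((mem_unitsAt P).mp hxu).le 1).choose with hx₁
  have hx₁' := (exists_int_near P ((mem_unitsAt P).mp hxu).le 1).choose_spec
  rw [← hx₁] at hx₁'
  have hgval : P.valuation F (g₀ - ((r ^ 2 - x₁ : 𝓞 F) : F)) ≤ WithZero.exp (-((1 : ℕ) : ℤ)) := by
    have e : g₀ - ((r ^ 2 - x₁ : 𝓞 F) : F) = -((xF : F) - x₁) := by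
      simp only [g₀]; push_cast; ring
    rwa [e, Valuation.map_neg]
  have hgres : Ideal.Quotient.mk (P.asIdeal ^ 1) (r ^ 2 - x₁) = c * b ^ 2 := by
    rw [map_sub, map_pow, hr, ← hd]
    exact congrArg (a ^ 2 - ·) hxres.symm
  have hg1 : P.valuation F g₀ = 1 := by
    have h1 : P.valuation F ((r ^ 2 - x₁ : 𝓞 F) : F) = 1 := by
      rw [HeightOneSpectrum.valuation_of_algebraMap]
      refine (P.intValuation_eq_one_iff_mem_primeCompl _).mpr fun h => ?_
      have h' : Ideal.Quotient.mk (P.asIdeal ^ 1) (r ^ 2 - x₁) = 0 := by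
        rw [Ideal.Quotient.eq_zero_iff_mem, pow_one]; exact h
      rw [hgres] at h'
      exact mul_ne_zero hc0 (pow_ne_zero _ hb0) h'
    rw [← sub_add_cancel g₀ ((r ^ 2 - x₁ : 𝓞 F) : F), Valuation.map_add_eq_of_lt_right _ ?_, h1]
    rw [h1, ← WithZero.exp_zero]
    exact lt_of_le_of_lt hgval (WithZero.exp_lt_exp.mpr (by norm_num))
  have hg0 : g₀ ≠ 0 := fun h => by simp [h] at hg1
  let gF : Fˣ := Units.mk0 g₀ hg0
  have hgu : gF ∈ unitsAt P := (mem_unitsAt P).mpr hg1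
  refine ⟨((r : F) : ℚ̄), (r : F).2, Units.map (algebraMap F ℚ̄ : F →* ℚ̄) gF, ?_,
    mem_unitsAt_iff_place.mp hgu, fun h => hxnot ?_⟩
  · show (g₀ : ℚ̄) = _
    simp [g₀, xF]
  have hres' : res ⟨gF, hgu⟩ = res (⟨xF, hxu⟩ * z ^ 2) := by
    refine Units.ext ((residueFun_eq (x := ⟨gF, hgu⟩) hgval).trans ?_)
    rw [map_mul, map_pow, hz, Units.val_mul, Units.val_pow_eq_pow_val, Units.val_mk0]
    exact hgres
  have h1 : gF / (xF * (z : Fˣ) ^ 2) ∈ locSub 2 F A :=
    mem_locSub_of_residue hμ hA (z := ⟨gF, hgu⟩ / (⟨xF, hxu⟩ * z ^ 2))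
      (by rw [_root_.map_div]; exact div_eq_one.mpr hres')
  have h2 : xF ∈ locSub 2 F A := by
    have := div_mem (mul_mem (inv_mem h1) (show gF ∈ locSub 2 F A from h))
      (pow_mem_locSub (p := 2) (z : Fˣ) A)
    simpa [div_eq_mul_inv, mul_comm, mul_left_comm] using this
  exact hmapx ▸ h2

omit [FiniteDimensional ℚ F] in
/-- A place at which the Kummer element is a `p`-th power is split. -/
theorem splitAt_of_mem_decPow {β : ℚ̄} {x : ℚ̄ˣ} (hμ : ContainsMuP p F) (hx : β ^ p = x)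
    (hgen : ∀ σ ∈ F.fixingSubgroup, σ β = β → σ ∈ F'.fixingSubgroup) {A : Place}
    (h : x ∈ decPow p F A) : SplitAt F F' A := by
  obtain ⟨t, ht, hfix⟩ := h
  intro σ hσ hσA
  refine hgen σ hσ ?_
  have hq : ((β : ℚ̄) / t) ^ p = 1 := by
    rw [div_pow, hx, ← ht, Units.val_pow_eq_pow_val, div_self (pow_ne_zero _ t.ne_zero)]
  have h1 := apply_of_mem (hμ _ hq) hσ
  rwa [map_div₀, hfix σ hσ hσA, div_left_inj' t.ne_zero] at h1

/-- `p`-th powers of ideles of `F` are norms. -/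
theorem pow_mem_normSubgroup [FiniteDimensional ℚ F']
    (hdeg : F'.fixingSubgroup.relIndex F.fixingSubgroup = p) (hFF' : F ≤ F') {ψ : PreIdele}
    (hψ : ψ ∈ ideles F) : ψ ^ p ∈ normSubgroup F F' := by
  rw [← hdeg, ← normIdele_of_mem' hψ]
  exact normIdele_mem_normSubgroup (ideles_le_of_le hFF' hψ)

/-- Units at a tame prime are norms from a Kummer extension unramified there. -/
theorem mem_normSubgroup_of_unit (hμ : ContainsMuP p F) {β : ℚ̄} (hβF : β ∉ F) {x : ℚ̄ˣ}
    (hx : β ^ p = x) (hxF : (x : ℚ̄) ∈ F) {A : Place} (hA : A.char ≠ p) (hxA : x ∈ A.1.unitGroup)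
    {φ : PreIdele} (hφ : φ ∈ ideles F) (hinf : φ.inf = 1)
    (hsupp : ∀ B, φ.fin B ≠ 1 → primeOf F B = primeOf F A) (hu : φ.fin A ∈ A.1.unitGroup) :
    φ ∈ normSubgroup F (kummerField F β) := by
  classical
  set F₁ := kummerField F β with hF₁
  have : FiniteDimensional ℚ F₁ := finite_kummerField β
  have hFF₁ : F ≤ F₁ := le_kummerField β
  have hgen : ∀ σ ∈ F.fixingSubgroup, σ β = β → σ ∈ F₁.fixingSubgroup := fun σ h1 h2 =>
    mem_fix_kummerField.mpr ⟨h1, h2⟩
  obtain ⟨hnormal, hdeg⟩ := kummerField_normal hμ (hx ▸ hxF) hβF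
  by_cases hxd : x ∈ decPow p F A
  · refine mem_normSubgroup_of_split hFF₁ hφ (fun B hB => ?_) fun ι hι => absurd (congrFun hinf ι) hι
    obtain ⟨σ, hσ, rfl⟩ := exists_smul_eq_of_primeOf_eq (hsupp B hB).symm
    refine splitAt_of_mem_decPow hμ hx hgen ?_
    have h := smul_mem_decPow hσ hxd
    rwa [show Units.map (σ : ℚ̄ →* ℚ̄) x = x from Units.ext (apply_of_mem hxF hσ)] at h
  obtain ⟨a, haF, g, hg, hgA, hgnot⟩ := exists_pow_sub_not_mem hμ hA hxF hxA hxd
  have hgF : (g : ℚ̄) ∈ F := hg ▸ sub_mem (pow_mem haF p) hxF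
  have hγ0 : a - β ≠ 0 := fun h => g.ne_zero (by rw [hg, ← hx, sub_eq_zero.mp h, sub_self])
  set γ : ℚ̄ˣ := Units.mk0 (a - β) hγ0
  have hγF₁ : (γ : ℚ̄) ∈ F₁ := sub_mem (hFF₁ haF) (mem_kummerField β)
  set ψ := restrIdele (fun B => primeOf F B = primeOf F A) (fun _ => False) (principalHom γ) with hψdef
  have hψ : ψ ∈ ideles F₁ := restr_mem_ideles (principalHom_mem_ideles hγF₁)
    (fun σ hσ B => by rw [primeOf_smul (IntermediateField.fixingSubgroup_le hFF₁ hσ)])
    (fun _ _ _ => Iff.rfl) fun _ => Iff.rfl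
  have := finite_fixing_quotient F.fixingSubgroup F₁
  have := Fintype.ofFinite (F.fixingSubgroup ⧸ F₁.fixingSubgroup.subgroupOf F.fixingSubgroup)
  -- the product of the conjugates of `a - β`
  have hprod : ∏ c : F.fixingSubgroup ⧸ F₁.fixingSubgroup.subgroupOf F.fixingSubgroup,
      ((Quotient.out c : F.fixingSubgroup) : Γ) (γ : ℚ̄) = g := by
    obtain ⟨ζ, hζ⟩ := exists_primitiveRoot_qbar p
    have hβ0 : β ≠ 0 := fun h => hβF (h ▸ F.zero_mem)
    have hi : ∀ c : F.fixingSubgroup ⧸ F₁.fixingSubgroup.subgroupOf F.fixingSubgroup,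
        ∃ i : Fin p, ((Quotient.out c : F.fixingSubgroup) : Γ) β = ζ ^ (i : ℕ) * β := fun c => by
      obtain ⟨i, hi, h⟩ := exists_zeta_pow hζ hβ0
        (apply_of_mem (hx ▸ hxF) (Quotient.out c : F.fixingSubgroup).2)
      exact ⟨⟨i, hi⟩, h⟩
    choose e he using hi
    have hinj : Function.Injective e := fun c c' h => by
      rw [← QuotientGroup.out_eq' c, ← QuotientGroup.out_eq' c', QuotientGroup.eq,
        Subgroup.mem_subgroupOf]
      refine hgen _ (mul_mem (inv_mem (Quotient.out c).2) (Quotient.out c').2) ?_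
      simp only [Subgroup.coe_mul, InvMemClass.coe_inv, AlgEquiv.mul_apply]
      rw [show ((Quotient.out c' : F.fixingSubgroup) : Γ) β =
        ((Quotient.out c : F.fixingSubgroup) : Γ) β by rw [he, he, h], ← AlgEquiv.mul_apply,
        inv_mul_cancel, AlgEquiv.one_apply]
    have hbij : Function.Bijective e := by
      rw [Fintype.bijective_iff_injective_and_card]
      refine ⟨hinj, ?_⟩
      rw [Fintype.card_fin, ← Nat.card_eq_fintype_card, ← Subgroup.index_eq_card]
      exact hdeg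
    have h1 := congrArg (Polynomial.eval a) (X_pow_sub_C_eq_prod hζ hp.out.pos (α := β) rfl)
    simp only [eval_sub, eval_pow, eval_X, eval_C, eval_prod] at h1
    rw [hg, ← hx, h1, ← Fin.prod_univ_eq_prod_range (fun i => a - ζ ^ i * β) p]
    exact Fintype.prod_bijective e hbij _ _ fun c => by
      simp [γ, map_sub, apply_of_mem haF (Quotient.out c : F.fixingSubgroup).2, he]
  have hN : ∀ B, ((normIdele F F₁ ψ).fin B : ℚ̄) =
      if primeOf F B = primeOf F A then (g : ℚ̄) else 1 := fun B => by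
    rw [coe_fin_normIdele]
    by_cases h : primeOf F B = primeOf F A
    · rw [if_pos h, ← hprod]
      refine Finset.prod_congr rfl fun c _ => ?_
      rw [hψdef, restr_fin_of_pos (by rwa [primeOf_smul (inv_mem (Quotient.out c).2)])]
      rfl
    · rw [if_neg h]
      refine Finset.prod_eq_one fun c _ => ?_
      rw [hψdef, restr_fin_of_neg (by rwa [primeOf_smul (inv_mem (Quotient.out c).2)]),
        Units.val_one, map_one]
  have hNinf : (normIdele F F₁ ψ).inf = 1 := funext fun ι => by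
    rw [inf_normIdele]
    exact Finset.prod_eq_one fun c _ => restr_inf_of_neg not_false
  obtain ⟨i, -, hi⟩ := exists_pow_div_mem_decPow hμ hA hu hgA (fun σ hσ hσA => fin_fixed hφ A hσ hσA)
    (fun σ hσ _ => apply_of_mem hgF hσ) hgnot
  set N := normIdele F F₁ ψ with hNdef
  have hNF : N ∈ ideles F := normIdele_mem' hψ
  have hθ : φ / N ^ i ∈ ideles F := div_mem hφ (pow_mem hNF i)
  have hfinθ : ∀ B, (φ / N ^ i).fin B = φ.fin B / N.fin B ^ i := fun B => by
    show finHom B (φ / N ^ i) = finHom B φ / finHom B N ^ i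
    rw [_root_.map_div, map_pow]
  have hloc : ∀ B, (φ / N ^ i).fin B ∈ decPow p F B := by
    intro B
    by_cases h : primeOf F B = primeOf F A
    · obtain ⟨σ, hσ, rfl⟩ := exists_smul_eq_of_primeOf_eq h.symm
      have hA' : (φ / N ^ i).fin A ∈ decPow p F A := by
        rw [hfinθ, show N.fin A = g from Units.ext (by rw [hN, if_pos rfl])]
        exact hi
      convert smul_mem_decPow hσ hA' using 1
      exact Units.ext (coe_smul_fin hθ hσ A)
    · rw [hfinθ, show N.fin B = 1 from Units.ext (by rw [hN, if_neg h]; rfl),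
        show φ.fin B = 1 from not_not.mp fun hne => h (hsupp B hne), one_pow, div_one]
      exact one_mem _
  obtain ⟨ρ, hρ, hρinf, hρfin⟩ := exists_pow_eq hθ hloc
  have e : φ = ρ ^ p * N ^ i := by
    rw [← div_eq_iff_eq_mul]
    refine PreIdele.ext (funext fun B => ?_) (funext fun ι => ?_)
    · exact (hρfin B).symm.trans (map_pow (finHom B) ρ p).symm
    · show infHom ι (φ / N ^ i) = infHom ι (ρ ^ p)
      rw [_root_.map_div, map_pow, map_pow]
      show φ.inf ι / N.inf ι ^ i = ρ.inf ι ^ p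
      simp [hinf, hNinf, hρinf]
  rw [e]
  exact mul_mem (pow_mem_normSubgroup hdeg hFF₁ hρ) (pow_mem (normIdele_mem_normSubgroup hψ) i)

end FLTAgent.TW
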